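import Mathlib
import Fermat.Prelude.Def_FLTPrelim_Modularity

/-!
# S52, package [VC]: point counts are invariant under admissible changes of variables

* `pointEquiv C W : W.toAffine.Point ≃ (C • W).toAffine.Point` for every commutative ring and
  every admissible change of variables `C`;
* `card_variableChange`, `traceOfFrobenius_variableChange`;
* `shortModel W = ⟨0, 0, 0, -27 c₄, -54 c₆⟩` has the same `apOfModel ℓ` as `W` for `ℓ ≥ 5`.
-/

set_option autoImplicit false

open WeierstrassCurve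

namespace Fermat.Agent.S52.VC

section General

variable {R : Type*} [CommRing R] (C : VariableChange R) (W : WeierstrassCurve R)

/-- The `x`-coordinate of the image point. -/
def xMap (x : R) : R := (↑C.u⁻¹ : R) ^ 2 * (x - C.r)

/-- The `y`-coordinate of the image point. -/
def yMap (x y : R) : R := (↑C.u⁻¹ : R) ^ 3 * (y - C.s * (x - C.r) - C.t)

/-- The `x`-coordinate of the preimage point. -/
def xInv (x' : R) : R := (↑C.u : R) ^ 2 * x' + C.r

/-- The `y`-coordinate of the preimage point. -/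
def yInv (x' y' : R) : R := (↑C.u : R) ^ 3 * y' + (↑C.u : R) ^ 2 * C.s * x' + C.t

lemma xMap_xInv (x' : R) : xMap C (xInv C x') = x' := by
  unfold xMap xInv
  linear_combination x' * pow_mul_pow_eq_one 2 C.u.inv_mul

lemma yMap_xInv_yInv (x' y' : R) : yMap C (xInv C x') (yInv C x' y') = y' := by
  unfold yMap xInv yInv
  linear_combination y' * pow_mul_pow_eq_one 3 C.u.inv_mul

lemma xInv_xMap (x : R) : xInv C (xMap C x) = x := by
  unfold xMap xInv
  linear_combination (x - C.r) * pow_mul_pow_eq_one 2 C.u.mul_inv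

lemma yInv_xMap_yMap (x y : R) : yInv C (xMap C x) (yMap C x y) = y := by
  unfold yMap xMap yInv
  linear_combination (y - C.s * (x - C.r) - C.t) * pow_mul_pow_eq_one 3 C.u.mul_inv
    + C.s * (x - C.r) * pow_mul_pow_eq_one 2 C.u.mul_inv

lemma isUnit_inv_pow (n : ℕ) : IsUnit ((↑C.u⁻¹ : R) ^ n) := (C.u⁻¹).isUnit.pow n

/-- The Weierstrass equation transforms by the factor `u⁻⁶`. -/
lemma equation_map_iff (x y : R) :
    (C • W).toAffine.Equation (xMap C x) (yMap C x y) ↔ W.toAffine.Equation x y := by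
  rw [Affine.equation_iff', Affine.equation_iff']
  have key : yMap C x y ^ 2 + (C • W).a₁ * xMap C x * yMap C x y + (C • W).a₃ * yMap C x y -
      (xMap C x ^ 3 + (C • W).a₂ * xMap C x ^ 2 + (C • W).a₄ * xMap C x + (C • W).a₆) =
      (↑C.u⁻¹ : R) ^ 6 * (y ^ 2 + W.a₁ * x * y + W.a₃ * y -
        (x ^ 3 + W.a₂ * x ^ 2 + W.a₄ * x + W.a₆)) := by
    simp only [variableChange_def, xMap, yMap]
    ring
  rw [key]
  exact (isUnit_inv_pow C 6).mul_right_eq_zero

/-- Nonsingularity is preserved. -/
lemma nonsingular_map_iff (x y : R) :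
    (C • W).toAffine.Nonsingular (xMap C x) (yMap C x y) ↔ W.toAffine.Nonsingular x y := by
  rw [Affine.nonsingular_iff', Affine.nonsingular_iff', equation_map_iff]
  have keyY : 2 * yMap C x y + (C • W).a₁ * xMap C x + (C • W).a₃ =
      (↑C.u⁻¹ : R) ^ 3 * (2 * y + W.a₁ * x + W.a₃) := by
    simp only [variableChange_def, xMap, yMap]
    ring
  have keyX : (C • W).a₁ * yMap C x y -
      (3 * xMap C x ^ 2 + 2 * (C • W).a₂ * xMap C x + (C • W).a₄) =
      (↑C.u⁻¹ : R) ^ 4 * ((W.a₁ * y - (3 * x ^ 2 + 2 * W.a₂ * x + W.a₄)) +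
        C.s * (2 * y + W.a₁ * x + W.a₃)) := by
    simp only [variableChange_def, xMap, yMap]
    ring
  rw [keyX, keyY]
  refine and_congr_right fun _ => ?_
  rw [Ne, Ne, (isUnit_inv_pow C 4).mul_right_eq_zero, (isUnit_inv_pow C 3).mul_right_eq_zero]
  constructor
  · rintro (h | h)
    · by_cases h2 : 2 * y + W.a₁ * x + W.a₃ = 0
      · left
        intro h1
        apply h
        rw [h1, h2, mul_zero, add_zero]
      · exact Or.inr h2
    · exact Or.inr h
  · rintro (h | h)
    · by_cases h2 : 2 * y + W.a₁ * x + W.a₃ = 0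
      · left
        intro h1
        apply h
        rw [h2, mul_zero, add_zero] at h1
        exact h1
      · exact Or.inr h2
    · exact Or.inr h

lemma nonsingular_inv (x' y' : R) (h : (C • W).toAffine.Nonsingular x' y') :
    W.toAffine.Nonsingular (xInv C x') (yInv C x' y') := by
  rw [← nonsingular_map_iff C W, xMap_xInv, yMap_xInv_yInv]
  exact h

lemma some_congr {W' : WeierstrassCurve R} {x₁ y₁ x₂ y₂ : R}
    (h₁ : W'.toAffine.Nonsingular x₁ y₁) (h₂ : W'.toAffine.Nonsingular x₂ y₂)
    (hx : x₁ = x₂) (hy : y₁ = y₂) :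
    (Affine.Point.some (W' := W'.toAffine) x₁ y₁ h₁) = Affine.Point.some x₂ y₂ h₂ := by
  subst hx hy
  rfl

/-- The bijection on points induced by an admissible change of variables. -/
def pointEquiv : W.toAffine.Point ≃ (C • W).toAffine.Point where
  toFun
    | .zero => .zero
    | .some x y h => .some (xMap C x) (yMap C x y) ((nonsingular_map_iff C W x y).mpr h)
  invFun
    | .zero => .zero
    | .some x' y' h => .some (xInv C x') (yInv C x' y') (nonsingular_inv C W x' y' h)
  left_inv := by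
    rintro (_ | ⟨x, y, h⟩)
    · rfl
    · exact some_congr _ _ (xInv_xMap C x) (yInv_xMap_yMap C x y)
  right_inv := by
    rintro (_ | ⟨x', y', h⟩)
    · rfl
    · exact some_congr _ _ (xMap_xInv C x') (yMap_xInv_yInv C x' y')

/-- The number of points is invariant under admissible changes of variables. -/
theorem card_variableChange : (C • W).card = W.card :=
  (Nat.card_congr (pointEquiv C W)).symm

theorem traceOfFrobenius_variableChange : (C • W).traceOfFrobenius = W.traceOfFrobenius := by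
  unfold WeierstrassCurve.traceOfFrobenius
  rw [card_variableChange]

end General

section Short

variable {F : Type*} [Field F]

/-- The change of variables to the short model `y² = x³ - 27 c₄ x - 54 c₆` (`6` invertible). -/
noncomputable def shortVC (W : WeierstrassCurve F) (h6 : (6 : F) ≠ 0) : VariableChange F where
  u := (Units.mk0 (6 : F) h6)⁻¹
  r := -W.b₂ / 12
  s := -W.a₁ / 2
  t := -(W.a₃ + (-W.b₂ / 12) * W.a₁) / 2

lemma shortVC_smul (W : WeierstrassCurve F) (h6 : (6 : F) ≠ 0) :
    shortVC W h6 • W = ⟨0, 0, 0, -27 * W.c₄, -54 * W.c₆⟩ := by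
  have h2 : (2 : F) ≠ 0 := fun h => h6 (by rw [show (6 : F) = 2 * 3 by norm_num, h, zero_mul])
  have h3 : (3 : F) ≠ 0 := fun h => h6 (by rw [show (6 : F) = 2 * 3 by norm_num, h, mul_zero])
  have h12 : (12 : F) ≠ 0 := by
    rw [show (12 : F) = 2 * 2 * 3 by norm_num]
    exact mul_ne_zero (mul_ne_zero h2 h2) h3
  ext
  · simp only [variableChange_def, shortVC, inv_inv, Units.val_mk0]
    field_simp
    ring
  · simp only [variableChange_def, shortVC, inv_inv, Units.val_mk0, b₂]
    field_simp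
    ring
  · simp only [variableChange_def, shortVC, inv_inv, Units.val_mk0, b₂]
    field_simp
    ring
  · simp only [variableChange_def, shortVC, inv_inv, Units.val_mk0, c₄, b₂, b₄]
    field_simp
    ring
  · simp only [variableChange_def, shortVC, inv_inv, Units.val_mk0, c₆, b₂, b₄, b₆]
    field_simp
    ring

/-- Over a field in which `6` is invertible, a curve and its short model have equally many
points. -/
theorem card_short (W : WeierstrassCurve F) (h6 : (6 : F) ≠ 0) :
    (⟨0, 0, 0, -27 * W.c₄, -54 * W.c₆⟩ : WeierstrassCurve F).card = W.card := by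
  rw [← shortVC_smul W h6, card_variableChange]

end Short

section Model

/-- The short model `y² = x³ - 27 c₄ x - 54 c₆` of an integral Weierstrass curve. -/
def shortModel (W : WeierstrassCurve ℤ) : WeierstrassCurve ℤ := ⟨0, 0, 0, -27 * W.c₄, -54 * W.c₆⟩

@[simp] lemma shortModel_a₁ (W : WeierstrassCurve ℤ) : (shortModel W).a₁ = 0 := rfl
@[simp] lemma shortModel_a₂ (W : WeierstrassCurve ℤ) : (shortModel W).a₂ = 0 := rfl
@[simp] lemma shortModel_a₃ (W : WeierstrassCurve ℤ) : (shortModel W).a₃ = 0 := rfl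
@[simp] lemma shortModel_a₄ (W : WeierstrassCurve ℤ) : (shortModel W).a₄ = -27 * W.c₄ := rfl
@[simp] lemma shortModel_a₆ (W : WeierstrassCurve ℤ) : (shortModel W).a₆ = -54 * W.c₆ := rfl

lemma shortModel_c₄ (W : WeierstrassCurve ℤ) : (shortModel W).c₄ = 6 ^ 4 * W.c₄ := by
  simp only [c₄, b₂, b₄, shortModel]
  ring

lemma shortModel_c₆ (W : WeierstrassCurve ℤ) : (shortModel W).c₆ = 6 ^ 6 * W.c₆ := by
  simp only [c₆, b₂, b₄, b₆, shortModel]
  ring

lemma shortModel_Δ (W : WeierstrassCurve ℤ) : (shortModel W).Δ = 6 ^ 12 * W.Δ := by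
  have h := W.c_relation
  simp only [Δ, b₂, b₄, b₆, b₈, shortModel]
  simp only [c₄, c₆, Δ, b₂, b₄, b₆, b₈] at h ⊢
  linear_combination (-432 : ℤ) * h

lemma six_ne_zero_zmod (ℓ : ℕ) [Fact ℓ.Prime] (hℓ : 5 ≤ ℓ) : (6 : ZMod ℓ) ≠ 0 := by
  have hp : ℓ.Prime := Fact.out
  intro h
  have h' : ((6 : ℕ) : ZMod ℓ) = 0 := by exact_mod_cast h
  rw [ZMod.natCast_eq_zero_iff] at h'
  have hle : ℓ ≤ 6 := Nat.le_of_dvd (by norm_num) h'
  interval_cases ℓ
  · exact absurd h' (by norm_num)
  · exact absurd hp (by norm_num)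

lemma reductionMod_shortModel (W : WeierstrassCurve ℤ) (ℓ : ℕ) :
    (shortModel W).reductionMod ℓ =
      ⟨0, 0, 0, -27 * (W.reductionMod ℓ).c₄, -54 * (W.reductionMod ℓ).c₆⟩ := by
  unfold WeierstrassCurve.reductionMod
  rw [WeierstrassCurve.map_c₄, WeierstrassCurve.map_c₆]
  ext <;> simp [WeierstrassCurve.map, shortModel]

/-- **[VC]** For `ℓ ≥ 5` the short model has the same trace of Frobenius as `W`. -/
theorem apOfModel_shortModel (W : WeierstrassCurve ℤ) (ℓ : ℕ) [Fact ℓ.Prime] (hℓ : 5 ≤ ℓ) :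
    (shortModel W).apOfModel ℓ = W.apOfModel ℓ := by
  unfold WeierstrassCurve.apOfModel WeierstrassCurve.traceOfFrobenius
  rw [reductionMod_shortModel, card_short _ (six_ne_zero_zmod ℓ hℓ)]

/-- For `ℓ ≥ 5` the short model has good reduction at `ℓ` iff `W` has. -/
theorem isGoodPrimeFor_shortModel_iff (W : WeierstrassCurve ℤ) (ℓ : ℕ) [Fact ℓ.Prime]
    (hℓ : 5 ≤ ℓ) : (shortModel W).IsGoodPrimeFor ℓ ↔ W.IsGoodPrimeFor ℓ := by
  have hp : ℓ.Prime := Fact.out
  unfold WeierstrassCurve.IsGoodPrimeFor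
  rw [shortModel_Δ, not_iff_not]
  have hcop : IsCoprime (ℓ : ℤ) ((6 : ℤ) ^ 12) := by
    apply IsCoprime.pow_right
    rw [Int.isCoprime_iff_gcd_eq_one]
    have h6 : Nat.Coprime ℓ 6 := by
      rw [Nat.Prime.coprime_iff_not_dvd hp]
      intro hd
      have hle : ℓ ≤ 6 := Nat.le_of_dvd (by norm_num) hd
      interval_cases ℓ
      · exact absurd hd (by norm_num)
      · exact absurd hp (by norm_num)
    exact_mod_cast h6
  exact ⟨fun h => hcop.dvd_of_dvd_mul_left h, fun h => Dvd.dvd.mul_left h _⟩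

end Model

end Fermat.Agent.S52.VC
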