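import Fermat.Agent.S52.Plan
import Fermat.Agent.Lib.DivPoly.Count

/-!
# S52: small universal identities and the Tate-parameter interface

* homogeneity of the family, the discriminant of Tate's normal form, the pencil identity
  `2 tN - (11 + 5√5) tM = (2c - 11 - 5√5) (1 + (c² + 6√5 c + 1) s)⁵`;
* `Plan.TatePoint` (Tate parameters of a point of order 5; proved by the [FIVE] package) and its
  consequence `Plan.TateExists` (used by [MODEL] and [IRR-ALPHA]).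
-/

set_option autoImplicit false
open WeierstrassCurve WeierstrassCurve.Affine WeierstrassCurve.Affine.Point

noncomputable section

namespace Fermat.Agent.S52

section Identities

variable {R : Type*} [CommRing R]

theorem fam4_homog (u c4 c6 s : R) :
    fam4 (u ^ 4 * c4) (u ^ 6 * c6) s = u ^ 4 * fam4 c4 c6 (u ^ 2 * s) := by
  simp only [fam4]; ring

theorem fam6_homog (u c4 c6 s : R) :
    fam6 (u ^ 4 * c4) (u ^ 6 * c6) s = u ^ 6 * fam6 c4 c6 (u ^ 2 * s) := by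
  simp only [fam6]; ring

theorem fam4_zero (c4 c6 : R) : fam4 c4 c6 0 = c4 := by simp [fam4]

theorem fam6_zero (c4 c6 : R) : fam6 c4 c6 0 = c6 := by simp [fam6]

theorem tN_zero (c : R) : tN c 0 = c := by simp [tN]

theorem tM_zero (c : R) : tM c 0 = 1 := by simp [tM]

theorem tc4_homog (u n m : R) : tc4 (u * n) (u * m) = u ^ 4 * tc4 n m := by
  simp only [tc4]; ring

theorem tc6_homog (u n m : R) : tc6 (u * n) (u * m) = u ^ 6 * tc6 n m := by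
  simp only [tc6]; ring

/-- The discriminant of Tate's normal form. -/
theorem tc_disc (n m : R) :
    tc4 n m ^ 3 - tc6 n m ^ 2 = 1728 * n ^ 5 * m ^ 5 * (n ^ 2 - 11 * n * m - m ^ 2) := by
  simp only [tc4, tc6]; ring

/-- The point `(0,0)` of Tate's normal form, in the short model, homogeneous form. -/
theorem tate_point_on_curve (n m : R) :
    (-108 * n * m ^ 2) ^ 2 = (3 * (n ^ 2 - 6 * n * m + m ^ 2)) ^ 3
      + (-27 * tc4 n m) * (3 * (n ^ 2 - 6 * n * m + m ^ 2)) + (-54 * tc6 n m) := by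
  simp only [tc4, tc6]; ring

/-- The pencil identity: with `r = √5`, `tN - ε tM` is a fifth power of a linear form in `s`
(`ε = (11 + 5 r)/2` a root of `ε² - 11 ε - 1`). -/
theorem pencil (c s r : R) (hr : r ^ 2 = 5) :
    2 * tN c s - (11 + 5 * r) * tM c s
      = (2 * c - 11 - 5 * r) * (1 + (c ^ 2 + 6 * r * c + 1) * s) ^ 5 := by
  simp only [tN, tM]
  linear_combination ((150 * c * s) + (600 * c * s ^ 2) + (900 * c * s ^ 3) + (600 * c * s ^ 4) + (150 * c * s ^ 5) + (3960 * c ^ 2 * s ^ 2) + (11880 * c ^ 2 * s ^ 3) + (11880 * c ^ 2 * s ^ 4) + (3960 * c ^ 2 * s ^ 5) + (-120 * c ^ 3 * s ^ 2) + (53640 * c ^ 3 * s ^ 3) + (107640 * c ^ 3 * s ^ 4) + (53880 * c ^ 3 * s ^ 5) + (11880 * c ^ 4 * s ^ 3) + (380160 * c ^ 4 * s ^ 4) + (368280 * c ^ 4 * s ^ 5) + (-1260 * c ^ 5 * s ^ 3) + (40680 * c ^ 5 * s ^ 4) + (1013940 * c ^ 5 * s ^ 5) + (11880 * c ^ 6 * s ^ 4) + (368280 * c ^ 6 *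 s ^ 5) + (-1560 * c ^ 7 * s ^ 4) + (-12360 * c ^ 7 * s ^ 5) + (3960 * c ^ 8 * s ^ 5) + (-570 * c ^ 9 * s ^ 5) + (1800 * c ^ 2 * s ^ 2 * r) + (5400 * c ^ 2 * s ^ 3 * r) + (5400 * c ^ 2 * s ^ 4 * r) + (1800 * c ^ 2 * s ^ 5 * r) + (23760 * c ^ 3 * s ^ 3 * r) + (47520 * c ^ 3 * s ^ 4 * r) + (23760 * c ^ 3 * s ^ 5 * r) + (1080 * c ^ 4 * s ^ 3 * r) + (164160 * c ^ 4 * s ^ 4 * r) + (163080 * c ^ 4 * s ^ 5 * r) + (47520 * c ^ 5 * s ^ 4 * r) + (475200 * c ^ 5 * s ^ 5 * r) + (-3240 * c ^ 6 * s ^ 4 * r) + (81000 * c ^ 6 * s ^ 5 * r) + (23760 * c ^ 7 * s ^ 5 * r) + (-2520 * c ^ 8 * s ^ 5 * r) + (10800 * c ^ 3 * s ^ 3 * r ^ 2) + (21600 * c ^ 3 * s ^ 4 * r ^ 2) + (10800 * c ^ 3 * s ^ 5 * r ^ 2) + (71280 * c ^ 4 * s ^ 4 * r ^ 2) + (71280 * c ^ 4 * s ^ 5 * r ^ 2) + (8640 * c ^ 5 * s ^ 4 * r ^ 2) + (203040 * c ^ 5 * s ^ 5 * r ^ 2) + (71280 * c ^ 6 * s ^ 5 * r ^ 2) + (-2160 * c ^ 7 * s ^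 5 * r ^ 2) + (32400 * c ^ 4 * s ^ 4 * r ^ 3) + (32400 * c ^ 4 * s ^ 5 * r ^ 3) + (85536 * c ^ 5 * s ^ 5 * r ^ 3) + (16848 * c ^ 6 * s ^ 5 * r ^ 3) + (38880 * c ^ 5 * s ^ 5 * r ^ 4)) * hr

end Identities

namespace Plan

/-- **[FIVE-F1]** Tate parameters of a point of order 5 on `y² = x³ - 27 c4 x - 54 c6`. -/
def TatePoint : Prop :=
  ∀ (k : Type) [Field k] [DecidableEq k], (2 : k) ≠ 0 → (3 : k) ≠ 0 →
    ∀ (c4 c6 x y : k), c4 ^ 3 ≠ c6 ^ 2 →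
    ∀ (h : (swc c4 c6).toAffine.Nonsingular x y),
      (5 : ℕ) • (Point.some _ _ h : (swc c4 c6).toAffine.Point) = 0 →
      ∃ c u : k, u ≠ 0 ∧ c4 = u ^ 4 * tc4 c 1 ∧ c6 = u ^ 6 * tc6 c 1 ∧
        x = 3 * u ^ 2 * (c ^ 2 - 6 * c + 1) ∧ y = -108 * u ^ 3 * c

/-- Every nonsingular pair `(c4, c6)` over an algebraically closed field of characteristic
`≠ 2, 3, 5` comes from Tate's normal form. -/
def TateExists : Prop :=
  ∀ (k : Type) [Field k] [IsAlgClosed k], (2 : k) ≠ 0 → (3 : k) ≠ 0 → (5 : k) ≠ 0 →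
    ∀ c4 c6 : k, c4 ^ 3 ≠ c6 ^ 2 →
      ∃ c u : k, u ≠ 0 ∧ c4 = u ^ 4 * tc4 c 1 ∧ c6 = u ^ 6 * tc6 c 1

end Plan

theorem tateExists_of_tatePoint (h : Plan.TatePoint) : Plan.TateExists := by
  intro k _ _ h2 h3 h5 c4 c6 hne
  classical
  have hΔ : (swc c4 c6).toAffine.Δ ≠ 0 := by
    have : (swc c4 c6).Δ = 2 ^ 6 * 3 ^ 9 * (c4 ^ 3 - c6 ^ 2) := by
      simp only [swc, sw, WeierstrassCurve.Δ, WeierstrassCurve.b₂, WeierstrassCurve.b₄,
        WeierstrassCurve.b₆, WeierstrassCurve.b₈]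
      ring
    change (swc c4 c6).Δ ≠ 0
    rw [this]
    exact mul_ne_zero (mul_ne_zero (pow_ne_zero _ h2) (pow_ne_zero _ h3)) (sub_ne_zero.mpr hne)
  have h5k : ((5 : ℕ) : k) ≠ 0 := by exact_mod_cast h5
  have hcard := Fermat.Agent.Lib.DivPoly.card_torsionBy_of_natCast_ne_zero
    (swc c4 c6).toAffine hΔ 5 h5k
  have hnt : Nontrivial (Submodule.torsionBy ℤ (swc c4 c6).toAffine.Point ((5 : ℕ) : ℤ)) := by
    have h1 : 1 < Nat.card (Submodule.torsionBy ℤ (swc c4 c6).toAffine.Point ((5 : ℕ) : ℤ)) := by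
      rw [hcard]; norm_num
    have hfin : Finite (Submodule.torsionBy ℤ (swc c4 c6).toAffine.Point ((5 : ℕ) : ℤ)) :=
      Nat.finite_of_card_ne_zero (by omega)
    exact (Finite.one_lt_card_iff_nontrivial).mp h1
  obtain ⟨⟨P, hP⟩, hP0⟩ :=
    exists_ne (0 : Submodule.torsionBy ℤ (swc c4 c6).toAffine.Point ((5 : ℕ) : ℤ))
  have hP5 : (5 : ℕ) • P = 0 := by
    have := (Submodule.mem_torsionBy_iff _ _).mp hP
    rw [natCast_zsmul] at this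
    exact this
  have hPne : P ≠ 0 := fun h => hP0 (Subtype.ext h)
  match P, hP5, hPne with
  | .zero, _, hne0 => exact absurd rfl hne0
  | .some x y hxy, hP5, _ =>
    obtain ⟨c, u, hu, e4, e6, -, -⟩ := h k h2 h3 c4 c6 x y hne hxy hP5
    exact ⟨c, u, hu, e4, e6⟩

end Fermat.Agent.S52

end
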