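import Fermat.Agent.S52.IrrAlphaCore

/-!
# S52 [IRR-ALPHA], second design-neutral layer

The Tate presentation `(N, M)` of the Rubin–Silverberg family satisfies, with `θ² = 11 θ + 1`,
`N - θ M = (c - θ) (1 + b_θ T)⁵` (the two width-one cusps of `X₁(5)` are totally ramified in
`X(5) → X₁(5)`).  This file turns two such "pentic" identities into the hypotheses of
`IrrAlphaCore.no_root_core` (coprimality, separability, degrees) and transfers the result to the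
monic quartic `x⁴ - 486 f₄ x² - 5832 f₆ x - 19683 f₄²` over `ℤ[T]`.

* `separable_pentic`: `α (1 + b₁ X)⁵ - β (1 + b₂ X)⁵` is separable (`α β ≠ 0`, `b₁ ≠ b₂`, `5 ≠ 0`).
* `no_root_of_pentic`: no root in `k[T]` of `3x⁴ + 6Ax² + 12Bx - A²`.
* `hnr_of_pentic`: the `ℤ[T][x]`/`ℚ[T]` form consumed by `IrrPadic.no_rat_root_eventually`.
-/

set_option autoImplicit false

namespace Fermat.Agent.S52.IrrAlphaPentic

open Polynomial Fermat.Agent.S52.IrrAlphaCore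

section Pentic

variable {k : Type*} [Field k]

/-- `1 + b₁ X` and `1 + b₂ X` are coprime when `b₁ ≠ b₂`. -/
theorem isCoprime_one_add_mul_X {b₁ b₂ : k} (hb : b₁ ≠ b₂) :
    IsCoprime (1 + C b₁ * X : k[X]) (1 + C b₂ * X) := by
  have h : b₂ - b₁ ≠ 0 := sub_ne_zero.mpr (Ne.symm hb)
  have hi : (C (b₂ - b₁)⁻¹ : k[X]) * C (b₂ - b₁) = 1 := by
    rw [← C_mul, inv_mul_cancel₀ h, C_1]
  refine ⟨C (b₂ - b₁)⁻¹ * C b₂, -(C (b₂ - b₁)⁻¹ * C b₁), ?_⟩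
  rw [C_sub] at hi
  linear_combination hi

/-- `α (1 + b₁ X)⁵ - β (1 + b₂ X)⁵` is separable. -/
theorem separable_pentic (h5 : (5 : k) ≠ 0) {α β b₁ b₂ : k} (hα : α ≠ 0) (hβ : β ≠ 0)
    (hb : b₁ ≠ b₂) :
    (C α * (1 + C b₁ * X) ^ 5 - C β * (1 + C b₂ * X) ^ 5 : k[X]).Separable := by
  obtain ⟨L₁, hL₁⟩ : ∃ L₁ : k[X], L₁ = 1 + C b₁ * X := ⟨_, rfl⟩
  obtain ⟨L₂, hL₂⟩ : ∃ L₂ : k[X], L₂ = 1 + C b₂ * X := ⟨_, rfl⟩
  have hd₁ : derivative L₁ = C b₁ := by rw [hL₁]; simp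
  have hd₂ : derivative L₂ = C b₂ := by rw [hL₂]; simp
  have hlin : C b₂ * L₁ - C b₁ * L₂ = C b₂ - C b₁ := by rw [hL₁, hL₂]; ring
  have hcop : IsCoprime L₁ L₂ := by rw [hL₁, hL₂]; exact isCoprime_one_add_mul_X hb
  rw [← hL₁, ← hL₂]
  have hd : derivative (C α * L₁ ^ 5 - C β * L₂ ^ 5) =
      C 5 * C α * C b₁ * L₁ ^ 4 - C 5 * C β * C b₂ * L₂ ^ 4 := by
    rw [derivative_sub, derivative_C_mul, derivative_C_mul, derivative_pow, derivative_pow, hd₁,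
      hd₂]
    simp only [map_ofNat, Nat.cast_ofNat]
    ring
  obtain ⟨p, q, hpq⟩ := hcop.pow (m := 4) (n := 4)
  have hne : b₂ - b₁ ≠ 0 := sub_ne_zero.mpr (Ne.symm hb)
  have hA₁ : (5 * α * (b₂ - b₁) : k) ≠ 0 := mul_ne_zero (mul_ne_zero h5 hα) hne
  have hA₂ : (5 * β * (b₂ - b₁) : k) ≠ 0 := mul_ne_zero (mul_ne_zero h5 hβ) hne
  have i₁ : (C (5 * α * (b₂ - b₁))⁻¹ : k[X]) * (C 5 * C α * (C b₂ - C b₁)) = 1 := by
    rw [← C_sub, ← C_mul, ← C_mul, ← C_mul, inv_mul_cancel₀ hA₁, C_1]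
  have i₂ : (C (5 * β * (b₂ - b₁))⁻¹ : k[X]) * (C 5 * C β * (C b₂ - C b₁)) = 1 := by
    rw [← C_sub, ← C_mul, ← C_mul, ← C_mul, inv_mul_cancel₀ hA₂, C_1]
  rw [separable_def, hd]
  refine ⟨p * C (5 * α * (b₂ - b₁))⁻¹ * (C 5 * C b₂) + q * C (5 * β * (b₂ - b₁))⁻¹ * (C 5 * C b₁),
    -(p * C (5 * α * (b₂ - b₁))⁻¹ * L₂ + q * C (5 * β * (b₂ - b₁))⁻¹ * L₁), ?_⟩
  linear_combination hpq + (p * L₁ ^ 4) * i₁ + (q * L₂ ^ 4) * i₂
    + (p * C (5 * α * (b₂ - b₁))⁻¹ * C 5 * C α * L₁ ^ 4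
      + q * C (5 * β * (b₂ - b₁))⁻¹ * C 5 * C β * L₂ ^ 4) * hlin

private theorem natDegree_one_add_le (b : k) : (1 + C b * X : k[X]).natDegree ≤ 1 := by
  refine natDegree_add_le_of_degree_le (by simp) ?_
  exact (natDegree_C_mul_le _ _).trans (natDegree_X_le)

private theorem natDegree_pentic_le (α β b₁ b₂ : k) :
    (C α * (1 + C b₁ * X) ^ 5 - C β * (1 + C b₂ * X) ^ 5 : k[X]).natDegree ≤ 5 := by
  refine (natDegree_sub_le _ _).trans (max_le ?_ ?_)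
  · exact (natDegree_C_mul_le _ _).trans (natDegree_pow_le_of_le 5 (natDegree_one_add_le b₁))
  · exact (natDegree_C_mul_le _ _).trans (natDegree_pow_le_of_le 5 (natDegree_one_add_le b₂))

private theorem natDegree_one_add_eq {b : k} (hb : b ≠ 0) : (1 + C b * X : k[X]).natDegree = 1 := by
  have e : (1 + C b * X : k[X]) = C b * X + C 1 := by rw [C_1]; ring
  rw [e]; exact natDegree_linear hb

/-- **[IRR-ALPHA], pentic form.**  If `2N - θᵢ M = κᵢ (1 + bᵢ T)⁵` for `i = 1, 2` with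
`θ₁ ≠ θ₂`, `θᵢ ≠ 0`, `κᵢ ≠ 0`, `b₁ ≠ b₂`, then the 3-division polynomial of
`y² = x³ - 27 u⁴ tc4(N, M) x - 54 u⁶ tc6(N, M)` has no root in `k[T]`. -/
theorem no_root_of_pentic (h2 : (2 : k) ≠ 0) (h3 : (3 : k) ≠ 0) (h5 : (5 : k) ≠ 0)
    {θ₁ θ₂ κ₁ κ₂ b₁ b₂ u : k} (hθ : θ₁ ≠ θ₂) (hθ₁ : θ₁ ≠ 0) (hθ₂ : θ₂ ≠ 0) (hκ₁ : κ₁ ≠ 0)
    (hκ₂ : κ₂ ≠ 0) (hb : b₁ ≠ b₂) (hu : u ≠ 0) (N M : k[X])
    (h₁ : 2 * N - C θ₁ * M = C κ₁ * (1 + C b₁ * X) ^ 5)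
    (h₂ : 2 * N - C θ₂ * M = C κ₂ * (1 + C b₂ * X) ^ 5) (P : k[X]) :
    3 * P ^ 4 + 6 * (C (-27 * u ^ 4) * tc4 N M) * P ^ 2 + 12 * (C (-54 * u ^ 6) * tc6 N M) * P
      - (C (-27 * u ^ 4) * tc4 N M) ^ 2 ≠ 0 := by
  have hθd : θ₁ - θ₂ ≠ 0 := sub_ne_zero.mpr hθ
  -- explicit forms of `N` and `M`
  have eN : C (2 * (θ₁ - θ₂)) * N =
      C (θ₁ * κ₂) * (1 + C b₂ * X) ^ 5 - C (θ₂ * κ₁) * (1 + C b₁ * X) ^ 5 := by
    simp only [map_mul, map_sub, map_ofNat]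
    linear_combination C θ₁ * h₂ - C θ₂ * h₁
  have eM : C (θ₁ - θ₂) * M = C κ₂ * (1 + C b₂ * X) ^ 5 - C κ₁ * (1 + C b₁ * X) ^ 5 := by
    simp only [map_sub]
    linear_combination h₂ - h₁
  have h2θ : (2 * (θ₁ - θ₂) : k) ≠ 0 := mul_ne_zero h2 hθd
  -- separability
  have hNsep : N.Separable := by
    have : (C (2 * (θ₁ - θ₂)) * N).Separable := by
      rw [eN]
      exact separable_pentic h5 (mul_ne_zero hθ₁ hκ₂) (mul_ne_zero hθ₂ hκ₁) (Ne.symm hb)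
    exact this.of_mul_right
  have hMsep : M.Separable := by
    have : (C (θ₁ - θ₂) * M).Separable := by
      rw [eM]
      exact separable_pentic h5 hκ₂ hκ₁ (Ne.symm hb)
    exact this.of_mul_right
  -- coprimality
  have hcop : IsCoprime N M := by
    obtain ⟨p, q, hpq⟩ := (isCoprime_one_add_mul_X hb).pow (m := 5) (n := 5)
    have i₁ : (C κ₁⁻¹ : k[X]) * C κ₁ = 1 := by rw [← C_mul, inv_mul_cancel₀ hκ₁, C_1]
    have i₂ : (C κ₂⁻¹ : k[X]) * C κ₂ = 1 := by rw [← C_mul, inv_mul_cancel₀ hκ₂, C_1]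
    refine ⟨2 * (p * C κ₁⁻¹ + q * C κ₂⁻¹), -(p * C κ₁⁻¹ * C θ₁ + q * C κ₂⁻¹ * C θ₂), ?_⟩
    linear_combination hpq + (p * C κ₁⁻¹) * h₁ + (q * C κ₂⁻¹) * h₂
      + (p * (1 + C b₁ * X) ^ 5) * i₁ + (q * (1 + C b₂ * X) ^ 5) * i₂
  have hsq : Squarefree (N * M) := (hNsep.mul hMsep hcop).squarefree
  -- degrees
  have hN : N.natDegree ≤ 5 := by
    rw [← natDegree_C_mul (a := 2 * (θ₁ - θ₂)) h2θ, eN]
    exact natDegree_pentic_le _ _ _ _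
  have hM : M.natDegree ≤ 5 := by
    rw [← natDegree_C_mul (a := θ₁ - θ₂) hθd, eM]
    exact natDegree_pentic_le _ _ _ _
  have hdeg : 5 ≤ (N * M).natDegree := by
    by_contra hlt
    rw [not_le] at hlt
    have hNM0 : N * M ≠ 0 := hsq.ne_zero
    rw [natDegree_mul (left_ne_zero_of_mul hNM0) (right_ne_zero_of_mul hNM0)] at hlt
    have key : ∀ {θ κ b : k}, κ ≠ 0 → 2 * N - C θ * M = C κ * (1 + C b * X) ^ 5 → b = 0 := by
      intro θ κ b hκ h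
      by_contra hb0
      have d1 : (C κ * (1 + C b * X) ^ 5).natDegree = 5 := by
        rw [natDegree_C_mul hκ, natDegree_pow, natDegree_one_add_eq hb0]
      have d2 : (2 * N - C θ * M).natDegree < 5 := by
        refine lt_of_le_of_lt (natDegree_sub_le _ _) (max_lt ?_ ?_)
        · have e2 : (2 * N : k[X]) = C 2 * N := by simp only [map_ofNat]
          rw [e2]
          exact lt_of_le_of_lt (natDegree_C_mul_le _ _) (by omega)
        · exact lt_of_le_of_lt (natDegree_C_mul_le _ _) (by omega)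
      rw [h, d1] at d2
      exact lt_irrefl _ d2
    exact hb ((key hκ₁ h₁).trans (key hκ₂ h₂).symm)
  exact no_root_core h2 h3 N M P u hu hcop hsq hdeg hN hM

end Pentic

section Transfer

variable {k : Type*} [Field k] [CharZero k]

/-- **[IRR-ALPHA], transfer to `ℤ[T][x]`.**  Let `f₄, f₆ ∈ ℤ[T]` become `u⁴ tc4(N, M)` and
`u⁶ tc6(N, M)` over a field `k` of characteristic zero, where `(N, M)` satisfies two pentic
identities.  Then the monic quartic `x⁴ - 486 f₄ x² - 5832 f₆ x - 19683 f₄²` (the 3-division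
polynomial of `y² = x³ - 27 f₄ x - 54 f₆` in the variable `3x`) has no root in `ℚ[T]`. -/
theorem hnr_of_pentic {θ₁ θ₂ κ₁ κ₂ b₁ b₂ u : k} (hθ : θ₁ ≠ θ₂) (hθ₁ : θ₁ ≠ 0) (hθ₂ : θ₂ ≠ 0)
    (hκ₁ : κ₁ ≠ 0) (hκ₂ : κ₂ ≠ 0) (hb : b₁ ≠ b₂) (hu : u ≠ 0) (N M : k[X])
    (h₁ : 2 * N - C θ₁ * M = C κ₁ * (1 + C b₁ * X) ^ 5)
    (h₂ : 2 * N - C θ₂ * M = C κ₂ * (1 + C b₂ * X) ^ 5)
    (f4 f6 : ℤ[X])
    (h4 : f4.map (Int.castRingHom k) = C (u ^ 4) * tc4 N M)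
    (h6 : f6.map (Int.castRingHom k) = C (u ^ 6) * tc6 N M) :
    ∀ P : ℚ[X], ((X ^ 4 - C (486 * f4) * X ^ 2 - C (5832 * f6) * X - C (19683 * f4 ^ 2) :
      ℤ[X][X]).map (mapRingHom (Int.castRingHom ℚ))).eval P ≠ 0 := by
  intro P hP
  have h2 : (2 : k) ≠ 0 := two_ne_zero
  have h3 : (3 : k) ≠ 0 := three_ne_zero
  have h5 : (5 : k) ≠ 0 := by exact_mod_cast (by norm_num : (5 : ℕ) ≠ 0)
  -- the equation in `ℚ[T]`
  have hP' : P ^ 4 - 486 * f4.map (Int.castRingHom ℚ) * P ^ 2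
      - 5832 * f6.map (Int.castRingHom ℚ) * P - 19683 * f4.map (Int.castRingHom ℚ) ^ 2 = 0 := by
    simpa only [Polynomial.map_sub, Polynomial.map_mul, Polynomial.map_pow, map_X, map_C,
      coe_mapRingHom, eval_sub, eval_mul, eval_pow, eval_X, eval_C, Polynomial.map_ofNat,
      map_ofNat] using hP
  -- the equation in `k[T]`
  have hcomp : (Rat.castHom k).comp (Int.castRingHom ℚ) = Int.castRingHom k :=
    RingHom.ext_int _ _
  have hk := congrArg (Polynomial.map (Rat.castHom k)) hP'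
  simp only [Polynomial.map_sub, Polynomial.map_mul, Polynomial.map_pow, Polynomial.map_ofNat,
    Polynomial.map_map, hcomp, Polynomial.map_zero, h4, h6] at hk
  -- rescale `x = 3 y`
  obtain ⟨Q, hQ⟩ : ∃ Q : k[X], P.map (Rat.castHom k) = 3 * Q := by
    refine ⟨C (3⁻¹ : k) * P.map (Rat.castHom k), ?_⟩
    have e : (3 : k[X]) * C (3⁻¹ : k) = 1 := by
      have : (3 : k[X]) = C (3 : k) := by simp only [map_ofNat]
      rw [this, ← C_mul, mul_inv_cancel₀ h3, C_1]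
    linear_combination (-(P.map (Rat.castHom k))) * e
  rw [hQ] at hk
  refine no_root_of_pentic h2 h3 h5 hθ hθ₁ hθ₂ hκ₁ hκ₂ hb hu N M h₁ h₂ Q ?_
  have h27 : (27 : k[X]) ≠ 0 := by
    have : (27 : k[X]) = C (27 : k) := by simp only [map_ofNat]
    rw [this]
    exact C_ne_zero.mpr (by exact_mod_cast (by norm_num : (27 : ℕ) ≠ 0))
  have key : (27 : k[X]) * (3 * Q ^ 4 + 6 * (C (-27 * u ^ 4) * tc4 N M) * Q ^ 2
      + 12 * (C (-54 * u ^ 6) * tc6 N M) * Q - (C (-27 * u ^ 4) * tc4 N M) ^ 2) = 0 := by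
    simp only [map_mul, map_neg, map_pow, map_ofNat] at hk ⊢
    linear_combination hk
  exact (mul_eq_zero.mp key).resolve_left h27

end Transfer

section Tate

variable {R : Type*} [CommRing R]

/-- Numerator of the Tate parameter of the family member `E_s` (degree 5 in `s`). -/
def tN (c s : R) : R :=
  c
    + (5 * c ^ 3 - 66 * c ^ 2 - 7 * c) * s
    + (10 * c ^ 5 - 264 * c ^ 4 + 1772 * c ^ 3 - 264 * c ^ 2 - 38 * c) * s ^ 2
    + (10 * c ^ 7 - 396 * c ^ 6 + 5358 * c ^ 5 - 24552 * c ^ 4 + 966 * c ^ 3 - 396 * c ^ 2 - 62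
        * c) * s ^ 3
    + (5 * c ^ 9 - 264 * c ^ 8 + 5372 * c ^ 7 - 48312 * c ^ 6 + 164046 * c ^ 5 - 48312 * c ^ 4 -
        3364 * c ^ 3 - 264 * c ^ 2 - 43 * c) * s ^ 4
    + (c ^ 11 - 66 * c ^ 10 + 1793 * c ^ 9 - 24024 * c ^ 8 + 163042 * c ^ 7 - 475596 * c ^ 6 +
        80938 * c ^ 5 - 24024 * c ^ 4 - 2563 * c ^ 3 - 66 * c ^ 2 - 11 * c) * s ^ 5

/-- Denominator of the Tate parameter of the family member `E_s` (degree 5 in `s`). -/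
def tM (c s : R) : R :=
  1
    + (-7 * c ^ 2 + 66 * c + 5) * s
    + (-38 * c ^ 4 + 264 * c ^ 3 + 1772 * c ^ 2 + 264 * c + 10) * s ^ 2
    + (-62 * c ^ 6 + 396 * c ^ 5 + 966 * c ^ 4 + 24552 * c ^ 3 + 5358 * c ^ 2 + 396 * c + 10) *
        s ^ 3
    + (-43 * c ^ 8 + 264 * c ^ 7 - 3364 * c ^ 6 + 48312 * c ^ 5 + 164046 * c ^ 4 + 48312 * c ^ 3
        + 5372 * c ^ 2 + 264 * c + 5) * s ^ 4
    + (-11 * c ^ 10 + 66 * c ^ 9 - 2563 * c ^ 8 + 24024 * c ^ 7 + 80938 * c ^ 6 + 475596 * c ^ 5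
        + 163042 * c ^ 4 + 24024 * c ^ 3 + 1793 * c ^ 2 + 66 * c + 1) * s ^ 5

/-- The pentic identity: for `r² = 5`, i.e. `θ = (11 + 5r)/2` a root of `θ² = 11θ + 1`,
`2 tN - (11 + 5r) tM = (2c - 11 - 5r) (1 + (c² + 6rc + 1) s)⁵`. -/
theorem pentic_identity (c s r : R) (hr : r ^ 2 = 5) :
    2 * tN c s - (11 + 5 * r) * tM c s
      = (2 * c - 11 - 5 * r) * (1 + (c ^ 2 + 6 * r * c + 1) * s) ^ 5 := by
  simp only [tN, tM]
  linear_combination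
    (150 * c * s - 120 * c ^ 3 * s ^ 2 + 3960 * c ^ 2 * s ^ 2 + 1800 * c ^ 2 * s ^ 2 * r + 600 * c *
      s ^ 2 - 1260 * c ^ 5 * s ^ 3 + 11880 * c ^ 4 * s ^ 3 + 1080 * c ^ 4 * s ^ 3 * r + 53640 * c ^ 3
      * s ^ 3 + 23760 * c ^ 3 * s ^ 3 * r + 10800 * c ^ 3 * s ^ 3 * r ^ 2 + 11880 * c ^ 2 * s ^ 3 +
      5400 * c ^ 2 * s ^ 3 * r + 900 * c * s ^ 3 - 1560 * c ^ 7 * s ^ 4 + 11880 * c ^ 6 * s ^ 4 -
      3240 * c ^ 6 * s ^ 4 * r + 40680 * c ^ 5 * s ^ 4 + 47520 * c ^ 5 * s ^ 4 * r + 8640 * c ^ 5 * s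
      ^ 4 * r ^ 2 + 380160 * c ^ 4 * s ^ 4 + 164160 * c ^ 4 * s ^ 4 * r + 71280 * c ^ 4 * s ^ 4 * r ^
      2 + 32400 * c ^ 4 * s ^ 4 * r ^ 3 + 107640 * c ^ 3 * s ^ 4 + 47520 * c ^ 3 * s ^ 4 * r + 21600
      * c ^ 3 * s ^ 4 * r ^ 2 + 11880 * c ^ 2 * s ^ 4 + 5400 * c ^ 2 * s ^ 4 * r + 600 * c * s ^ 4 -
      570 * c ^ 9 * s ^ 5 + 3960 * c ^ 8 * s ^ 5 - 2520 * c ^ 8 * s ^ 5 * r - 12360 * c ^ 7 * s ^ 5 +
      23760 * c ^ 7 * s ^ 5 * r - 2160 * c ^ 7 * s ^ 5 * r ^ 2 + 368280 * c ^ 6 * s ^ 5 + 81000 * c ^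
      6 * s ^ 5 * r + 71280 * c ^ 6 * s ^ 5 * r ^ 2 + 16848 * c ^ 6 * s ^ 5 * r ^ 3 + 1013940 * c ^ 5
      * s ^ 5 + 475200 * c ^ 5 * s ^ 5 * r + 203040 * c ^ 5 * s ^ 5 * r ^ 2 + 85536 * c ^ 5 * s ^ 5 *
      r ^ 3 + 38880 * c ^ 5 * s ^ 5 * r ^ 4 + 368280 * c ^ 4 * s ^ 5 + 163080 * c ^ 4 * s ^ 5 * r +
      71280 * c ^ 4 * s ^ 5 * r ^ 2 + 32400 * c ^ 4 * s ^ 5 * r ^ 3 + 53880 * c ^ 3 * s ^ 5 + 23760 *
      c ^ 3 * s ^ 5 * r + 10800 * c ^ 3 * s ^ 5 * r ^ 2 + 3960 * c ^ 2 * s ^ 5 + 1800 * c ^ 2 * s ^ 5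
      * r + 150 * c * s ^ 5) * hr

end Tate

section Final

variable {k : Type*} [Field k] [CharZero k] [IsAlgClosed k]

/-- **[IRR-ALPHA], interface form.**  `c4, c6 : ℤ` with `c4³ ≠ c6²`; `f₄, f₆ ∈ ℤ[T]` such that for
every Tate parametrisation `c4 = u⁴ tc4(c, 1)`, `c6 = u⁶ tc6(c, 1)` over the algebraically closed
field `k` of characteristic zero one has `f₄ = u⁴ tc4(N, M)`, `f₆ = u⁶ tc6(N, M)` with
`N = tN(c, u² T)`, `M = tM(c, u² T)` (this is [STAR] + weighted homogeneity of the family).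
Then the monic quartic `x⁴ - 486 f₄ x² - 5832 f₆ x - 19683 f₄²` has no root in `ℚ[T]`. -/
theorem hnr_of_tate (c4 c6 : ℤ) (hΔ : c4 ^ 3 ≠ c6 ^ 2) (f4 f6 : ℤ[X])
    (h : ∀ c u : k, u ≠ 0 → (c4 : k) = u ^ 4 * tc4 c 1 → (c6 : k) = u ^ 6 * tc6 c 1 →
      f4.map (Int.castRingHom k)
          = C (u ^ 4) * tc4 (tN (C c) (C (u ^ 2) * X)) (tM (C c) (C (u ^ 2) * X)) ∧
        f6.map (Int.castRingHom k)
          = C (u ^ 6) * tc6 (tN (C c) (C (u ^ 2) * X)) (tM (C c) (C (u ^ 2) * X))) :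
    ∀ P : ℚ[X], ((X ^ 4 - C (486 * f4) * X ^ 2 - C (5832 * f6) * X - C (19683 * f4 ^ 2) :
      ℤ[X][X]).map (mapRingHom (Int.castRingHom ℚ))).eval P ≠ 0 := by
  have h2 : (2 : k) ≠ 0 := two_ne_zero
  have h3 : (3 : k) ≠ 0 := three_ne_zero
  have h5 : (5 : k) ≠ 0 := by exact_mod_cast (by norm_num : (5 : ℕ) ≠ 0)
  have hΔk : (c4 : k) ^ 3 ≠ (c6 : k) ^ 2 := by exact_mod_cast hΔ
  obtain ⟨c, u, hu, hc, hq, ha, hb⟩ := exists_tate_param h2 h3 h5 (c4 : k) (c6 : k) hΔk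
  obtain ⟨r, hr⟩ : ∃ r : k, r ^ 2 = 5 := IsAlgClosed.exists_pow_nat_eq 5 (by norm_num)
  have hr0 : r ≠ 0 := by
    rintro rfl
    rw [zero_pow two_ne_zero] at hr
    exact h5 hr.symm
  obtain ⟨h4, h6⟩ := h c u hu ha hb
  have hCr : (C r : k[X]) ^ 2 = 5 := by
    rw [← C_pow, hr]; simp only [map_ofNat]
  have hCr' : (-C r : k[X]) ^ 2 = 5 := by rw [neg_sq, hCr]
  have e₁ := pentic_identity (C c) (C (u ^ 2) * X) (C r) hCr
  have e₂ := pentic_identity (C c) (C (u ^ 2) * X) (-C r) hCr'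
  refine hnr_of_pentic (θ₁ := 11 + 5 * r) (θ₂ := 11 - 5 * r) (κ₁ := 2 * c - 11 - 5 * r)
    (κ₂ := 2 * c - 11 + 5 * r) (b₁ := (c ^ 2 + 6 * r * c + 1) * u ^ 2)
    (b₂ := (c ^ 2 - 6 * r * c + 1) * u ^ 2) (u := u) ?_ ?_ ?_ ?_ ?_ ?_ hu _ _ ?_ ?_ f4 f6 h4 h6
  · intro e
    have : (10 : k) * r = 0 := by linear_combination e
    rcases mul_eq_zero.mp this with h' | h'
    · have : (2 : k) * 5 = 0 := by rw [← h']; norm_num
      rcases mul_eq_zero.mp this with h'' | h''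
      · exact h2 h''
      · exact h5 h''
    · exact hr0 h'
  · intro e
    have : (4 : k) = 0 := by linear_combination (-(11 - 5 * r)) * e - 25 * hr
    have : (2 : k) * 2 = 0 := by rw [← this]; norm_num
    exact h2 (mul_self_eq_zero.mp this)
  · intro e
    have : (4 : k) = 0 := by linear_combination (-(11 + 5 * r)) * e - 25 * hr
    have : (2 : k) * 2 = 0 := by rw [← this]; norm_num
    exact h2 (mul_self_eq_zero.mp this)
  · intro e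
    have : (4 : k) * tq c 1 = 0 := by
      simp only [tq]; linear_combination (2 * c - 11 + 5 * r) * e + 25 * hr
    rcases mul_eq_zero.mp this with h' | h'
    · have : (2 : k) * 2 = 0 := by rw [← h']; norm_num
      exact h2 (mul_self_eq_zero.mp this)
    · exact hq h'
  · intro e
    have : (4 : k) * tq c 1 = 0 := by
      simp only [tq]; linear_combination (2 * c - 11 - 5 * r) * e + 25 * hr
    rcases mul_eq_zero.mp this with h' | h'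
    · have : (2 : k) * 2 = 0 := by rw [← h']; norm_num
      exact h2 (mul_self_eq_zero.mp this)
    · exact hq h'
  · intro e
    have : (2 : k) ^ 2 * 3 * (r * c * u ^ 2) = 0 := by linear_combination e
    have h12 : (2 : k) ^ 2 * 3 ≠ 0 := mul_ne_zero (pow_ne_zero _ h2) h3
    exact mul_ne_zero (mul_ne_zero hr0 hc) (pow_ne_zero _ hu)
      ((mul_eq_zero.mp this).resolve_left h12)
  · have hC : (C (11 + 5 * r) : k[X]) = 11 + 5 * C r := by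
      simp only [map_add, map_mul, map_ofNat]
    have hK : (C (2 * c - 11 - 5 * r) : k[X]) = 2 * C c - 11 - 5 * C r := by
      simp only [map_sub, map_mul, map_ofNat]
    have hB : (C ((c ^ 2 + 6 * r * c + 1) * u ^ 2) : k[X])
        = (C c ^ 2 + 6 * C r * C c + 1) * C (u ^ 2) := by
      simp only [map_add, map_mul, map_pow, map_ofNat, map_one]
    rw [hC, hK, hB]
    linear_combination e₁
  · have hC : (C (11 - 5 * r) : k[X]) = 11 - 5 * C r := by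
      simp only [map_sub, map_mul, map_ofNat]
    have hK : (C (2 * c - 11 + 5 * r) : k[X]) = 2 * C c - 11 + 5 * C r := by
      simp only [map_add, map_sub, map_mul, map_ofNat]
    have hB : (C ((c ^ 2 - 6 * r * c + 1) * u ^ 2) : k[X])
        = (C c ^ 2 - 6 * C r * C c + 1) * C (u ^ 2) := by
      simp only [map_add, map_sub, map_mul, map_pow, map_ofNat, map_one]
    rw [hC, hK, hB]
    linear_combination e₂

end Final

end Fermat.Agent.S52.IrrAlphaPentic
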