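import Fermat.Agent.S52.Plan

/-!
# S52: interface statements of the [IRR] package

`Plan.Irr` is derived (file `Fermat/Agent/S52/Irr.lean`) from the three propositions below.
-/

set_option autoImplicit false
open Polynomial

noncomputable section

namespace Fermat.Agent.S52

/-- `A(T) = -27 fam4(c4, c6, T)` as a polynomial in the parameter `T` of the family. -/
def famA (c4 c6 : ℤ) : Polynomial ℤ := -27 * fam4 (C c4) (C c6) X

/-- `B(T) = -54 fam6(c4, c6, T)` as a polynomial in the parameter `T` of the family. -/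
def famB (c4 c6 : ℤ) : Polynomial ℤ := -54 * fam6 (C c4) (C c6) X

/-- The monic 3-division polynomial of the family member `y² = x³ + A(T) x + B(T)`, in the
variable `z = 3x`:  `G(T, z) = z⁴ + 18 A z² + 108 B z - 27 A²`  (outer variable `z`, inner `T`). -/
def psiG (c4 c6 : ℤ) : Polynomial (Polynomial ℤ) :=
  X ^ 4 + C (18 * famA c4 c6) * X ^ 2 + C (108 * famB c4 c6) * X - C (27 * famA c4 c6 ^ 2)

namespace Plan

/-- **[IRR-PADIC]** the `q`-adic branch lemma. -/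
def IrrPadic : Prop :=
  ∀ (G : Polynomial (Polynomial ℤ)), G.Monic → ∀ (q : ℕ), q.Prime → ∀ (M : ℤ), M ≠ 0 →
    ∀ (ξ : Finset ℤ) (Cf : Polynomial ℤ),
      G.map (Polynomial.evalRingHom 0) = (∏ a ∈ ξ, (X - C a)) * Cf →
      (∀ a ∈ ξ, Cf.eval a ≠ 0) →
      (∃ B : ℕ, ∀ x : ℤ, ¬ (q : ℤ) ^ B ∣ Cf.eval x) →
      (∀ P : Polynomial ℚ, (G.map (Polynomial.mapRingHom (Int.castRingHom ℚ))).eval P ≠ 0) →
      ∃ k₀ : ℕ, ∀ k ≥ k₀, ∀ x : ℚ,
        ((G.map (Polynomial.evalRingHom (M * (q : ℤ) ^ k))).map (Int.castRingHom ℚ)).eval x ≠ 0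

/-- **[IRR-ALPHA]** the 3-division polynomial of the family has no root in `ℚ[T]`. -/
def IrrAlpha : Prop :=
  ∀ c4 c6 : ℤ, c4 ^ 3 ≠ c6 ^ 2 → ∀ P : Polynomial ℚ,
    ((psiG c4 c6).map (Polynomial.mapRingHom (Int.castRingHom ℚ))).eval P ≠ 0

/-- **[IRR-RAM]** if `G(0, z)` has an integer root, its rational roots split off and the cofactor
has bounded valuation at some prime `q` (Cardano at a ramified prime; no density theorem). -/
def IrrRam : Prop :=
  ∀ c4 c6 : ℤ, c4 ^ 3 ≠ c6 ^ 2 →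
    (∃ z : ℤ, ((psiG c4 c6).map (Polynomial.evalRingHom 0)).eval z = 0) →
    ∃ (ξ : Finset ℤ) (Cf : Polynomial ℤ) (q : ℕ), q.Prime ∧
      (psiG c4 c6).map (Polynomial.evalRingHom 0) = (∏ a ∈ ξ, (X - C a)) * Cf ∧
      (∀ a ∈ ξ, Cf.eval a ≠ 0) ∧
      ∃ B : ℕ, ∀ x : ℤ, ¬ (q : ℤ) ^ B ∣ Cf.eval x

end Plan

end Fermat.Agent.S52

end
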