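import Mathlib

/-!
# S52 [IRR-PADIC]: the `q`-adic branch lemma

`G ∈ ℤ[T][x]` monic in `x`, `G(0,x) = ∏ (x - ξ_i) * C(x)` with simple integer roots `ξ_i` and
`v_q (C x)` bounded on `ℤ`; if `G` has no root in `ℚ[T]` then `G(M q^k, x)` has no rational root
for all large `k`.
-/

open Polynomial

namespace Fermat.Agent.S52.IrrPadic

/-! ## Bivariate evaluation bookkeeping -/

/-- Swapping the order of evaluation. -/
theorem eval_map_evalRingHom_swap {R : Type*} [CommRing R] (p : R[X][X]) (t x : R) :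
    (p.map (evalRingHom t)).eval x = (p.eval (C x)).eval t := by
  rw [map_evalRingHom_eval]

/-- Congruence for bivariate evaluation of integer polynomials. -/
theorem dvd_bieval_sub (p : ℤ[X][X]) (m t x a : ℤ) (ht : m ∣ t) (hx : m ∣ x - a) :
    m ∣ (p.map (evalRingHom t)).eval x - (p.map (evalRingHom 0)).eval a := by
  have h1 : m ∣ (p.map (evalRingHom t)).eval x - (p.map (evalRingHom 0)).eval x := by
    rw [eval_map_evalRingHom_swap, eval_map_evalRingHom_swap]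
    exact (by simpa using ht : m ∣ t - 0).trans (sub_dvd_eval_sub t 0 _)
  have h2 : m ∣ (p.map (evalRingHom 0)).eval x - (p.map (evalRingHom 0)).eval a :=
    hx.trans (sub_dvd_eval_sub x a _)
  have := dvd_add h1 h2
  simpa using this

theorem evalRingHom_comp_mapRingHom_intCast (S : Type*) [CommRing S] (t : ℤ) :
    (evalRingHom ((t : ℤ) : S)).comp (mapRingHom (Int.castRingHom S)) =
      (Int.castRingHom S).comp (evalRingHom t) := by
  refine RingHom.ext fun p => ?_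
  simp [eval_intCast_map]

/-- Specialising `T ↦ t` commutes with substituting `x ↦ P(T)`. -/
theorem eval_eval_map_intCast {S : Type*} [CommRing S] (G : ℤ[X][X]) (P : S[X]) (t : ℤ) :
    ((G.map (mapRingHom (Int.castRingHom S))).eval P).eval (t : S) =
      ((G.map (evalRingHom t)).map (Int.castRingHom S)).eval (P.eval (t : S)) := by
  have h := hom_eval₂ (G.map (mapRingHom (Int.castRingHom S))) (RingHom.id _)
    (evalRingHom (t : S)) P
  rw [map_map, ← evalRingHom_comp_mapRingHom_intCast, ← map_map, eval_map (evalRingHom _)]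
  simpa using h

/-! ## The formal branch through a simple root -/

section Branch

variable {K : Type*} [Field K]

theorem eval_zero_eval (F : K[X][X]) (P : K[X]) :
    (F.eval P).eval 0 = (F.map (evalRingHom 0)).eval (P.eval 0) := by
  have h := hom_eval₂ F (RingHom.id _) (evalRingHom (0 : K)) P
  rw [eval_map]
  simpa using h

/-- **Formal Hensel branch.** If `ξ` is a simple root of `F(0, x)` then for every `D` there is a
polynomial `P` of degree `≤ D` with `P(0) = ξ` and `F(T, P(T)) ≡ 0 mod T^(D+1)`. -/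
theorem exists_branch (F : K[X][X]) (ξ : K) (hroot : (F.map (evalRingHom 0)).eval ξ = 0)
    (hδ : (F.map (evalRingHom 0)).derivative.eval ξ ≠ 0) (D : ℕ) :
    ∃ P : K[X], P.eval 0 = ξ ∧ P.natDegree ≤ D ∧ X ^ (D + 1) ∣ F.eval P := by
  induction D with
  | zero =>
    refine ⟨C ξ, by simp, by simp, ?_⟩
    rw [zero_add, pow_one, X_dvd_iff, coeff_zero_eq_eval_zero, eval_zero_eval]
    simpa using hroot
  | succ D ih =>
    obtain ⟨P, hP0, hPdeg, R, hR⟩ := ih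
    set δ := (F.map (evalRingHom 0)).derivative.eval ξ with hδdef
    set c := R.eval 0 with hc
    set h : K[X] := -(C (c / δ) * X ^ (D + 1)) with hh
    refine ⟨P + h, ?_, ?_, ?_⟩
    · simp [hh, hP0]
    · refine (natDegree_add_le _ _).trans (max_le (hPdeg.trans (Nat.le_succ D)) ?_)
      rw [hh, natDegree_neg]
      exact natDegree_C_mul_X_pow_le _ _
    · obtain ⟨κ, hκ⟩ := F.binomExpansion P h
      have hder : (F.derivative.eval P).eval 0 = δ := by
        rw [eval_zero_eval, ← derivative_map, hP0]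
      have hX : X ∣ R - C (c / δ) * F.derivative.eval P + κ * C (c / δ) ^ 2 * X ^ (D + 1) := by
        rw [X_dvd_iff, coeff_zero_eq_eval_zero]
        simp only [eval_add, eval_sub, eval_mul, eval_C, eval_pow, eval_X, hder]
        rw [← hc]
        field_simp
        ring
      obtain ⟨Q, hQ⟩ := hX
      refine ⟨Q, ?_⟩
      rw [hκ, hR, hh]
      have : X ^ (D + 1 + 1) * Q = X ^ (D + 1) * (X * Q) := by ring
      rw [this, ← hQ]
      ring

end Branch

/-! ## Archimedean bounds -/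

section Arch

theorem abs_eval_le {R : Type*} [CommRing R] [LinearOrder R] [IsStrictOrderedRing R]
    (p : R[X]) (D : ℕ) (hD : p.natDegree ≤ D) (t : R) (ht : 1 ≤ |t|) :
    |p.eval t| ≤ (∑ i ∈ Finset.range (p.natDegree + 1), |p.coeff i|) * |t| ^ D := by
  rw [eval_eq_sum_range, Finset.sum_mul]
  refine (Finset.abs_sum_le_sum_abs _ _).trans (Finset.sum_le_sum fun i hi => ?_)
  rw [abs_mul, abs_pow]
  refine mul_le_mul_of_nonneg_left ?_ (abs_nonneg _)
  exact pow_le_pow_right₀ ht ((Nat.lt_succ_iff.mp (Finset.mem_range.mp hi)).trans hD)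

/-- Cauchy-type bound for integer roots of monic integer polynomials. -/
theorem abs_root_le (p : ℤ[X]) (hp : p.Monic) (x : ℤ) (hx : p.eval x = 0) :
    |x| ≤ 1 + ∑ i ∈ Finset.range p.natDegree, |p.coeff i| := by
  have hS : 0 ≤ ∑ i ∈ Finset.range p.natDegree, |p.coeff i| :=
    Finset.sum_nonneg fun _ _ => abs_nonneg _
  by_cases h1 : |x| ≤ 1
  · linarith
  rw [not_le] at h1
  rw [eval_eq_sum_range, Finset.sum_range_succ, hp.coeff_natDegree, one_mul] at hx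
  rcases Nat.eq_zero_or_pos p.natDegree with h0 | hpos
  · rw [h0] at hx; simp at hx
  have hxd : x ^ p.natDegree = - ∑ i ∈ Finset.range p.natDegree, p.coeff i * x ^ i := by
    linarith
  have h2 : |x| ^ p.natDegree ≤
      (∑ i ∈ Finset.range p.natDegree, |p.coeff i|) * |x| ^ (p.natDegree - 1) := by
    rw [← abs_pow, hxd, abs_neg, Finset.sum_mul]
    refine (Finset.abs_sum_le_sum_abs _ _).trans (Finset.sum_le_sum fun i hi => ?_)
    rw [abs_mul, abs_pow]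
    refine mul_le_mul_of_nonneg_left ?_ (abs_nonneg _)
    exact pow_le_pow_right₀ h1.le (Nat.le_sub_one_of_lt (Finset.mem_range.mp hi))
  have h3 : |x| ^ p.natDegree = |x| * |x| ^ (p.natDegree - 1) := by
    rw [← pow_succ', Nat.sub_add_cancel hpos]
  rw [h3] at h2
  have hpos' : 0 < |x| ^ (p.natDegree - 1) := pow_pos (by linarith) _
  have := le_of_mul_le_mul_right h2 hpos'
  linarith

/-- Uniform polynomial bound for the integer roots of the specialisations `G(t, x)`. -/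
theorem exists_root_bound (G : ℤ[X][X]) (hG : G.Monic) (D : ℕ)
    (hD : ∀ i, (G.coeff i).natDegree ≤ D) :
    ∃ A : ℤ, 0 ≤ A ∧ ∀ t : ℤ, 1 ≤ |t| → ∀ x : ℤ,
      (G.map (evalRingHom t)).eval x = 0 → |x| ≤ A * |t| ^ D := by
  refine ⟨1 + ∑ i ∈ Finset.range G.natDegree,
    ∑ j ∈ Finset.range ((G.coeff i).natDegree + 1), |(G.coeff i).coeff j|, by positivity, ?_⟩
  intro t ht x hx
  have hmon : (G.map (evalRingHom t)).Monic := hG.map _
  have h := abs_root_le _ hmon x hx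
  rw [hG.natDegree_map] at h
  have hpow : 1 ≤ |t| ^ D := one_le_pow₀ ht
  calc |x| ≤ 1 + ∑ i ∈ Finset.range G.natDegree, |(G.map (evalRingHom t)).coeff i| := h
    _ ≤ 1 * |t| ^ D + ∑ i ∈ Finset.range G.natDegree,
          (∑ j ∈ Finset.range ((G.coeff i).natDegree + 1), |(G.coeff i).coeff j|) * |t| ^ D := by
        refine add_le_add (by simpa using hpow) (Finset.sum_le_sum fun i _ => ?_)
        rw [coeff_map]
        exact abs_eval_le _ D (hD i) t ht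
    _ = _ := by rw [← Finset.sum_mul, ← add_mul]

end Arch

/-! ## Denominators and `q`-adic size -/

/-- Every rational polynomial has a common denominator on integer arguments. -/
theorem exists_denominator (p : ℚ[X]) :
    ∃ Δ : ℤ, Δ ≠ 0 ∧ ∀ t : ℤ, ∃ z : ℤ, (z : ℚ) = Δ * p.eval (t : ℚ) := by
  induction p using Polynomial.induction_on' with
  | add p₁ p₂ h₁ h₂ =>
    obtain ⟨Δ₁, hΔ₁, H₁⟩ := h₁
    obtain ⟨Δ₂, hΔ₂, H₂⟩ := h₂
    refine ⟨Δ₁ * Δ₂, mul_ne_zero hΔ₁ hΔ₂, fun t => ?_⟩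
    obtain ⟨z₁, hz₁⟩ := H₁ t
    obtain ⟨z₂, hz₂⟩ := H₂ t
    refine ⟨Δ₂ * z₁ + Δ₁ * z₂, ?_⟩
    push_cast
    rw [hz₁, hz₂, eval_add]
    ring
  | monomial n c =>
    refine ⟨c.den, by exact_mod_cast c.den_nz, fun t => ⟨c.num * t ^ n, ?_⟩⟩
    rw [eval_monomial]
    push_cast
    rw [← mul_assoc, mul_comm ((c.den : ℚ)) c, Rat.mul_den_eq_num]

section Padic

variable (q : ℕ) [hq : Fact q.Prime]

/-- Product-formula inequality: a nonzero integer is at least as large as the inverse of its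
`q`-adic norm. -/
theorem one_le_abs_mul_padicNorm (z : ℤ) (hz : z ≠ 0) : (1 : ℚ) ≤ |(z : ℚ)| * padicNorm q z := by
  have hq1 : (1 : ℚ) < q := by exact_mod_cast hq.out.one_lt
  have hq0 : (0 : ℚ) < q := by linarith
  have hz' : (z : ℚ) ≠ 0 := by exact_mod_cast hz
  rw [padicNorm.eq_zpow_of_nonzero hz', padicValRat.of_int, zpow_neg, zpow_natCast]
  have hdvd : ((q : ℤ) ^ padicValInt q z) ∣ |z| := (dvd_abs _ _).mpr (padicValInt_dvd z)
  have hle : ((q : ℤ) ^ padicValInt q z) ≤ |z| := Int.le_of_dvd (abs_pos.mpr hz) hdvd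
  have hle' : ((q : ℚ) ^ padicValInt q z) ≤ |(z : ℚ)| := by exact_mod_cast hle
  rw [← div_eq_mul_inv, le_div_iff₀ (pow_pos hq0 _)]
  simpa using hle'

/-- `q`-adic bound for the values of a rational polynomial on integers. -/
theorem exists_padicNorm_eval_le (p : ℚ[X]) :
    ∃ A : ℚ, 0 < A ∧ ∀ t : ℤ, padicNorm q (p.eval (t : ℚ)) ≤ A := by
  obtain ⟨Δ, hΔ, H⟩ := exists_denominator p
  have hΔ' : (Δ : ℚ) ≠ 0 := by exact_mod_cast hΔ
  refine ⟨|(Δ : ℚ)|, abs_pos.mpr hΔ', fun t => ?_⟩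
  obtain ⟨z, hz⟩ := H t
  have h1 : padicNorm q Δ * padicNorm q (p.eval (t : ℚ)) ≤ 1 := by
    rw [← padicNorm.mul, ← hz]; exact padicNorm.of_int z
  have h2 := one_le_abs_mul_padicNorm q Δ hΔ
  have h3 : 0 ≤ padicNorm q (p.eval (t : ℚ)) := padicNorm.nonneg _
  have h4 : 0 < padicNorm q Δ := by
    rcases (padicNorm.nonneg (p := q) (Δ : ℚ)).lt_or_eq with h | h
    · exact h
    · rw [← h] at h2; simp at h2; linarith
  calc padicNorm q (p.eval (t : ℚ))
      = 1 * padicNorm q (p.eval (t : ℚ)) := (one_mul _).symm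
    _ ≤ (|(Δ : ℚ)| * padicNorm q Δ) * padicNorm q (p.eval (t : ℚ)) :=
        mul_le_mul_of_nonneg_right h2 h3
    _ = |(Δ : ℚ)| * (padicNorm q Δ * padicNorm q (p.eval (t : ℚ))) := by ring
    _ ≤ |(Δ : ℚ)| * 1 := mul_le_mul_of_nonneg_left h1 (abs_nonneg _)
    _ = |(Δ : ℚ)| := mul_one _

/-- The subring of `q`-integral rationals. -/
def zq : Subring ℚ where
  carrier := {r | padicNorm q r ≤ 1}
  mul_mem' := by
    intro a b ha hb
    change padicNorm q (a * b) ≤ 1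
    rw [padicNorm.mul]
    exact mul_le_one₀ ha (padicNorm.nonneg _) hb
  one_mem' := by simp
  add_mem' := by
    intro a b ha hb
    exact padicNorm.nonarchimedean.trans (max_le ha hb)
  zero_mem' := by simp
  neg_mem' := by
    intro a ha
    simpa [padicNorm.neg] using ha

theorem mem_zq {r : ℚ} : r ∈ zq q ↔ padicNorm q r ≤ 1 := Iff.rfl

theorem subtype_eval_map_zq (g : ℤ[X]) (a : zq q) :
    (((g.map (Int.castRingHom (zq q))).eval a : zq q) : ℚ) =
      (g.map (Int.castRingHom ℚ)).eval (a : ℚ) := by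
  have h := eval_map_apply (p := g.map (Int.castRingHom (zq q))) (zq q).subtype a
  rw [map_map, RingHom.ext_int ((zq q).subtype.comp (Int.castRingHom (zq q)))
    (Int.castRingHom ℚ)] at h
  exact h.symm

theorem padicNorm_le_of_dvd {n : ℕ} {z : ℤ} (h : (q : ℤ) ^ n ∣ z) :
    padicNorm q z ≤ ((q : ℚ) ^ n)⁻¹ := by
  have h' : ((q ^ n : ℕ) : ℤ) ∣ z := by exact_mod_cast h
  have := padicNorm.dvd_iff_norm_le.mp h'
  rwa [zpow_neg, zpow_natCast] at this

theorem dvd_of_padicNorm_le {n : ℕ} {z : ℤ} (h : padicNorm q z ≤ ((q : ℚ) ^ n)⁻¹) :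
    (q : ℤ) ^ n ∣ z := by
  have h' : ((q ^ n : ℕ) : ℤ) ∣ z := by
    rw [padicNorm.dvd_iff_norm_le, zpow_neg, zpow_natCast]; exact h
  exact_mod_cast h'

/-- **`q`-adic uniqueness of the root near a simple root.** -/
theorem padicNorm_eval_eq (f : ℤ[X]) (x₀ : ℤ) (y : ℚ) (δ : ℤ) (n : ℕ)
    (h0 : f.eval x₀ = 0) (hy : padicNorm q y ≤ 1)
    (h1 : (q : ℤ) ^ n ∣ f.derivative.eval x₀ - δ)
    (h2 : padicNorm q (y - x₀) ≤ ((q : ℚ) ^ n)⁻¹)
    (h3 : ¬ (q : ℤ) ^ n ∣ δ) :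
    padicNorm q ((f.map (Int.castRingHom ℚ)).eval y) =
      padicNorm q δ * padicNorm q (y - x₀) := by
  have hx₀ : ((x₀ : ℤ) : ℚ) ∈ zq q := padicNorm.of_int x₀
  have hh : y - x₀ ∈ zq q := (zq q).sub_mem hy hx₀
  obtain ⟨κ, hκ⟩ := (f.map (Int.castRingHom (zq q))).binomExpansion ⟨x₀, hx₀⟩ ⟨y - x₀, hh⟩
  rw [derivative_map] at hκ
  have hκ' := congrArg (zq q).subtype hκ
  simp only [map_add, map_mul, map_pow, Subring.subtype_apply] at hκ'
  rw [subtype_eval_map_zq, subtype_eval_map_zq, subtype_eval_map_zq] at hκ'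
  simp only [Subring.coe_add] at hκ'
  have e1 : ((x₀ : ℤ) : ℚ) + (y - x₀) = y := by ring
  have e2 : (f.map (Int.castRingHom ℚ)).eval ((x₀ : ℤ) : ℚ) = 0 := by
    simp [h0]
  have e3 : ((f.derivative).map (Int.castRingHom ℚ)).eval ((x₀ : ℤ) : ℚ) =
      ((f.derivative.eval x₀ : ℤ) : ℚ) := by
    simp
  rw [e1, e2, e3, zero_add] at hκ'
  set d := f.derivative.eval x₀ with hd
  have hκn : padicNorm q (κ : ℚ) ≤ 1 := κ.2
  have hqpos : (0 : ℚ) < ((q : ℚ) ^ n)⁻¹ := by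
    have : (0 : ℚ) < q := by exact_mod_cast hq.out.pos
    positivity
  set E : ℚ := ((d - δ : ℤ) : ℚ) + (κ : ℚ) * (y - x₀) with hE
  have hEn : padicNorm q E ≤ ((q : ℚ) ^ n)⁻¹ := by
    refine padicNorm.nonarchimedean.trans (max_le (padicNorm_le_of_dvd q h1) ?_)
    rw [padicNorm.mul]
    calc padicNorm q (κ : ℚ) * padicNorm q (y - x₀) ≤ 1 * ((q : ℚ) ^ n)⁻¹ :=
          mul_le_mul hκn h2 (padicNorm.nonneg _) zero_le_one
      _ = _ := one_mul _
  have hδn : ((q : ℚ) ^ n)⁻¹ < padicNorm q δ := by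
    by_contra hcon
    exact h3 (dvd_of_padicNorm_le q (not_lt.mp hcon))
  have hsum : padicNorm q ((δ : ℚ) + E) = padicNorm q δ := by
    rw [padicNorm.add_eq_max_of_ne (ne_of_gt (lt_of_le_of_lt hEn hδn))]
    exact max_eq_left (hEn.trans hδn.le)
  have hfac : (f.map (Int.castRingHom ℚ)).eval y = ((δ : ℚ) + E) * (y - x₀) := by
    rw [hκ', hE]; push_cast; ring
  rw [hfac, padicNorm.mul, hsum]

/-- If `q^(a+b) ∣ x * y` then `q^a ∣ x` or `q^b ∣ y`. -/
theorem pow_dvd_mul_cases {p : ℤ} (hp : Prime p) (a b : ℕ) (x y : ℤ)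
    (h : p ^ (a + b) ∣ x * y) : p ^ a ∣ x ∨ p ^ b ∣ y := by
  by_contra hcon
  rw [not_or] at hcon
  have h1 : emultiplicity p x < a := emultiplicity_lt_iff_not_dvd.mpr hcon.1
  have h2 : emultiplicity p y < b := emultiplicity_lt_iff_not_dvd.mpr hcon.2
  have h3 : emultiplicity p (x * y) < ((a + b : ℕ) : ℕ∞) := by
    rw [emultiplicity_mul hp, Nat.cast_add]
    exact ENat.add_lt_add h1 h2
  exact (emultiplicity_lt_iff_not_dvd.mp h3) h

/-- An integer at which `∏ (x - ξ_i) * c` is highly divisible by `q` is `q`-adically close to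
one of the `ξ_i`, provided `c` is not. -/
theorem exists_close_root {p : ℤ} (hp : Prime p) (ξ : Finset ℤ) (c : ℤ) (B n₀ : ℕ)
    (hc : ¬ p ^ B ∣ c) (x₀ : ℤ) (h : p ^ (ξ.card * n₀ + B) ∣ (∏ a ∈ ξ, (x₀ - a)) * c) :
    ∃ a ∈ ξ, p ^ n₀ ∣ x₀ - a := by
  induction ξ using Finset.induction_on with
  | empty => simp at h; exact absurd h hc
  | insert a s ha ih =>
    rw [Finset.prod_insert ha, Finset.card_insert_of_notMem ha, mul_assoc] at h
    have h' : p ^ (n₀ + (s.card * n₀ + B)) ∣ (x₀ - a) * ((∏ a ∈ s, (x₀ - a)) * c) := by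
      have e : n₀ + (s.card * n₀ + B) = (s.card + 1) * n₀ + B := by ring
      rw [e]; exact h
    rcases pow_dvd_mul_cases hp _ _ _ _ h' with h1 | h1
    · exact ⟨a, Finset.mem_insert_self _ _, h1⟩
    · obtain ⟨b, hb, hb'⟩ := ih h1
      exact ⟨b, Finset.mem_insert_of_mem hb, hb'⟩

theorem padicNorm_pow (x : ℚ) (n : ℕ) : padicNorm q (x ^ n) = padicNorm q x ^ n := by
  induction n with
  | zero => simp
  | succ n ih => rw [pow_succ, padicNorm.mul, ih, pow_succ]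

/-- **Branch capture.** Near a simple root `a` of `G(0, x)` there is a rational polynomial `P`
(a truncated formal branch) such that, for `k` large, every integer root of `G(M q^k, x)` that is
`q`-adically close to `a` equals `P(M q^k)`; in particular `G(T, P(T))` vanishes at `T = M q^k`. -/
theorem exists_capture (G : ℤ[X][X]) (hG : G.Monic) (M : ℤ) (hM : M ≠ 0) (a : ℤ)
    (hroot : (G.map (evalRingHom 0)).eval a = 0) (n₀ : ℕ)
    (hδ : ¬ (q : ℤ) ^ n₀ ∣ (G.map (evalRingHom 0)).derivative.eval a) :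
    ∃ (P : ℚ[X]) (k₁ : ℕ), ∀ k ≥ k₁, ∀ x₀ : ℤ,
      (G.map (evalRingHom (M * (q : ℤ) ^ k))).eval x₀ = 0 → (q : ℤ) ^ n₀ ∣ x₀ - a →
      ((G.map (mapRingHom (Int.castRingHom ℚ))).eval P).eval
        ((M * (q : ℤ) ^ k : ℤ) : ℚ) = 0 := by
  set F := G.map (mapRingHom (Int.castRingHom ℚ)) with hF
  set δ := (G.map (evalRingHom 0)).derivative.eval a with hδdef
  have hδ0 : δ ≠ 0 := by
    intro h0; rw [h0] at hδ; exact hδ (dvd_zero _)
  -- degree bound
  set D := G.support.sup (fun i => (G.coeff i).natDegree) with hDdef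
  have hD : ∀ i, (G.coeff i).natDegree ≤ D := by
    intro i
    by_cases hi : i ∈ G.support
    · exact Finset.le_sup (f := fun i => (G.coeff i).natDegree) hi
    · rw [notMem_support_iff.mp hi]; simp
  -- specialisation at 0 over ℚ
  have hF0 : F.map (evalRingHom (0 : ℚ)) =
      (G.map (evalRingHom 0)).map (Int.castRingHom ℚ) := by
    rw [hF, map_map, map_map]
    have := evalRingHom_comp_mapRingHom_intCast ℚ 0
    rw [Int.cast_zero] at this
    rw [this]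
  have hroot' : (F.map (evalRingHom (0 : ℚ))).eval (a : ℚ) = 0 := by
    rw [hF0]; simp [hroot]
  have hδ' : (F.map (evalRingHom (0 : ℚ))).derivative.eval (a : ℚ) ≠ 0 := by
    rw [hF0, derivative_map]
    simp only [eval_intCast_map, Int.cast_id, eq_intCast, ne_eq, Int.cast_eq_zero]
    exact hδ0
  obtain ⟨P, hP0, hPdeg, R, hR⟩ := exists_branch F (a : ℚ) hroot' hδ' D
  -- P = a + X * S
  obtain ⟨S, hS⟩ : X ∣ P - C (a : ℚ) := by
    rw [X_dvd_iff, coeff_zero_eq_eval_zero]; simp [hP0]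
  have hPS : ∀ t : ℚ, P.eval t = a + t * S.eval t := by
    intro t
    have : P = C (a : ℚ) + X * S := by rw [← hS]; ring
    rw [this]; simp
  obtain ⟨AS, hAS, HS⟩ := exists_padicNorm_eval_le q S
  obtain ⟨AR, hAR, HR⟩ := exists_padicNorm_eval_le q R
  obtain ⟨Δ, hΔ, HΔ⟩ := exists_denominator P
  obtain ⟨A₁, hA₁, H₁⟩ := exists_root_bound G hG D hD
  have hA₁' : (0 : ℚ) ≤ A₁ := by exact_mod_cast hA₁
  have hΔ' : (Δ : ℚ) ≠ 0 := by exact_mod_cast hΔ
  set A₂ : ℚ := ∑ i ∈ Finset.range (P.natDegree + 1), |P.coeff i| with hA₂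
  have hA₂0 : 0 ≤ A₂ := Finset.sum_nonneg fun _ _ => abs_nonneg _
  set Afin : ℚ := |(Δ : ℚ)| * ((A₁ : ℚ) + A₂) * |(M : ℚ)| ^ D * |(δ : ℚ)| * AR with hAfin
  have hq1 : (1 : ℚ) < q := by exact_mod_cast hq.out.one_lt
  have hq0 : (0 : ℚ) < q := by linarith
  obtain ⟨n₁, hn₁⟩ := pow_unbounded_of_one_lt (AS * (q : ℚ) ^ n₀) hq1
  obtain ⟨n₂, hn₂⟩ := pow_unbounded_of_one_lt Afin hq1
  refine ⟨P, max n₀ (max n₁ n₂), fun k hk x₀ hx₀ hclose => ?_⟩
  have hk0 : n₀ ≤ k := (le_max_left _ _).trans hk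
  have hk1 : n₁ ≤ k := ((le_max_left _ _).trans (le_max_right _ _)).trans hk
  have hk2 : n₂ ≤ k := ((le_max_right _ _).trans (le_max_right _ _)).trans hk
  have hqk1 : AS * (q : ℚ) ^ n₀ < (q : ℚ) ^ k := hn₁.trans_le (pow_le_pow_right₀ hq1.le hk1)
  have hqk2 : Afin < (q : ℚ) ^ k := hn₂.trans_le (pow_le_pow_right₀ hq1.le hk2)
  set t : ℤ := M * (q : ℤ) ^ k with ht
  have hqkpos : (0 : ℚ) < (q : ℚ) ^ k := pow_pos hq0 k
  have hqn0pos : (0 : ℚ) < (q : ℚ) ^ n₀ := pow_pos hq0 n₀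
  have ht0 : t ≠ 0 := mul_ne_zero hM (pow_ne_zero _ (by exact_mod_cast hq.out.ne_zero))
  have htabs : (1 : ℤ) ≤ |t| := Int.one_le_abs ht0
  have htn : padicNorm q (t : ℚ) ≤ ((q : ℚ) ^ k)⁻¹ :=
    padicNorm_le_of_dvd q (Dvd.intro_left M rfl)
  set y : ℚ := P.eval (t : ℚ) with hy
  have hya : padicNorm q (y - a) ≤ ((q : ℚ) ^ n₀)⁻¹ := by
    rw [hy, hPS, add_sub_cancel_left, padicNorm.mul]
    calc padicNorm q (t : ℚ) * padicNorm q (S.eval (t : ℚ)) ≤ ((q : ℚ) ^ k)⁻¹ * AS :=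
          mul_le_mul htn (HS t) (padicNorm.nonneg _) (by positivity)
      _ ≤ ((q : ℚ) ^ n₀)⁻¹ := by
          rw [inv_mul_le_iff₀ hqkpos, ← div_eq_mul_inv, le_div_iff₀ hqn0pos]
          linarith
  have hax : padicNorm q ((a : ℚ) - x₀) ≤ ((q : ℚ) ^ n₀)⁻¹ := by
    have : (q : ℤ) ^ n₀ ∣ a - x₀ := by rw [← neg_sub]; exact (dvd_neg).mpr hclose
    have h := padicNorm_le_of_dvd q this
    push_cast at h; exact h
  have hyx : padicNorm q (y - x₀) ≤ ((q : ℚ) ^ n₀)⁻¹ := by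
    have e : y - x₀ = (y - a) + ((a : ℚ) - x₀) := by ring
    rw [e]; exact padicNorm.nonarchimedean.trans (max_le hya hax)
  have hinv1 : ((q : ℚ) ^ n₀)⁻¹ ≤ 1 := inv_le_one_of_one_le₀ (one_le_pow₀ hq1.le)
  have hy1 : padicNorm q y ≤ 1 := by
    have e : y = (y - a) + (a : ℚ) := by ring
    rw [e]
    exact padicNorm.nonarchimedean.trans (max_le (hya.trans hinv1) (padicNorm.of_int a))
  -- derivative congruence
  have hder : (q : ℤ) ^ n₀ ∣ (G.map (evalRingHom t)).derivative.eval x₀ - δ := by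
    rw [hδdef, derivative_map, derivative_map]
    exact dvd_bieval_sub _ _ t x₀ a ((pow_dvd_pow _ hk0).trans (Dvd.intro_left M rfl)) hclose
  have hkey := padicNorm_eval_eq q (G.map (evalRingHom t)) x₀ y δ n₀ hx₀ hy1 hder hyx hδ
  have hval : ((G.map (evalRingHom t)).map (Int.castRingHom ℚ)).eval y =
      (t : ℚ) ^ (D + 1) * R.eval (t : ℚ) := by
    rw [hy, ← eval_eval_map_intCast, ← hF, hR]; simp
  obtain ⟨z, hz⟩ := HΔ t
  by_cases hZ : Δ * x₀ - z = 0
  · have hyx₀ : y = x₀ := by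
      have h1 : (Δ : ℚ) * x₀ = Δ * y := by
        rw [← hz]; exact_mod_cast sub_eq_zero.mp hZ
      exact (mul_left_cancel₀ hΔ' h1).symm
    rw [eval_eval_map_intCast, ← hy, hyx₀]
    simp [hx₀]
  · exfalso
    have e1 := one_le_abs_mul_padicNorm q (Δ * x₀ - z) hZ
    have hZq : ((Δ * x₀ - z : ℤ) : ℚ) = Δ * (x₀ - y) := by push_cast; rw [hz]; ring
    rw [hZq] at e1
    set N := padicNorm q (y - x₀) with hN
    set pδ := padicNorm q (δ : ℚ) with hpδ
    have hN0 : 0 ≤ N := padicNorm.nonneg _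
    have hT : |(t : ℚ)| = |(M : ℚ)| * (q : ℚ) ^ k := by
      rw [ht]; push_cast; rw [abs_mul, abs_pow, abs_of_pos hq0]
    have hx₀abs : |(x₀ : ℚ)| ≤ A₁ * |(t : ℚ)| ^ D := by
      exact_mod_cast H₁ t htabs x₀ hx₀
    have hyabs : |y| ≤ A₂ * |(t : ℚ)| ^ D :=
      abs_eval_le P D hPdeg (t : ℚ) (by exact_mod_cast htabs)
    have hZabs : |(Δ : ℚ) * (x₀ - y)| ≤
        |(Δ : ℚ)| * ((A₁ : ℚ) + A₂) * (|(M : ℚ)| * (q : ℚ) ^ k) ^ D := by
      rw [abs_mul, ← hT, mul_assoc]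
      refine mul_le_mul_of_nonneg_left ?_ (abs_nonneg _)
      calc |(x₀ : ℚ) - y| ≤ |(x₀ : ℚ)| + |y| := abs_sub _ _
        _ ≤ A₁ * |(t : ℚ)| ^ D + A₂ * |(t : ℚ)| ^ D := add_le_add hx₀abs hyabs
        _ = _ := by ring
    have hZn : padicNorm q ((Δ : ℚ) * (x₀ - y)) ≤ N := by
      rw [padicNorm.mul, ← neg_sub y (x₀ : ℚ), padicNorm.neg]
      calc padicNorm q (Δ : ℚ) * padicNorm q (y - x₀) ≤ 1 * N :=
            mul_le_mul_of_nonneg_right (padicNorm.of_int Δ) hN0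
        _ = N := one_mul _
    have e3 := one_le_abs_mul_padicNorm q δ hδ0
    have e4 : pδ * N ≤ (((q : ℚ) ^ k)⁻¹) ^ (D + 1) * AR := by
      rw [← hkey, hval, padicNorm.mul, padicNorm_pow]
      exact mul_le_mul (pow_le_pow_left₀ (padicNorm.nonneg _) htn _) (HR t)
        (padicNorm.nonneg _) (by positivity)
    have hfin : (1 : ℚ) ≤ Afin * ((q : ℚ) ^ k)⁻¹ := by
      calc (1 : ℚ) ≤ |(Δ : ℚ) * (x₀ - y)| * padicNorm q ((Δ : ℚ) * (x₀ - y)) := e1
        _ ≤ |(Δ : ℚ) * (x₀ - y)| * N := mul_le_mul_of_nonneg_left hZn (abs_nonneg _)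
        _ ≤ |(Δ : ℚ) * (x₀ - y)| * ((|(δ : ℚ)| * pδ) * N) :=
            mul_le_mul_of_nonneg_left (le_mul_of_one_le_left hN0 e3) (abs_nonneg _)
        _ = (|(Δ : ℚ) * (x₀ - y)| * |(δ : ℚ)|) * (pδ * N) := by ring
        _ ≤ (|(Δ : ℚ) * (x₀ - y)| * |(δ : ℚ)|) * ((((q : ℚ) ^ k)⁻¹) ^ (D + 1) * AR) :=
            mul_le_mul_of_nonneg_left e4 (by positivity)
        _ ≤ (|(Δ : ℚ)| * ((A₁ : ℚ) + A₂) * (|(M : ℚ)| * (q : ℚ) ^ k) ^ D * |(δ : ℚ)|) *
              ((((q : ℚ) ^ k)⁻¹) ^ (D + 1) * AR) :=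
            mul_le_mul_of_nonneg_right
              (mul_le_mul_of_nonneg_right hZabs (abs_nonneg _)) (by positivity)
        _ = Afin * ((q : ℚ) ^ k)⁻¹ := by
            have key : (|(M : ℚ)| * (q : ℚ) ^ k) ^ D * (((q : ℚ) ^ k)⁻¹) ^ (D + 1) =
                |(M : ℚ)| ^ D * ((q : ℚ) ^ k)⁻¹ := by
              rw [mul_pow, pow_succ, inv_pow]
              field_simp
            rw [hAfin]
            linear_combination (|(Δ : ℚ)| * ((A₁ : ℚ) + A₂) * |(δ : ℚ)| * AR) * key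
    rw [← div_eq_mul_inv, le_div_iff₀ hqkpos, one_mul] at hfin
    linarith

/-- The derivative of `∏ (X - b) * C` at `a ∈ ξ` with `C(a) ≠ 0` is nonzero. -/
theorem derivative_eval_ne_zero (ξ : Finset ℤ) (Cp : ℤ[X]) (a : ℤ) (ha : a ∈ ξ)
    (hC : Cp.eval a ≠ 0) : ((∏ b ∈ ξ, (X - C b)) * Cp).derivative.eval a ≠ 0 := by
  classical
  rw [← Finset.mul_prod_erase ξ _ ha, mul_assoc, derivative_mul]
  simp only [derivative_sub, derivative_X, derivative_C, sub_zero, one_mul, eval_add, eval_mul,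
    eval_sub, eval_X, eval_C, sub_self, zero_mul, add_zero, eval_prod]
  refine mul_ne_zero (Finset.prod_ne_zero_iff.mpr fun b hb => ?_) hC
  exact sub_ne_zero.mpr (Finset.ne_of_mem_erase hb).symm

/-- The branch lemma, with `q` prime as an instance. -/
theorem no_rat_root_eventually_aux (G : ℤ[X][X]) (hG : G.Monic) (M : ℤ) (hM : M ≠ 0)
    (ξ : Finset ℤ) (Cp : ℤ[X])
    (hfac : G.map (evalRingHom 0) = (∏ a ∈ ξ, (X - C a)) * Cp)
    (hsimple : ∀ a ∈ ξ, Cp.eval a ≠ 0)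
    (hC : ∃ B : ℕ, ∀ x : ℤ, ¬ (q : ℤ) ^ B ∣ Cp.eval x)
    (hnr : ∀ P : ℚ[X], (G.map (mapRingHom (Int.castRingHom ℚ))).eval P ≠ 0) :
    ∃ k₀ : ℕ, ∀ k ≥ k₀, ∀ x : ℚ,
      ((G.map (evalRingHom (M * (q : ℤ) ^ k))).map (Int.castRingHom ℚ)).eval x ≠ 0 := by
  classical
  obtain ⟨B, hB⟩ := hC
  set G₀ := G.map (evalRingHom 0) with hG₀
  have hroot : ∀ a ∈ ξ, G₀.eval a = 0 := by
    intro a ha
    rw [hfac, eval_mul, eval_prod, Finset.prod_eq_zero ha (by simp), zero_mul]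
  have hder : ∀ a ∈ ξ, G₀.derivative.eval a ≠ 0 := by
    intro a ha; rw [hfac]; exact derivative_eval_ne_zero ξ Cp a ha (hsimple a ha)
  -- a uniform exponent `n₀` with `q ^ n₀ ∤ G₀'(a)` for all `a ∈ ξ`
  set n₀ := ∑ a ∈ ξ, (G₀.derivative.eval a).natAbs with hn₀
  have hn₀' : ∀ a ∈ ξ, ¬ (q : ℤ) ^ n₀ ∣ G₀.derivative.eval a := by
    intro a ha hdvd
    have h1 : (G₀.derivative.eval a).natAbs ≤ n₀ :=
      Finset.single_le_sum (f := fun a => (G₀.derivative.eval a).natAbs)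
        (fun _ _ => Nat.zero_le _) ha
    have h2 := Int.le_of_dvd (abs_pos.mpr (hder a ha)) ((dvd_abs _ _).mpr hdvd)
    have h3 : n₀ < q ^ n₀ := Nat.lt_pow_self hq.out.one_lt
    have h4 : ((q ^ n₀ : ℕ) : ℤ) ≤ ((G₀.derivative.eval a).natAbs : ℤ) := by
      rw [Int.natCast_natAbs]; exact_mod_cast h2
    have h5 : q ^ n₀ ≤ (G₀.derivative.eval a).natAbs := by exact_mod_cast h4
    omega
  have hcap : ∀ a ∈ ξ, ∃ (P : ℚ[X]) (k₁ : ℕ), ∀ k ≥ k₁, ∀ x₀ : ℤ,
      (G.map (evalRingHom (M * (q : ℤ) ^ k))).eval x₀ = 0 → (q : ℤ) ^ n₀ ∣ x₀ - a →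
      ((G.map (mapRingHom (Int.castRingHom ℚ))).eval P).eval
        ((M * (q : ℤ) ^ k : ℤ) : ℚ) = 0 :=
    fun a ha => exists_capture q G hG M hM a (hroot a ha) n₀ (hn₀' a ha)
  choose! P k₁ hPk using hcap
  set Pr : ℚ[X] := ∏ a ∈ ξ, (G.map (mapRingHom (Int.castRingHom ℚ))).eval (P a) with hPr
  have hPr0 : Pr ≠ 0 := Finset.prod_ne_zero_iff.mpr fun a _ => hnr (P a)
  have hinj : Function.Injective (fun k : ℕ => ((M * (q : ℤ) ^ k : ℤ) : ℚ)) := by
    intro k k' h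
    have h' : M * (q : ℤ) ^ k = M * (q : ℤ) ^ k' := by
      have h0 : ((M * (q : ℤ) ^ k : ℤ) : ℚ) = ((M * (q : ℤ) ^ k' : ℤ) : ℚ) := h
      exact_mod_cast h0
    have h'' := mul_left_cancel₀ hM h'
    have h3 : q ^ k = q ^ k' := by exact_mod_cast h''
    exact Nat.pow_right_injective hq.out.two_le h3
  have hfin : {k : ℕ | Pr.eval ((M * (q : ℤ) ^ k : ℤ) : ℚ) = 0}.Finite := by
    have : {k : ℕ | Pr.eval ((M * (q : ℤ) ^ k : ℤ) : ℚ) = 0} =
        (fun k : ℕ => ((M * (q : ℤ) ^ k : ℤ) : ℚ)) ⁻¹' (Pr.roots.toFinset : Set ℚ) := by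
      ext k; simp [mem_roots hPr0, IsRoot]
    rw [this]
    exact Set.Finite.preimage hinj.injOn (Finset.finite_toSet _)
  obtain ⟨k₃, hk₃⟩ := hfin.bddAbove
  refine ⟨max (ξ.card * n₀ + B) (max (ξ.sup k₁) (k₃ + 1)), fun k hk x hx => ?_⟩
  have hkA : ξ.card * n₀ + B ≤ k := (le_max_left _ _).trans hk
  have hkB : ξ.sup k₁ ≤ k := ((le_max_left _ _).trans (le_max_right _ _)).trans hk
  have hkC : k₃ + 1 ≤ k := ((le_max_right _ _).trans (le_max_right _ _)).trans hk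
  set t : ℤ := M * (q : ℤ) ^ k with ht
  have hmon : (G.map (evalRingHom t)).Monic := hG.map _
  obtain ⟨x₀, hx₀⟩ : ∃ x₀ : ℤ, (x₀ : ℚ) = x := by
    have hint := isInteger_of_is_root_of_monic (A := ℤ) (K := ℚ) hmon (r := x)
      (by rw [aeval_def, eval₂_eq_eval_map]; exact hx)
    obtain ⟨x₀, hx₀⟩ := hint
    exact ⟨x₀, by simpa using hx₀⟩
  subst hx₀
  have hx' : (G.map (evalRingHom t)).eval x₀ = 0 := by
    have h := eval_intCast_map (Int.castRingHom ℚ) (G.map (evalRingHom t)) x₀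
    rw [hx] at h
    simpa using h.symm
  have hdiv : (q : ℤ) ^ k ∣ G₀.eval x₀ := by
    have h1 := dvd_bieval_sub G ((q : ℤ) ^ k) t x₀ x₀ (Dvd.intro_left M rfl) (by simp)
    rw [hx', zero_sub, dvd_neg] at h1
    exact h1
  rw [hfac, eval_mul, eval_prod] at hdiv
  simp only [eval_sub, eval_X, eval_C] at hdiv
  have hqprime : Prime (q : ℤ) := Nat.prime_iff_prime_int.mp hq.out
  obtain ⟨a, ha, hclose⟩ := exists_close_root hqprime ξ (Cp.eval x₀) B n₀ (hB x₀) x₀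
    ((pow_dvd_pow _ hkA).trans hdiv)
  have hzero := hPk a ha k ((Finset.le_sup (f := k₁) ha).trans hkB) x₀ hx' hclose
  have hPrz : Pr.eval ((M * (q : ℤ) ^ k : ℤ) : ℚ) = 0 := by
    rw [hPr, eval_prod]; exact Finset.prod_eq_zero ha hzero
  have hle := hk₃ (show k ∈ {k : ℕ | Pr.eval ((M * (q : ℤ) ^ k : ℤ) : ℚ) = 0} from hPrz)
  omega

end Padic

/-- **S52 [IRR-PADIC], the `q`-adic branch lemma.** Let `G ∈ ℤ[T][x]` be monic in `x` with
`G(0, x) = ∏_{a ∈ ξ} (x - a) * C(x)`, the `a ∈ ξ` simple roots (`C(a) ≠ 0`) and `v_q(C(x))`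
bounded on `ℤ`. If `G` has no root in `ℚ[T]`, then for every nonzero integer `M` the
specialisations `G(M q^k, x)` have no rational root for all sufficiently large `k`. -/
theorem no_rat_root_eventually (G : ℤ[X][X]) (hG : G.Monic) (q : ℕ) (hq : q.Prime)
    (M : ℤ) (hM : M ≠ 0) (ξ : Finset ℤ) (Cp : ℤ[X])
    (hfac : G.map (evalRingHom 0) = (∏ a ∈ ξ, (X - C a)) * Cp)
    (hsimple : ∀ a ∈ ξ, Cp.eval a ≠ 0)
    (hC : ∃ B : ℕ, ∀ x : ℤ, ¬ (q : ℤ) ^ B ∣ Cp.eval x)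
    (hnr : ∀ P : ℚ[X], (G.map (mapRingHom (Int.castRingHom ℚ))).eval P ≠ 0) :
    ∃ k₀ : ℕ, ∀ k ≥ k₀, ∀ x : ℚ,
      ((G.map (evalRingHom (M * (q : ℤ) ^ k))).map (Int.castRingHom ℚ)).eval x ≠ 0 :=
  haveI : Fact q.Prime := ⟨hq⟩
  no_rat_root_eventually_aux q G hG M hM ξ Cp hfac hsimple hC hnr

end Fermat.Agent.S52.IrrPadic
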