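import Mathlib

/-!
# S52 / [IRR-RAM]: a prime at which the irrational cofactor of `ψ₃` has bounded valuation

Mathlib-only, no Chebotarev.  Main exports:

* `exists_prime_bound_quartic`: a monic integral quartic with an integral root and discriminant
  `-3 w²` (`w ≠ 0`) is `∏_{a ∈ ξ} (X - a) * Cf` with `ξ : Finset ℤ`, `Cf` monic, `Cf(a) ≠ 0` on `ξ`,
  and there are a prime `q` and a bound `B` with `q ^ B ∤ Cf(x)` for every integer `x`.
* `exists_prime_bound_psi3`: the same for the monic form `z⁴ + b₂z³ + 9b₄z² + 27b₆z + 27b₈` of the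
  3-division polynomial of `W : WeierstrassCurve ℤ` with `Δ ≠ 0`, given a rational root of `ψ₃`
  (its discriminant is `-3 (81 Δ)²`: `disc4_psi3`).

Method: discriminant `-3·□` is negative, so after splitting off the integral roots the cofactor
is either a quadratic `x² + s x + t` with `s² - 4t = -3·□` (then `4 Cf = (2x+s)² + 3·□` has no
root in `ℚ₃` by parity of valuations) or a cubic without rational root whose discriminant is
`-3·□`; then Cardano's resolvent is rational, `m = -Q/2 + w/6` is not a rational cube, a prime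
`q` with `3 ∤ v_q(m)` exists, and a root in `ℚ_q` would make `m` a cube in `ℚ_q`.  "No root in
`ℤ_q`" gives the bound by compactness of `ℤ_q`.
-/

namespace Fermat.Agent.S52.IrrRam

open Polynomial

/-! ## explicit discriminants -/

/-- discriminant of the monic cubic `x^3 + e2 x^2 + e1 x + e0`. -/
def disc3 {R : Type*} [CommRing R] (e2 e1 e0 : R) : R :=
  e2 ^ 2 * e1 ^ 2 - 4 * e1 ^ 3 - 4 * e2 ^ 3 * e0 - 27 * e0 ^ 2 + 18 * e2 * e1 * e0

/-- discriminant of the monic quartic `x^4 + c3 x^3 + c2 x^2 + c1 x + c0`. -/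
def disc4 {R : Type*} [CommRing R] (c3 c2 c1 c0 : R) : R :=
  256 * c0 ^ 3 - 192 * c3 * c1 * c0 ^ 2 - 128 * c2 ^ 2 * c0 ^ 2 + 144 * c2 * c1 ^ 2 * c0
    - 27 * c1 ^ 4 + 144 * c3 ^ 2 * c2 * c0 ^ 2 - 6 * c3 ^ 2 * c1 ^ 2 * c0
    - 80 * c3 * c2 ^ 2 * c1 * c0 + 18 * c3 * c2 * c1 ^ 3 + 16 * c2 ^ 4 * c0
    - 4 * c2 ^ 3 * c1 ^ 2 - 27 * c3 ^ 4 * c0 ^ 2 + 18 * c3 ^ 3 * c2 * c1 * c0
    - 4 * c3 ^ 3 * c1 ^ 3 - 4 * c3 ^ 2 * c2 ^ 3 * c0 + c3 ^ 2 * c2 ^ 2 * c1 ^ 2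

theorem disc4_linear_mul {R : Type*} [CommRing R] (a e2 e1 e0 : R) :
    disc4 (e2 - a) (e1 - a * e2) (e0 - a * e1) (-(a * e0)) =
      disc3 e2 e1 e0 * (a ^ 3 + e2 * a ^ 2 + e1 * a + e0) ^ 2 := by
  simp only [disc3, disc4]; ring

theorem disc3_linear_mul {R : Type*} [CommRing R] (b s t : R) :
    disc3 (s - b) (t - b * s) (-(b * t)) = (s ^ 2 - 4 * t) * (b ^ 2 + s * b + t) ^ 2 := by
  simp only [disc3]; ring

/-- the discriminant of the monic form `z^4 + b₂ z^3 + 9 b₄ z^2 + 27 b₆ z + 27 b₈` of the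
3-division polynomial is `-3 (81 Δ)^2`. -/
theorem disc4_psi3 {R : Type*} [CommRing R] (W : WeierstrassCurve R) :
    disc4 W.b₂ (9 * W.b₄) (27 * W.b₆) (27 * W.b₈) = -3 * (81 * W.Δ) ^ 2 := by
  simp only [disc4, WeierstrassCurve.Δ, WeierstrassCurve.b₂, WeierstrassCurve.b₄,
    WeierstrassCurve.b₆, WeierstrassCurve.b₈]
  ring

/-! ## Cardano algebra over a field of characteristic zero -/

section Field
variable {K : Type*} [Field K] [CharZero K]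

theorem cardano_rel {P Q w m : K} (hm : m = -Q / 2 + w / 6)
    (hD : -4 * P ^ 3 - 27 * Q ^ 2 = -3 * w ^ 2) : m ^ 2 + Q * m - P ^ 3 / 27 = 0 := by
  subst hm
  linear_combination (1 / 108 : K) * hD

theorem cardano_cube {P Q w m y : K} (hm : m = -Q / 2 + w / 6)
    (hD : -4 * P ^ 3 - 27 * Q ^ 2 = -3 * w ^ 2) (hy : y ^ 3 + P * y + Q = 0) :
    (m - y * P / 3) ^ 3 = m * (y ^ 2 + P / 3) ^ 3 := by
  have hrel := cardano_rel hm hD
  linear_combination (-m * y ^ 3 + m * Q - P ^ 3 / 27) * hy + (-P * y + m - Q) * hrel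

theorem cardano_root {P Q w m u : K} (hm : m = -Q / 2 + w / 6)
    (hD : -4 * P ^ 3 - 27 * Q ^ 2 = -3 * w ^ 2) (hu : u ^ 3 = m) (hu0 : u ≠ 0) :
    (u - P / (3 * u)) ^ 3 + P * (u - P / (3 * u)) + Q = 0 := by
  have hrel := cardano_rel hm hD
  have h1 : (u - P / (3 * u)) ^ 3 + P * (u - P / (3 * u)) + Q
      = ((u ^ 3) ^ 2 + Q * u ^ 3 - P ^ 3 / 27) / u ^ 3 := by
    field_simp
    ring
  rw [h1, hu, hrel, zero_div]

theorem cardano_nondeg {P Q w m y : K} (hm : m = -Q / 2 + w / 6)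
    (hD : -4 * P ^ 3 - 27 * Q ^ 2 = -3 * w ^ 2) (hm0 : m ≠ 0) (hw : w ≠ 0)
    (hd : y ^ 2 + P / 3 = 0) (hn : m - y * P / 3 = 0) : False := by
  have hrel := cardano_rel hm hD
  have h1 : 27 * m ^ 2 = -P ^ 3 := by
    have e1 : m = y * P / 3 := by linear_combination hn
    have e2 : y ^ 2 = -P / 3 := by linear_combination hd
    calc 27 * m ^ 2 = 3 * y ^ 2 * P ^ 2 := by rw [e1]; ring
      _ = -P ^ 3 := by rw [e2]; ring
  have h2 : m * (2 * m + Q) = 0 := by linear_combination hrel + (1 / 27 : K) * h1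
  have h3 : 2 * m + Q = 0 := (mul_eq_zero.mp h2).resolve_left hm0
  apply hw
  rw [hm] at h3
  linear_combination 3 * h3

end Field

/-! ## compactness: no `q`-adic root implies bounded valuation on integers -/

theorem exists_bound_of_no_padic_root (q : ℕ) [Fact q.Prime] (f : Polynomial ℤ)
    (h : ∀ x : ℤ_[q], (f.map (Int.castRingHom ℤ_[q])).eval x ≠ 0) :
    ∃ B : ℕ, ∀ x : ℤ, ¬ (q : ℤ) ^ B ∣ f.eval x := by
  set g : ℤ_[q] → ℝ := fun x => ‖(f.map (Int.castRingHom ℤ_[q])).eval x‖ with hg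
  have hcont : Continuous g :=
    continuous_norm.comp (Polynomial.continuous (f.map (Int.castRingHom ℤ_[q])))
  obtain ⟨x0, -, hx0⟩ := isCompact_univ.exists_isMinOn Set.univ_nonempty hcont.continuousOn
  have hpos : 0 < g x0 := norm_pos_iff.mpr (h x0)
  have hq1 : (1 : ℝ) < q := by exact_mod_cast (Fact.out : q.Prime).one_lt
  have hq0 : (0 : ℝ) < q := by linarith
  obtain ⟨B, hB⟩ := exists_pow_lt_of_lt_one hpos (inv_lt_one_of_one_lt₀ hq1)
  refine ⟨B, fun x hdvd => ?_⟩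
  have h1 : g (x : ℤ_[q]) ≤ (q : ℝ) ^ (-(B : ℤ)) := by
    have e : (f.map (Int.castRingHom ℤ_[q])).eval (x : ℤ_[q]) = ((f.eval x : ℤ) : ℤ_[q]) := by
      rw [Polynomial.eval_intCast_map]
      simp
    simp only [hg, e]
    exact PadicInt.norm_int_le_pow_iff_dvd.mpr hdvd
  have h2 : g x0 ≤ g x := hx0 (Set.mem_univ _)
  have h3 : (q : ℝ) ^ (-(B : ℤ)) = ((q : ℝ)⁻¹) ^ B := by
    rw [zpow_neg, zpow_natCast, inv_pow]
  linarith

/-! ## valuations -/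

theorem padic_valuation_neg {q : ℕ} [Fact q.Prime] (x : ℚ_[q]) :
    (-x).valuation = x.valuation := by
  rcases eq_or_ne x 0 with rfl | hx
  · simp
  have h1 : (-x) = ((-1 : ℤ) : ℚ_[q]) * x := by push_cast; ring
  rw [h1, Padic.valuation_mul (by norm_num) hx, Padic.valuation_intCast]
  simp [padicValInt]

theorem no_sq_eq_neg_three_mul_sq (z w : ℚ_[3]) (hw : w ≠ 0) : z ^ 2 ≠ -3 * w ^ 2 := by
  intro h
  have h3 : (3 : ℚ_[3]) ≠ 0 := by norm_num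
  have hv := congrArg Padic.valuation h
  have e3 : (3 : ℚ_[3]).valuation = 1 := by simp
  rw [neg_mul, padic_valuation_neg, Padic.valuation_pow,
    Padic.valuation_mul h3 (pow_ne_zero 2 hw), Padic.valuation_pow, e3] at hv
  push_cast at hv
  omega

theorem no_cube_eq_of_not_dvd (q : ℕ) [Fact q.Prime] (m : ℚ)
    (hq : ¬ (3 : ℤ) ∣ padicValRat q m) (t : ℚ_[q]) : t ^ 3 ≠ (m : ℚ_[q]) := by
  intro h
  have hv := congrArg Padic.valuation h
  rw [Padic.valuation_pow, Padic.valuation_ratCast] at hv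
  exact hq ⟨t.valuation, by push_cast at hv; omega⟩

/-! ## cubes in `ℕ` and `ℚ` -/

theorem nat_exists_cube (n : ℕ) (hn : n ≠ 0)
    (h : ∀ q : ℕ, q.Prime → 3 ∣ padicValNat q n) : ∃ k : ℕ, k ^ 3 = n := by
  refine ⟨n.factorization.prod fun p e => p ^ (e / 3), ?_⟩
  conv_rhs => rw [← Nat.prod_factorization_pow_eq_self hn]
  rw [Finsupp.prod, Finsupp.prod, ← Finset.prod_pow]
  refine Finset.prod_congr rfl fun p hp => ?_
  have hpp : p.Prime := Nat.prime_of_mem_primeFactors (by simpa using hp)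
  have h3 : 3 ∣ n.factorization p := by
    rw [Nat.factorization_def n hpp]; exact h p hpp
  rw [← pow_mul, Nat.div_mul_cancel h3]

theorem rat_exists_cube (m : ℚ) (hm : m ≠ 0)
    (h : ∀ q : ℕ, q.Prime → (3 : ℤ) ∣ padicValRat q m) : ∃ u : ℚ, u ^ 3 = m := by
  have hnum : m.num ≠ 0 := Rat.num_ne_zero.mpr hm
  have hcop : Nat.Coprime m.num.natAbs m.den := m.reduced
  have key : ∀ q : ℕ, q.Prime → 3 ∣ padicValNat q m.num.natAbs ∧ 3 ∣ padicValNat q m.den := by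
    intro q hq
    have := Fact.mk hq
    have hv : padicValRat q m = (padicValNat q m.num.natAbs : ℤ) - (padicValNat q m.den : ℤ) := by
      rw [padicValRat, padicValInt]
    have h3 := h q hq
    rw [hv] at h3
    by_cases hd : q ∣ m.num.natAbs
    · have hnd : ¬ q ∣ m.den := fun hd' => hq.one_lt.ne' (Nat.eq_one_of_dvd_coprimes hcop hd hd')
      have h0 : padicValNat q m.den = 0 := padicValNat.eq_zero_of_not_dvd hnd
      rw [h0] at h3
      refine ⟨?_, by rw [h0]; exact dvd_zero 3⟩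
      have : (3 : ℤ) ∣ (padicValNat q m.num.natAbs : ℤ) := by simpa using h3
      exact_mod_cast this
    · have h0 : padicValNat q m.num.natAbs = 0 := padicValNat.eq_zero_of_not_dvd hd
      rw [h0] at h3
      refine ⟨by rw [h0]; exact dvd_zero 3, ?_⟩
      have : (3 : ℤ) ∣ (padicValNat q m.den : ℤ) := by
        have := (dvd_neg (α := ℤ)).mpr h3
        simpa using this
      exact_mod_cast this
  obtain ⟨k1, hk1⟩ := nat_exists_cube m.num.natAbs (Int.natAbs_ne_zero.mpr hnum)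
    (fun q hq => (key q hq).1)
  obtain ⟨k2, hk2⟩ := nat_exists_cube m.den m.den_ne_zero (fun q hq => (key q hq).2)
  have hk2' : (k2 : ℚ) ≠ 0 := by
    intro h0
    have : k2 = 0 := by exact_mod_cast h0
    rw [this] at hk2
    exact m.den_ne_zero (by simpa using hk2.symm)
  have hm' : m = (m.num : ℚ) / (m.den : ℚ) := (Rat.num_div_den m).symm
  rcases le_or_gt 0 m.num with hpos | hneg
  · refine ⟨(k1 : ℚ) / k2, ?_⟩
    have e1 : (m.num : ℚ) = ((m.num.natAbs : ℕ) : ℚ) := by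
      have : (m.num : ℤ) = (m.num.natAbs : ℤ) := (Int.natAbs_of_nonneg hpos).symm
      have h' := congrArg (Int.cast : ℤ → ℚ) this
      rw [Int.cast_natCast] at h'
      exact h'
    rw [hm', e1, ← hk1, ← hk2]
    push_cast
    rw [div_pow]
  · refine ⟨-(k1 : ℚ) / k2, ?_⟩
    have e1 : (m.num : ℚ) = -((m.num.natAbs : ℕ) : ℚ) := by
      have : (m.num : ℤ) = -(m.num.natAbs : ℤ) := by
        rw [Int.ofNat_natAbs_of_nonpos hneg.le]; ring
      have h' := congrArg (Int.cast : ℤ → ℚ) this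
      rw [Int.cast_neg, Int.cast_natCast] at h'
      exact h'
    rw [hm', e1, ← hk1, ← hk2]
    push_cast
    rw [div_pow]
    ring

/-! ## rational roots of monic integral polynomials -/

theorem exists_int_eq_of_monic_root {p : Polynomial ℤ} (hp : p.Monic) {x : ℚ}
    (hx : aeval x p = 0) : ∃ n : ℤ, (n : ℚ) = x := by
  obtain ⟨n, hn⟩ := isInteger_of_is_root_of_monic hp hx
  exact ⟨n, by simpa using hn⟩

/-! ## the quadratic cofactor: `q = 3` -/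

theorem quadratic_no_root_three (s t : ℤ) (r w : ℤ) (hw : w ≠ 0)
    (hD : (s ^ 2 - 4 * t) * r ^ 2 = -3 * w ^ 2) (x : ℤ_[3]) :
    x ^ 2 + (s : ℤ_[3]) * x + (t : ℤ_[3]) ≠ 0 := by
  intro hx
  have hx' : (x : ℚ_[3]) ^ 2 + (s : ℚ_[3]) * (x : ℚ_[3]) + (t : ℚ_[3]) = 0 := by
    have := congrArg (fun z : ℤ_[3] => (z : ℚ_[3])) hx
    push_cast at this
    exact this
  have hD' : ((s : ℚ_[3]) ^ 2 - 4 * (t : ℚ_[3])) * (r : ℚ_[3]) ^ 2 = -3 * (w : ℚ_[3]) ^ 2 := by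
    have := congrArg (Int.cast : ℤ → ℚ_[3]) hD
    push_cast at this
    exact this
  have hw' : (w : ℚ_[3]) ≠ 0 := by exact_mod_cast hw
  refine no_sq_eq_neg_three_mul_sq ((2 * (x : ℚ_[3]) + (s : ℚ_[3])) * (r : ℚ_[3])) (w : ℚ_[3]) hw' ?_
  linear_combination 4 * (r : ℚ_[3]) ^ 2 * hx' + hD'

/-! ## the cubic cofactor: Cardano -/

theorem cubic_exists_prime_no_root (e2 e1 e0 : ℤ) (w : ℚ) (hw : w ≠ 0)
    (hdisc : ((disc3 e2 e1 e0 : ℤ) : ℚ) = -3 * w ^ 2)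
    (hnr : ∀ x : ℤ, x ^ 3 + e2 * x ^ 2 + e1 * x + e0 ≠ 0) :
    ∃ (q : ℕ) (_ : Fact q.Prime), ∀ x : ℤ_[q],
      x ^ 3 + (e2 : ℤ_[q]) * x ^ 2 + (e1 : ℤ_[q]) * x + (e0 : ℤ_[q]) ≠ 0 := by
  -- no rational root
  have hnrQ : ∀ x : ℚ, x ^ 3 + (e2 : ℚ) * x ^ 2 + (e1 : ℚ) * x + (e0 : ℚ) ≠ 0 := by
    intro x hx
    have hmonic : (X ^ 3 + C e2 * X ^ 2 + C e1 * X + C e0 : Polynomial ℤ).Monic := by monicity!
    obtain ⟨n, rfl⟩ := exists_int_eq_of_monic_root hmonic (x := x) (by simpa using hx)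
    exact hnr n (by exact_mod_cast hx)
  -- depressed cubic
  set P : ℚ := (e1 : ℚ) - (e2 : ℚ) ^ 2 / 3 with hP
  set Q : ℚ := (e0 : ℚ) - (e1 : ℚ) * (e2 : ℚ) / 3 + 2 * (e2 : ℚ) ^ 3 / 27 with hQ
  have hD : -4 * P ^ 3 - 27 * Q ^ 2 = -3 * w ^ 2 := by
    rw [← hdisc, hP, hQ]
    simp only [disc3]
    push_cast
    ring
  have hdep : ∀ {K : Type} [Field K] [CharZero K] (y : K),
      (y - (e2 : K) / 3) ^ 3 + (e2 : K) * (y - (e2 : K) / 3) ^ 2 + (e1 : K) * (y - (e2 : K) / 3)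
        + (e0 : K) = y ^ 3 + ((P : ℚ) : K) * y + ((Q : ℚ) : K) := by
    intro K _ _ y
    rw [hP, hQ]
    push_cast
    ring
  -- choose the sign of `w` so that the resolvent value is nonzero
  obtain ⟨w', hw', hD', hm0⟩ : ∃ w' : ℚ, w' ≠ 0 ∧ -4 * P ^ 3 - 27 * Q ^ 2 = -3 * w' ^ 2 ∧
      -Q / 2 + w' / 6 ≠ 0 := by
    by_cases h : -Q / 2 + w / 6 = 0
    · refine ⟨-w, neg_ne_zero.mpr hw, by rw [hD]; ring, fun h' => hw ?_⟩
      linear_combination 3 * h - 3 * h'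
    · exact ⟨w, hw, hD, h⟩
  set m : ℚ := -Q / 2 + w' / 6 with hm
  -- `m` is not a cube
  have hncube : ¬ ∃ u : ℚ, u ^ 3 = m := by
    rintro ⟨u, hu⟩
    have hu0 : u ≠ 0 := by
      rintro rfl
      exact hm0 (by rw [← hu]; ring)
    have hroot := cardano_root hm hD' hu hu0
    have := hdep (K := ℚ) (u - P / (3 * u) )
    simp only [Rat.cast_id] at this
    exact hnrQ _ (this.trans hroot)
  obtain ⟨q, hq, hq3⟩ : ∃ q : ℕ, q.Prime ∧ ¬ (3 : ℤ) ∣ padicValRat q m := by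
    by_contra hcon
    refine hncube (rat_exists_cube m hm0 fun q hq => ?_)
    by_contra h3
    exact hcon ⟨q, hq, h3⟩
  have hqF := Fact.mk hq
  refine ⟨q, hqF, fun x hx => ?_⟩
  have hx' : (x : ℚ_[q]) ^ 3 + (e2 : ℚ_[q]) * (x : ℚ_[q]) ^ 2 + (e1 : ℚ_[q]) * (x : ℚ_[q])
      + (e0 : ℚ_[q]) = 0 := by
    have := congrArg (fun z : ℤ_[q] => (z : ℚ_[q])) hx
    push_cast at this
    exact this
  set y : ℚ_[q] := (x : ℚ_[q]) + (e2 : ℚ_[q]) / 3 with hy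
  have hy0 : y ^ 3 + ((P : ℚ) : ℚ_[q]) * y + ((Q : ℚ) : ℚ_[q]) = 0 := by
    rw [← hdep (K := ℚ_[q]) y, hy]
    rw [← hx']
    ring
  have hmK : ((m : ℚ) : ℚ_[q]) = -((Q : ℚ) : ℚ_[q]) / 2 + ((w' : ℚ) : ℚ_[q]) / 6 := by
    rw [hm]; push_cast; ring
  have hDK : -4 * ((P : ℚ) : ℚ_[q]) ^ 3 - 27 * ((Q : ℚ) : ℚ_[q]) ^ 2
      = -3 * ((w' : ℚ) : ℚ_[q]) ^ 2 := by
    have := congrArg (Rat.cast : ℚ → ℚ_[q]) hD'
    push_cast at this
    exact this
  have hcube := cardano_cube hmK hDK hy0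
  by_cases hd : y ^ 2 + ((P : ℚ) : ℚ_[q]) / 3 = 0
  · rw [hd] at hcube
    have hn : (m : ℚ_[q]) - y * ((P : ℚ) : ℚ_[q]) / 3 = 0 := by
      have : ((m : ℚ_[q]) - y * ((P : ℚ) : ℚ_[q]) / 3) ^ 3 = 0 := by rw [hcube]; ring
      exact pow_eq_zero_iff (by norm_num) |>.mp this
    exact cardano_nondeg hmK hDK (by exact_mod_cast hm0) (by exact_mod_cast hw') hd hn
  · refine no_cube_eq_of_not_dvd q m hq3
      (((m : ℚ_[q]) - y * ((P : ℚ) : ℚ_[q]) / 3) / (y ^ 2 + ((P : ℚ) : ℚ_[q]) / 3)) ?_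
    rw [div_pow, hcube, mul_div_assoc, div_self (pow_ne_zero 3 hd), mul_one]


/-! ## assembly -/

/-- **[IRR-RAM], generic form.**  A monic integral quartic with an integral root whose
discriminant is `-3 w^2` (`w ≠ 0`) factors as `∏_{a ∈ ξ} (X - a) * Cf` with `ξ` a set of integers,
`Cf` monic without roots in `ξ`, and there is a prime `q` such that the `q`-adic valuation of
`Cf` is bounded on `ℤ`. -/
theorem exists_prime_bound_quartic (c3 c2 c1 c0 w : ℤ) (hw : w ≠ 0)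
    (hdisc : disc4 c3 c2 c1 c0 = -3 * w ^ 2)
    (hroot : ∃ a : ℤ, a ^ 4 + c3 * a ^ 3 + c2 * a ^ 2 + c1 * a + c0 = 0) :
    ∃ (ξ : Finset ℤ) (Cf : Polynomial ℤ) (q : ℕ), q.Prime ∧ Cf.Monic ∧
      (X ^ 4 + C c3 * X ^ 3 + C c2 * X ^ 2 + C c1 * X + C c0 : Polynomial ℤ)
        = (∏ a ∈ ξ, (X - C a)) * Cf ∧
      (∀ a ∈ ξ, Cf.eval a ≠ 0) ∧ ∃ B : ℕ, ∀ x : ℤ, ¬ (q : ℤ) ^ B ∣ Cf.eval x := by
  obtain ⟨a, ha⟩ := hroot
  -- divide by `X - a`
  obtain ⟨e2, he2⟩ : ∃ e2 : ℤ, e2 = c3 + a := ⟨_, rfl⟩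
  obtain ⟨e1, he1⟩ : ∃ e1 : ℤ, e1 = c2 + a * e2 := ⟨_, rfl⟩
  obtain ⟨e0, he0⟩ : ∃ e0 : ℤ, e0 = c1 + a * e1 := ⟨_, rfl⟩
  have hc3 : c3 = e2 - a := by rw [he2]; ring
  have hc2 : c2 = e1 - a * e2 := by rw [he1]; ring
  have hc1 : c1 = e0 - a * e1 := by rw [he0]; ring
  have hc0 : c0 = -(a * e0) := by rw [he0, he1, he2]; linear_combination ha
  have hd3 : disc3 e2 e1 e0 * (a ^ 3 + e2 * a ^ 2 + e1 * a + e0) ^ 2 = -3 * w ^ 2 := by
    rw [← hdisc, hc3, hc2, hc1, hc0, disc4_linear_mul]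
  have hw2 : (-3 * w ^ 2 : ℤ) ≠ 0 := mul_ne_zero (by norm_num) (pow_ne_zero 2 hw)
  have hga : a ^ 3 + e2 * a ^ 2 + e1 * a + e0 ≠ 0 := by
    intro h0
    rw [h0] at hd3
    exact hw2 (by rw [← hd3]; ring)
  by_cases hb : ∃ b : ℤ, b ^ 3 + e2 * b ^ 2 + e1 * b + e0 = 0
  · -- two rational roots, quadratic cofactor, `q = 3`
    obtain ⟨b, hb⟩ := hb
    obtain ⟨s, hs⟩ : ∃ s : ℤ, s = e2 + b := ⟨_, rfl⟩
    obtain ⟨t, ht⟩ : ∃ t : ℤ, t = e1 + b * s := ⟨_, rfl⟩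
    have hE2 : e2 = s - b := by rw [hs]; ring
    have hE1 : e1 = t - b * s := by rw [ht]; ring
    have hE0 : e0 = -(b * t) := by rw [ht, hs]; linear_combination hb
    have hab : a ≠ b := by
      rintro rfl
      exact hga hb
    have hd2 : (s ^ 2 - 4 * t) * ((b ^ 2 + s * b + t) * (a ^ 3 + e2 * a ^ 2 + e1 * a + e0)) ^ 2
        = -3 * w ^ 2 := by
      rw [← hd3, hE2, hE1, hE0, disc3_linear_mul]
      ring
    have hgb : b ^ 2 + s * b + t ≠ 0 := by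
      intro h0
      rw [h0] at hd2
      exact hw2 (by rw [← hd2]; ring)
    have hha : a ^ 2 + s * a + t ≠ 0 := by
      intro h0
      apply hga
      rw [hE2, hE1, hE0]
      linear_combination (a - b) * h0
    have : Fact (Nat.Prime 3) := ⟨Nat.prime_three⟩
    refine ⟨{a, b}, X ^ 2 + C s * X + C t, 3, Nat.prime_three, by monicity!, ?_, ?_, ?_⟩
    · rw [Finset.prod_pair hab, hc3, hc2, hc1, hc0, hE2, hE1, hE0]
      simp only [map_sub, map_mul, map_neg]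
      ring
    · intro x hx
      rcases Finset.mem_insert.mp hx with rfl | hx
      · simpa using hha
      · rw [Finset.mem_singleton.mp hx]
        simpa using hgb
    · refine exists_bound_of_no_padic_root 3 _ fun x => ?_
      have := quadratic_no_root_three s t _ w hw hd2 x
      simpa using this
  · -- one rational root, cubic cofactor, Cardano
    have hnr : ∀ x : ℤ, x ^ 3 + e2 * x ^ 2 + e1 * x + e0 ≠ 0 := fun x hx => hb ⟨x, hx⟩
    have hgaQ : ((a ^ 3 + e2 * a ^ 2 + e1 * a + e0 : ℤ) : ℚ) ≠ 0 := by exact_mod_cast hga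
    have hdQ : ((disc3 e2 e1 e0 : ℤ) : ℚ)
        = -3 * ((w : ℚ) / ((a ^ 3 + e2 * a ^ 2 + e1 * a + e0 : ℤ) : ℚ)) ^ 2 := by
      have := congrArg (Int.cast : ℤ → ℚ) hd3
      rw [Int.cast_mul, Int.cast_pow] at this
      rw [div_pow, ← mul_div_assoc, eq_div_iff (pow_ne_zero 2 hgaQ), this]
      push_cast
      ring
    obtain ⟨q, hqF, hq⟩ := cubic_exists_prime_no_root e2 e1 e0 _
      (div_ne_zero (by exact_mod_cast hw) hgaQ) hdQ hnr
    refine ⟨{a}, X ^ 3 + C e2 * X ^ 2 + C e1 * X + C e0, q, hqF.out, by monicity!, ?_, ?_, ?_⟩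
    · rw [Finset.prod_singleton, hc3, hc2, hc1, hc0]
      simp only [map_sub, map_mul, map_neg]
      ring
    · intro x hx
      rw [Finset.mem_singleton.mp hx]
      simpa using hga
    · refine exists_bound_of_no_padic_root q _ fun x => ?_
      have := hq x
      simpa using this

/-- **[IRR-RAM] for the 3-division polynomial.**  If `ψ₃(W) = 3x⁴ + b₂x³ + 3b₄x² + 3b₆x + b₈` has a
rational root, then its monic form `z⁴ + b₂z³ + 9b₄z² + 27b₆z + 27b₈` (`z = 3x`) factors as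
`∏_{a ∈ ξ} (X - a) * Cf` over `ℤ` with the `q`-adic valuation of `Cf` bounded on `ℤ` for some
prime `q`. -/
theorem exists_prime_bound_psi3 (W : WeierstrassCurve ℤ) (hΔ : W.Δ ≠ 0)
    (hroot : ∃ x : ℚ, 3 * x ^ 4 + (W.b₂ : ℚ) * x ^ 3 + 3 * (W.b₄ : ℚ) * x ^ 2
      + 3 * (W.b₆ : ℚ) * x + (W.b₈ : ℚ) = 0) :
    ∃ (ξ : Finset ℤ) (Cf : Polynomial ℤ) (q : ℕ), q.Prime ∧ Cf.Monic ∧
      (X ^ 4 + C W.b₂ * X ^ 3 + C (9 * W.b₄) * X ^ 2 + C (27 * W.b₆) * X + C (27 * W.b₈) :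
        Polynomial ℤ) = (∏ a ∈ ξ, (X - C a)) * Cf ∧
      (∀ a ∈ ξ, Cf.eval a ≠ 0) ∧ ∃ B : ℕ, ∀ x : ℤ, ¬ (q : ℤ) ^ B ∣ Cf.eval x := by
  refine exists_prime_bound_quartic W.b₂ (9 * W.b₄) (27 * W.b₆) (27 * W.b₈) (81 * W.Δ)
    (mul_ne_zero (by norm_num) hΔ) (disc4_psi3 W) ?_
  obtain ⟨x, hx⟩ := hroot
  have hmonic : (X ^ 4 + C W.b₂ * X ^ 3 + C (9 * W.b₄) * X ^ 2 + C (27 * W.b₆) * X
      + C (27 * W.b₈) : Polynomial ℤ).Monic := by monicity!
  have hev : aeval (3 * x) (X ^ 4 + C W.b₂ * X ^ 3 + C (9 * W.b₄) * X ^ 2 + C (27 * W.b₆) * X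
      + C (27 * W.b₈) : Polynomial ℤ) = (3 * x) ^ 4 + (W.b₂ : ℚ) * (3 * x) ^ 3
        + 9 * (W.b₄ : ℚ) * (3 * x) ^ 2 + 27 * (W.b₆ : ℚ) * (3 * x) + 27 * (W.b₈ : ℚ) := by
    simp only [aeval_def, eval₂_add, eval₂_mul, eval₂_pow, eval₂_X, eval₂_C]
    simp only [eq_intCast]
    push_cast
    ring
  obtain ⟨n, hn⟩ := exists_int_eq_of_monic_root hmonic (x := 3 * x) (by
    rw [hev]
    linear_combination 27 * hx)
  refine ⟨n, ?_⟩
  have h3 : (n : ℚ) ^ 4 + (W.b₂ : ℚ) * (n : ℚ) ^ 3 + 9 * (W.b₄ : ℚ) * (n : ℚ) ^ 2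
      + 27 * (W.b₆ : ℚ) * (n : ℚ) + 27 * (W.b₈ : ℚ) = 0 := by
    rw [hn]
    linear_combination 27 * hx
  exact_mod_cast h3

/-- rational roots of `ψ₃` and of its monic form correspond (`z = 3x`). -/
theorem rat_root_psi3_iff (b2 b4 b6 b8 : ℚ) :
    (∃ x : ℚ, 3 * x ^ 4 + b2 * x ^ 3 + 3 * b4 * x ^ 2 + 3 * b6 * x + b8 = 0) ↔
      ∃ z : ℚ, z ^ 4 + b2 * z ^ 3 + 9 * b4 * z ^ 2 + 27 * b6 * z + 27 * b8 = 0 := by
  constructor
  · rintro ⟨x, hx⟩
    exact ⟨3 * x, by linear_combination 27 * hx⟩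
  · rintro ⟨z, hz⟩
    exact ⟨z / 3, by linear_combination (1 / 27 : ℚ) * hz⟩

end Fermat.Agent.S52.IrrRam
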