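import Mathlib
import Fermat.Prelude.Def_FLTPrelim_GaloisRep
import Fermat.Prelude.Def_FLTPrelim_ModularRep
import Fermat.Agent.S51.Tors3
import Fermat.Agent.S52.IrrPadic
import Fermat.Agent.S52.IrrRam

/-!
# S52 [IRR]: end-to-end statement

For a curve `W` over `ℤ` that is not `3`-irreducible and a one-parameter family of `c`-invariants
`(f4(T), f6(T))` through `(c₄(W), c₆(W))` whose monic `3`-division quartic has no root in `ℚ[T]`,
there are parameters `s` in any prescribed congruence class `0 mod N` such that every curve with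
`c`-invariants `(f4(s), f6(s))` is `3`-irreducible.
-/

open Polynomial

namespace Fermat.Agent.S52.IrrTop

/-- The monic `3`-division quartic in terms of the `c`-invariants:
`z⁴ - 486 c₄ z² - 5832 c₆ z - 19683 c₄²` (the monic form of `ψ₃` of the short model
`y² = x³ - 27 c₄ x - 54 c₆` in the variable `z = 3x`). -/
noncomputable def quartic {R : Type*} [CommRing R] (c4 c6 : R) : R[X] :=
  X ^ 4 - C (486 * c4) * X ^ 2 - C (5832 * c6) * X - C (19683 * c4 ^ 2)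

theorem quartic_eval {R : Type*} [CommRing R] (c4 c6 z : R) :
    (quartic c4 c6).eval z = z ^ 4 - 486 * c4 * z ^ 2 - 5832 * c6 * z - 19683 * c4 ^ 2 := by
  simp [quartic]

theorem quartic_map {R S : Type*} [CommRing R] [CommRing S] (f : R →+* S) (c4 c6 : R) :
    (quartic c4 c6).map f = quartic (f c4) (f c6) := by
  simp [quartic, Polynomial.map_sub, Polynomial.map_mul, Polynomial.map_pow, map_ofNat]

theorem quartic_monic {R : Type*} [CommRing R] [Nontrivial R] (c4 c6 : R) :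
    (quartic c4 c6).Monic := by
  unfold quartic
  monicity!

/-- The `3`-division polynomial of an arbitrary Weierstrass curve in terms of `quartic`. -/
theorem quartic_eval_psi3 {R : Type*} [CommRing R] (W : WeierstrassCurve R) (x : R) :
    (quartic W.c₄ W.c₆).eval (108 * x + 9 * W.b₂) =
      45349632 * (3 * x ^ 4 + W.b₂ * x ^ 3 + 3 * W.b₄ * x ^ 2 + 3 * W.b₆ * x + W.b₈) := by
  rw [quartic_eval]
  simp only [WeierstrassCurve.c₄, WeierstrassCurve.c₆, WeierstrassCurve.b₂, WeierstrassCurve.b₄,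
    WeierstrassCurve.b₆, WeierstrassCurve.b₈]
  ring

/-- A rational root of `ψ₃(W)` gives a rational root of `quartic c₄ c₆`. -/
theorem quartic_root_of_psi3_root (W : WeierstrassCurve ℤ) (x : ℚ)
    (hx : 3 * x ^ 4 + (W.b₂ : ℚ) * x ^ 3 + 3 * (W.b₄ : ℚ) * x ^ 2 + 3 * (W.b₆ : ℚ) * x
      + (W.b₈ : ℚ) = 0) :
    (quartic (W.c₄ : ℚ) (W.c₆ : ℚ)).eval (108 * x + 9 * (W.b₂ : ℚ)) = 0 := by
  have h := quartic_eval_psi3 (W.map (Int.castRingHom ℚ)) x
  simp only [WeierstrassCurve.map_c₄, WeierstrassCurve.map_c₆, WeierstrassCurve.map_b₂,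
    WeierstrassCurve.map_b₄, WeierstrassCurve.map_b₆, WeierstrassCurve.map_b₈,
    eq_intCast] at h
  rw [h, hx, mul_zero]

/-- **[IRR], root form.** If `ψ₃(W)` has a rational root and the family quartic
`quartic f4 f6 ∈ ℤ[T][x]` through `(c₄(W), c₆(W))` has no root in `ℚ[T]`, then there is a prime
`q` such that for every nonzero `N` and all large `k` the quartic at `s = N q^k` has no rational
root. -/
theorem exists_prime_quartic_no_rat_root (W : WeierstrassCurve ℤ) (hΔ : W.Δ ≠ 0)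
    (hroot : ∃ x : ℚ, 3 * x ^ 4 + (W.b₂ : ℚ) * x ^ 3 + 3 * (W.b₄ : ℚ) * x ^ 2
      + 3 * (W.b₆ : ℚ) * x + (W.b₈ : ℚ) = 0)
    (f4 f6 : ℤ[X]) (h4 : f4.eval 0 = W.c₄) (h6 : f6.eval 0 = W.c₆)
    (hnr : ∀ P : ℚ[X], ((quartic f4 f6).map (mapRingHom (Int.castRingHom ℚ))).eval P ≠ 0) :
    ∃ q : ℕ, q.Prime ∧ ∀ N : ℤ, N ≠ 0 → ∃ k₀ : ℕ, ∀ k ≥ k₀, ∀ z : ℚ,
      (quartic ((f4.eval (N * (q : ℤ) ^ k) : ℤ) : ℚ)
        ((f6.eval (N * (q : ℤ) ^ k) : ℤ) : ℚ)).eval z ≠ 0 := by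
  -- the short model
  set Ws : WeierstrassCurve ℤ := ⟨0, 0, 0, -27 * W.c₄, -54 * W.c₆⟩ with hWs
  have hb2 : Ws.b₂ = 0 := by simp [hWs, WeierstrassCurve.b₂]
  have hb4 : Ws.b₄ = -(54 * W.c₄) := by simp [hWs, WeierstrassCurve.b₄]; ring
  have hb6 : Ws.b₆ = -(216 * W.c₆) := by simp [hWs, WeierstrassCurve.b₆]; ring
  have hb8 : Ws.b₈ = -(729 * W.c₄ ^ 2) := by simp [hWs, WeierstrassCurve.b₈]; ring
  have hΔs : Ws.Δ ≠ 0 := by
    have : Ws.Δ = 6 ^ 12 * W.Δ := by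
      simp only [hWs, WeierstrassCurve.Δ, WeierstrassCurve.b₂, WeierstrassCurve.b₄,
        WeierstrassCurve.b₆, WeierstrassCurve.b₈, WeierstrassCurve.c₄, WeierstrassCurve.c₆]
      ring
    rw [this]
    exact mul_ne_zero (by norm_num) hΔ
  have hroots : ∃ x : ℚ, 3 * x ^ 4 + (Ws.b₂ : ℚ) * x ^ 3 + 3 * (Ws.b₄ : ℚ) * x ^ 2
      + 3 * (Ws.b₆ : ℚ) * x + (Ws.b₈ : ℚ) = 0 := by
    obtain ⟨x, hx⟩ := hroot
    have h := quartic_root_of_psi3_root W x hx
    rw [quartic_eval] at h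
    refine ⟨36 * x + 3 * (W.b₂ : ℚ), ?_⟩
    rw [hb2, hb4, hb6, hb8]
    push_cast
    linear_combination (1 / 27 : ℚ) * h
  obtain ⟨ξ, Cf, q, hq, -, hfac, hsimple, hC⟩ :=
    IrrRam.exists_prime_bound_psi3 Ws hΔs hroots
  have hfac' : (quartic f4 f6).map (evalRingHom 0) = (∏ a ∈ ξ, (X - C a)) * Cf := by
    rw [← hfac, quartic_map]
    change quartic (f4.eval 0) (f6.eval 0) = _
    rw [h4, h6, hb2, hb4, hb6, hb8]
    simp only [quartic, map_neg, map_mul, map_pow, map_zero, zero_mul, add_zero, mul_neg]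
    have e1 : (C (9 : ℤ) * (C 54 * C W.c₄) : ℤ[X]) = C 486 * C W.c₄ := by
      rw [← mul_assoc, ← C_mul]; norm_num
    have e2 : (C (27 : ℤ) * (C 216 * C W.c₆) : ℤ[X]) = C 5832 * C W.c₆ := by
      rw [← mul_assoc, ← C_mul]; norm_num
    have e3 : (C (27 : ℤ) * (C 729 * C W.c₄ ^ 2) : ℤ[X]) = C 19683 * C W.c₄ ^ 2 := by
      rw [← mul_assoc, ← C_mul]; norm_num
    rw [e1, e2, e3]
    ring
  refine ⟨q, hq, fun N hN => ?_⟩
  obtain ⟨k₀, hk₀⟩ := IrrPadic.no_rat_root_eventually (quartic f4 f6) (quartic_monic _ _) q hq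
    N hN ξ Cf hfac' hsimple hC hnr
  refine ⟨k₀, fun k hk z => ?_⟩
  have := hk₀ k hk z
  rw [quartic_map, quartic_map] at this
  exact this

/-- If `quartic c₄ c₆` of `W'` has no rational root then neither has `ψ₃(W')`. -/
theorem psi3_no_rat_root_of_quartic (W' : WeierstrassCurve ℤ)
    (h : ∀ z : ℚ, (quartic (W'.c₄ : ℚ) (W'.c₆ : ℚ)).eval z ≠ 0) :
    ¬ ∃ x : ℚ, 3 * x ^ 4 + (W'.b₂ : ℚ) * x ^ 3 + 3 * (W'.b₄ : ℚ) * x ^ 2
      + 3 * (W'.b₆ : ℚ) * x + (W'.b₈ : ℚ) = 0 := by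
  rintro ⟨x, hx⟩
  exact h _ (quartic_root_of_psi3_root W' x hx)

/-- If `quartic c₄ c₆` of `W'` has no rational root then `W'` is `3`-irreducible. -/
theorem irr3_of_quartic (W' : WeierstrassCurve ℤ) (hΔ' : W'.Δ ≠ 0)
    (h : ∀ z : ℚ, (quartic (W'.c₄ : ℚ) (W'.c₆ : ℚ)).eval z ≠ 0) :
    W'.ModRepIsIrreducible 3 := by
  by_contra h3
  exact psi3_no_rat_root_of_quartic W' h
    (Fermat.Agent.S51.exists_rat_root_of_not_irr3 W' hΔ' h3)

/-- **[IRR], eventual form.** -/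
theorem irr3_family_eventually (W : WeierstrassCurve ℤ) (hΔ : W.Δ ≠ 0)
    (h3 : ¬ W.ModRepIsIrreducible 3)
    (f4 f6 : ℤ[X]) (h4 : f4.eval 0 = W.c₄) (h6 : f6.eval 0 = W.c₆)
    (hnr : ∀ P : ℚ[X], ((quartic f4 f6).map (mapRingHom (Int.castRingHom ℚ))).eval P ≠ 0) :
    ∃ q : ℕ, q.Prime ∧ ∀ N : ℤ, N ≠ 0 → ∃ k₀ : ℕ, ∀ k ≥ k₀, ∀ W' : WeierstrassCurve ℤ,
      W'.Δ ≠ 0 → W'.c₄ = f4.eval (N * (q : ℤ) ^ k) → W'.c₆ = f6.eval (N * (q : ℤ) ^ k) →
      W'.ModRepIsIrreducible 3 := by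
  obtain ⟨q, hq, H⟩ := exists_prime_quartic_no_rat_root W hΔ
    (Fermat.Agent.S51.exists_rat_root_of_not_irr3 W hΔ h3) f4 f6 h4 h6 hnr
  refine ⟨q, hq, fun N hN => ?_⟩
  obtain ⟨k₀, hk₀⟩ := H N hN
  refine ⟨k₀, fun k hk W' hΔ' hc4 hc6 => irr3_of_quartic W' hΔ' ?_⟩
  rw [hc4, hc6]
  exact hk₀ k hk

/-- **S52 [IRR], end-to-end.** Let `W` be an integral Weierstrass curve with `Δ ≠ 0` that is not
`3`-irreducible, and `(f4, f6)` a polynomial family of `c`-invariants through `(c₄(W), c₆(W))`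
whose `3`-division quartic has no root in `ℚ[T]`. Then for every nonzero `N` there is `s ≡ 0 mod N`
such that every integral curve with `Δ ≠ 0` and `c`-invariants `(f4(s), f6(s))` is
`3`-irreducible. -/
theorem irr3_family (W : WeierstrassCurve ℤ) (hΔ : W.Δ ≠ 0) (h3 : ¬ W.ModRepIsIrreducible 3)
    (f4 f6 : ℤ[X]) (h4 : f4.eval 0 = W.c₄) (h6 : f6.eval 0 = W.c₆)
    (hnr : ∀ P : ℚ[X], ((quartic f4 f6).map (mapRingHom (Int.castRingHom ℚ))).eval P ≠ 0)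
    (N : ℤ) (hN : N ≠ 0) :
    ∃ s : ℤ, N ∣ s ∧ ∀ W' : WeierstrassCurve ℤ, W'.Δ ≠ 0 → W'.c₄ = f4.eval s →
      W'.c₆ = f6.eval s → W'.ModRepIsIrreducible 3 := by
  obtain ⟨q, -, H⟩ := irr3_family_eventually W hΔ h3 f4 f6 h4 h6 hnr
  obtain ⟨k₀, hk₀⟩ := H N hN
  exact ⟨N * (q : ℤ) ^ k₀, Dvd.intro _ rfl, hk₀ k₀ le_rfl⟩

/-- **Bridge to the short-model `ψ₃` over an extension field.** The hypothesis `hnr` of
`irr3_family` follows from: over some field `K` of characteristic zero, the short-model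
`3`-division polynomial `3P⁴ + 6AP² + 12BP - A²` with `A = -27 f4`, `B = -54 f6` has no root
`P ∈ K[T]`. -/
theorem hnr_of_field {K : Type*} [Field K] [CharZero K] (f4 f6 : ℤ[X])
    (h : ∀ P : K[X], 3 * P ^ 4 + 6 * (C (-27) * f4.map (Int.castRingHom K)) * P ^ 2
      + 12 * (C (-54) * f6.map (Int.castRingHom K)) * P
      - (C (-27) * f4.map (Int.castRingHom K)) ^ 2 ≠ 0) :
    ∀ P : ℚ[X], ((quartic f4 f6).map (mapRingHom (Int.castRingHom ℚ))).eval P ≠ 0 := by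
  intro P hP
  have hP' := congrArg (mapRingHom (algebraMap ℚ K)) hP
  rw [map_zero, ← eval_map_apply, map_map, quartic_map, quartic_eval] at hP'
  have e : ∀ g : ℤ[X], ((mapRingHom (algebraMap ℚ K)).comp (mapRingHom (Int.castRingHom ℚ))) g
      = g.map (Int.castRingHom K) := by
    intro g
    simp only [RingHom.comp_apply, coe_mapRingHom, map_map]
    congr 1
    exact RingHom.ext_int _ _
  rw [e f4, e f6] at hP'
  set PK : K[X] := mapRingHom (algebraMap ℚ K) P with hPK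
  have h3 : (3 : K) ≠ 0 := by norm_num
  refine h (C (3 : K)⁻¹ * PK) ?_
  have hC : (C (3 : K)⁻¹ : K[X]) * 3 = 1 := by
    rw [show (3 : K[X]) = C (3 : K) by rw [map_ofNat], ← C_mul, inv_mul_cancel₀ h3, C_1]
  have hC27 : (C (-27 : K) : K[X]) = -27 := by rw [map_neg, map_ofNat]
  have hC54 : (C (-54 : K) : K[X]) = -54 := by rw [map_neg, map_ofNat]
  rw [hC27, hC54]
  set c : K[X] := C (3 : K)⁻¹ with hc
  set F4 : K[X] := f4.map (Int.castRingHom K) with hF4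
  set F6 : K[X] := f6.map (Int.castRingHom K) with hF6
  linear_combination c ^ 3 * hP' +
    (c ^ 3 * PK ^ 4 + 162 * c ^ 2 * F4 * PK ^ 2 + 648 * c * (3 * c + 1) * F6 * PK
      + 729 * (9 * c ^ 2 + 3 * c + 1) * F4 ^ 2) * hC

end Fermat.Agent.S52.IrrTop
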