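import Fermat.Agent.S52.Plan
import Fermat.Agent.S52.IrrPlan
import Fermat.Agent.S52.IrrTop
import Fermat.Agent.S52.IrrAlphaPentic

/-!
# S52 [IRR-ALPHA] and [IRR] against the Plan

* `hnr_fam`: given `Plan.Star`, the monic 3-division quartic of the family
  `(fam4 c4 c6 T, fam6 c4 c6 T)` has no root in `ℚ[T]` (for `c4³ ≠ c6²`).
* `irr_of_star : Plan.Star → Plan.Irr`.
* `irrAlpha : Plan.Star → Plan.IrrAlpha` (the interface proposition of `IrrPlan.lean`).
-/

set_option autoImplicit false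

namespace Fermat.Agent.S52.IrrAlpha

open Polynomial

section Data

variable {R S : Type*} [CommRing R] [CommRing S]

theorem map_fam4 (f : R →+* S) (a b s : R) : f (fam4 a b s) = fam4 (f a) (f b) (f s) := by
  simp only [fam4, map_add, map_sub, map_mul, map_pow, map_neg, map_ofNat]

theorem map_fam6 (f : R →+* S) (a b s : R) : f (fam6 a b s) = fam6 (f a) (f b) (f s) := by
  simp only [fam6, map_add, map_sub, map_mul, map_pow, map_neg, map_ofNat]

theorem fam4_zero (a b : R) : fam4 a b 0 = a := by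
  simp [fam4]

theorem fam6_zero (a b : R) : fam6 a b 0 = b := by
  simp [fam6]

/-- Weighted homogeneity of `fam4`. -/
theorem fam4_smul (u a b s : R) :
    fam4 (u ^ 4 * a) (u ^ 6 * b) s = u ^ 4 * fam4 a b (u ^ 2 * s) := by
  simp only [fam4]; ring

/-- Weighted homogeneity of `fam6`. -/
theorem fam6_smul (u a b s : R) :
    fam6 (u ^ 4 * a) (u ^ 6 * b) s = u ^ 6 * fam6 a b (u ^ 2 * s) := by
  simp only [fam6]; ring

theorem tN_eq (c s : R) : Fermat.Agent.S52.tN c s = IrrAlphaPentic.tN c s := by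
  simp only [Fermat.Agent.S52.tN, IrrAlphaPentic.tN]; ring

theorem tM_eq (c s : R) : Fermat.Agent.S52.tM c s = IrrAlphaPentic.tM c s := by
  simp only [Fermat.Agent.S52.tM, IrrAlphaPentic.tM]; ring

theorem tc4_eq (n m : R) : Fermat.Agent.S52.tc4 n m = IrrAlphaCore.tc4 n m := rfl

theorem tc6_eq (n m : R) : Fermat.Agent.S52.tc6 n m = IrrAlphaCore.tc6 n m := rfl

end Data

/-- **[IRR-ALPHA]** for the family of `Defs.lean`: the monic 3-division quartic of
`(fam4 c4 c6 T, fam6 c4 c6 T)` has no root in `ℚ[T]`. -/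
theorem hnr_fam (hStar : Plan.Star) (c4 c6 : ℤ) (h : c4 ^ 3 ≠ c6 ^ 2) :
    ∀ P : ℚ[X], ((IrrTop.quartic (fam4 (C c4) (C c6) X : ℤ[X]) (fam6 (C c4) (C c6) X)).map
      (mapRingHom (Int.castRingHom ℚ))).eval P ≠ 0 := by
  refine IrrAlphaPentic.hnr_of_tate (k := AlgebraicClosure ℚ) c4 c6 h _ _ ?_
  intro c u hu ha hb
  have hs := hStar (AlgebraicClosure ℚ)[X] (C c) (C u ^ 2 * X)
  rw [tc4_eq, tc6_eq, tc4_eq, tc6_eq, tN_eq, tM_eq] at hs
  have e4 : (fam4 (C c4) (C c6) X : ℤ[X]).map (Int.castRingHom (AlgebraicClosure ℚ))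
      = fam4 (C u ^ 4 * IrrAlphaCore.tc4 (C c) 1) (C u ^ 6 * IrrAlphaCore.tc6 (C c) 1) X := by
    have := map_fam4 (mapRingHom (Int.castRingHom (AlgebraicClosure ℚ))) (C c4) (C c6) X
    rw [coe_mapRingHom, map_C, map_C, map_X, eq_intCast (Int.castRingHom (AlgebraicClosure ℚ)),
      eq_intCast (Int.castRingHom (AlgebraicClosure ℚ)), ha, hb] at this
    rw [this, C_mul, C_mul, C_pow, C_pow, IrrAlphaCore.map_tc4, IrrAlphaCore.map_tc6, C_1]
  have e6 : (fam6 (C c4) (C c6) X : ℤ[X]).map (Int.castRingHom (AlgebraicClosure ℚ))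
      = fam6 (C u ^ 4 * IrrAlphaCore.tc4 (C c) 1) (C u ^ 6 * IrrAlphaCore.tc6 (C c) 1) X := by
    have := map_fam6 (mapRingHom (Int.castRingHom (AlgebraicClosure ℚ))) (C c4) (C c6) X
    rw [coe_mapRingHom, map_C, map_C, map_X, eq_intCast (Int.castRingHom (AlgebraicClosure ℚ)),
      eq_intCast (Int.castRingHom (AlgebraicClosure ℚ)), ha, hb] at this
    rw [this, C_mul, C_mul, C_pow, C_pow, IrrAlphaCore.map_tc4, IrrAlphaCore.map_tc6, C_1]
  constructor
  · rw [e4, fam4_smul, hs.1, C_pow, C_pow]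
  · rw [e6, fam6_smul, hs.2, C_pow, C_pow]

/-- **[IRR]** of the Plan from **[STAR]**. -/
theorem irr_of_star (hStar : Plan.Star) : Plan.Irr := by
  intro W hΔ hroot N hN
  have hc : W.c₄ ^ 3 ≠ W.c₆ ^ 2 := by
    intro e
    have h1728 := W.c_relation
    rw [e, sub_self] at h1728
    exact hΔ ((mul_eq_zero.mp h1728).resolve_left (by norm_num))
  have e4 : ∀ s : ℤ, (fam4 (C W.c₄) (C W.c₆) X : ℤ[X]).eval s = fam4 W.c₄ W.c₆ s := fun s => by
    have := map_fam4 (evalRingHom s) (C W.c₄) (C W.c₆) X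
    rwa [coe_evalRingHom, eval_C, eval_C, eval_X] at this
  have e6 : ∀ s : ℤ, (fam6 (C W.c₄) (C W.c₆) X : ℤ[X]).eval s = fam6 W.c₄ W.c₆ s := fun s => by
    have := map_fam6 (evalRingHom s) (C W.c₄) (C W.c₆) X
    rwa [coe_evalRingHom, eval_C, eval_C, eval_X] at this
  obtain ⟨q, -, H⟩ := IrrTop.exists_prime_quartic_no_rat_root W hΔ hroot
    (fam4 (C W.c₄) (C W.c₆) X) (fam6 (C W.c₄) (C W.c₆) X)
    (by rw [e4, fam4_zero]) (by rw [e6, fam6_zero]) (hnr_fam hStar W.c₄ W.c₆ hc)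
  obtain ⟨k₀, hk₀⟩ := H N hN
  refine ⟨N * (q : ℤ) ^ k₀, Dvd.intro _ rfl, fun W' h4 h6 x hx => ?_⟩
  refine IrrTop.psi3_no_rat_root_of_quartic W' ?_ ⟨x, hx⟩
  rw [h4, h6, ← e4, ← e6]
  exact hk₀ k₀ le_rfl

/-- `psiG` of `IrrPlan.lean` is the quartic of `IrrTop.lean` for the family. -/
theorem psiG_eq_quartic (c4 c6 : ℤ) :
    psiG c4 c6 = IrrTop.quartic (fam4 (C c4) (C c6) X : ℤ[X]) (fam6 (C c4) (C c6) X) := by
  have e1 : (18 * famA c4 c6 : ℤ[X]) = -(486 * fam4 (C c4) (C c6) X) := by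
    simp only [famA]; ring
  have e2 : (108 * famB c4 c6 : ℤ[X]) = -(5832 * fam6 (C c4) (C c6) X) := by
    simp only [famB]; ring
  have e3 : (27 * famA c4 c6 ^ 2 : ℤ[X]) = 19683 * fam4 (C c4) (C c6) X ^ 2 := by
    simp only [famA]; ring
  rw [psiG, IrrTop.quartic, e1, e2, e3, map_neg, map_neg]
  ring

/-- **[IRR-ALPHA]** of the Plan from **[STAR]** (no torsion points needed: the Tate parameters
come from `IrrAlphaCore.exists_tate_param`). -/
theorem irrAlpha (hStar : Plan.Star) : Plan.IrrAlpha := by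
  intro c4 c6 h P
  rw [psiG_eq_quartic]
  exact hnr_fam hStar c4 c6 h P

end Fermat.Agent.S52.IrrAlpha
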