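import Mathlib

/-!
# Tate parameters of a point of order five on a short Weierstrass curve

For a short Weierstrass curve `y² = x³ + A x + B` over a field `k` with `2 ≠ 0` and an affine
nonsingular point `P = (x, y)` we put

* `lam A x y = (3x² + A) / (2y)`   (the tangent slope at `P`),
* `dd A x y = lam² - 3x`           (`= x(2P) - x(P)`),
* `theta A x y = dd³ - 4·lam·y·dd - 4y²`,
* `tateU A x y = -y / (3·dd)`, `tateC A x y = dd³ / (4y²)`.

Main results (all for a curve `W` with `a₁ = a₂ = a₃ = 0`):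

* `five_nsmul_eq_zero_iff` : `5 • P = 0 ↔ y ≠ 0 ∧ dd ≠ 0 ∧ theta = 0`;
* `tate_param` : if `5 • P = 0` then with `u = tateU`, `c = tateC` one has `u ≠ 0`, `c ≠ 0` and
  `x = 3u²(c²-6c+1)`, `y = -108u³c`, `a₄ = -27u⁴(c⁴-12c³+14c²+12c+1)`,
  `a₆ = 54u⁶(c⁶-18c⁵+75c⁴+75c²+18c+1)`;
* `tateU_of_param`, `tateC_of_param` : conversely the parameters are recovered from these formulas;
* `five_nsmul_of_param` : a nonsingular point given by these formulas is killed by `5`;
* `nonsingular_of_param` : the point given by these formulas is nonsingular;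
* `map_tateU`, `map_tateC` : the parameter functions commute with ring homomorphisms of fields.
-/

namespace Fermat.Agent.S52.FiveTate

open WeierstrassCurve WeierstrassCurve.Affine

variable {k : Type*} [Field k]

/-- The tangent slope at `(x, y)` on `y² = x³ + A x + B`. -/
noncomputable def lam (A x y : k) : k := (3 * x ^ 2 + A) / (2 * y)

/-- `x(2P) - x(P)` for `P = (x, y)` on `y² = x³ + A x + B`. -/
noncomputable def dd (A x y : k) : k := lam A x y ^ 2 - 3 * x

/-- The five-torsion relation. -/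
noncomputable def theta (A x y : k) : k :=
  dd A x y ^ 3 - 4 * lam A x y * y * dd A x y - 4 * y ^ 2

/-- The Tate scaling parameter `u` of a point of order five. -/
noncomputable def tateU (A x y : k) : k := -y / (3 * dd A x y)

/-- The Tate modular parameter `c` of a point of order five. -/
noncomputable def tateC (A x y : k) : k := dd A x y ^ 3 / (4 * y ^ 2)

/-- The Eisenstein-type form `c₄` of Tate's normal form for a point of order five. -/
def tq4 (c : k) : k := c ^ 4 - 12 * c ^ 3 + 14 * c ^ 2 + 12 * c + 1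

/-- The form `-c₆` of Tate's normal form for a point of order five. -/
def tq6 (c : k) : k := c ^ 6 - 18 * c ^ 5 + 75 * c ^ 4 + 75 * c ^ 2 + 18 * c + 1

section maps

variable {k' : Type*} [Field k'] (f : k →+* k')

theorem map_lam (A x y : k) : f (lam A x y) = lam (f A) (f x) (f y) := by
  simp [lam, map_div₀, map_ofNat]

theorem map_dd (A x y : k) : f (dd A x y) = dd (f A) (f x) (f y) := by
  simp [dd, map_lam, map_ofNat]

theorem map_theta (A x y : k) : f (theta A x y) = theta (f A) (f x) (f y) := by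
  simp [theta, map_lam, map_dd, map_ofNat]

theorem map_tateU (A x y : k) : f (tateU A x y) = tateU (f A) (f x) (f y) := by
  simp [tateU, map_dd, map_div₀, map_ofNat]

theorem map_tateC (A x y : k) : f (tateC A x y) = tateC (f A) (f x) (f y) := by
  simp [tateC, map_dd, map_div₀, map_ofNat]

theorem map_tq4 (c : k) : f (tq4 c) = tq4 (f c) := by
  simp [tq4, map_ofNat]

theorem map_tq6 (c : k) : f (tq6 c) = tq6 (f c) := by
  simp [tq6, map_ofNat]

end maps

section group

variable [DecidableEq k] {W : WeierstrassCurve.Affine k}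

omit [DecidableEq k] in
private theorem some_congr {x y x' y' : k} (h : W.Nonsingular x y) (hx : x = x') (hy : y = y') :
    ∃ h' : W.Nonsingular x' y', Point.some x y h = Point.some x' y' h' := by
  subst hx hy
  exact ⟨h, rfl⟩

/-- Duplication on a short Weierstrass curve. -/
theorem two_nsmul_some (h2 : (2 : k) ≠ 0) (ha₁ : W.a₁ = 0) (ha₂ : W.a₂ = 0) (ha₃ : W.a₃ = 0)
    {x y : k} (h : W.Nonsingular x y) (hy : y ≠ 0) :
    ∃ h' : W.Nonsingular (lam W.a₄ x y ^ 2 - 2 * x) (-(lam W.a₄ x y * dd W.a₄ x y + y)),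
      (2 : ℕ) • Point.some x y h = Point.some _ _ h' := by
  have hy' : y ≠ W.negY x y := by
    intro e
    simp only [negY, ha₁, ha₃] at e
    apply hy
    have : (2 : k) * y = 0 := by linear_combination e
    rcases mul_eq_zero.mp this with h | h
    · exact absurd h h2
    · exact h
  rw [two_nsmul, Point.add_self_of_Y_ne hy']
  have hsl : W.slope x x y y = lam W.a₄ x y := by
    rw [slope_of_Y_ne rfl hy']
    simp only [negY, ha₁, ha₂, ha₃, lam]
    congr 1 <;> ring
  apply some_congr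
  · rw [hsl]; simp only [addX, ha₁, ha₂]; ring
  · rw [hsl]; simp only [addY, negAddY, negY, addX, ha₁, ha₂, ha₃, dd]; ring

/-- Adding `P` to `2P` when `x(2P) ≠ x(P)`. -/
theorem add_some_of_ne (ha₁ : W.a₁ = 0) (ha₂ : W.a₂ = 0) (ha₃ : W.a₃ = 0)
    {x y x' y' : k} (h : W.Nonsingular x y) (h' : W.Nonsingular x' y') (hne : x' ≠ x) :
    ∃ h'' : W.Nonsingular (((y' - y) / (x' - x)) ^ 2 - x' - x)
        (-(((y' - y) / (x' - x)) * ((((y' - y) / (x' - x)) ^ 2 - x' - x) - x') + y')),
      Point.some x' y' h' + Point.some x y h = Point.some _ _ h'' := by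
  rw [Point.add_of_X_ne hne]
  have hsl : W.slope x' x y' y = (y' - y) / (x' - x) := slope_of_X_ne hne
  apply some_congr
  · rw [hsl]; simp only [addX, ha₁, ha₂]; ring
  · rw [hsl]; simp only [addY, negAddY, negY, addX, ha₁, ha₂, ha₃]; ring

omit [DecidableEq k] in
/-- The algebraic heart: `x(3P) = x(2P)` is the relation `theta = 0`. -/
private theorem x3_eq_x2_iff {A x y : k} (hd : dd A x y ≠ 0) :
    (((-(lam A x y * dd A x y + y) - y) / ((lam A x y ^ 2 - 2 * x) - x)) ^ 2
        - (lam A x y ^ 2 - 2 * x) - x = lam A x y ^ 2 - 2 * x) ↔ theta A x y = 0 := by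
  have hD : lam A x y ^ 2 - 2 * x - x = dd A x y := by simp only [dd]; ring
  rw [hD]
  have hx : x = (lam A x y ^ 2 - dd A x y) - 2 * x := by simp only [dd]; ring
  simp only [theta]
  generalize lam A x y = l at *
  generalize dd A x y = D at *
  constructor
  · intro e
    have e' : (-(l * D + y) - y) ^ 2 = (2 * (l ^ 2 - 2 * x) + x) * D ^ 2 := by
      field_simp at e
      linear_combination e
    linear_combination (-1 : k) * e' + D ^ 2 * hx
  · intro e
    field_simp
    linear_combination (-1 : k) * e + D ^ 2 * hx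

/-- **Characterisation of the points of order five** on a short Weierstrass curve. -/
theorem five_nsmul_eq_zero_iff (h2 : (2 : k) ≠ 0) (ha₁ : W.a₁ = 0) (ha₂ : W.a₂ = 0)
    (ha₃ : W.a₃ = 0) {x y : k} (h : W.Nonsingular x y) :
    (5 : ℕ) • Point.some x y h = 0 ↔
      y ≠ 0 ∧ dd W.a₄ x y ≠ 0 ∧ theta W.a₄ x y = 0 := by
  have hP0 : Point.some x y h ≠ 0 := Point.some_ne_zero h
  constructor
  · intro h5
    have hy : y ≠ 0 := by
      intro hy0
      have hneg : y = W.negY x y := by simp [negY, ha₁, ha₃, hy0]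
      have h2P : (2 : ℕ) • Point.some x y h = 0 := by
        rw [two_nsmul]; exact Point.add_self_of_Y_eq hneg
      apply hP0
      have : (5 : ℕ) • Point.some x y h
          = (2 : ℕ) • ((2 : ℕ) • Point.some x y h) + Point.some x y h := by
        rw [← mul_nsmul, ← succ_nsmul]
      rw [this, h2P, nsmul_zero, zero_add] at h5
      exact h5
    obtain ⟨h', e2⟩ := two_nsmul_some h2 ha₁ ha₂ ha₃ h hy
    have hd : dd W.a₄ x y ≠ 0 := by
      intro hd0
      have hxx : lam W.a₄ x y ^ 2 - 2 * x = x := by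
        have : lam W.a₄ x y ^ 2 - 2 * x - x = dd W.a₄ x y := by simp only [dd]; ring
        linear_combination this + hd0
      rcases (Point.X_eq_iff (h₁ := h') (h₂ := h)).mp hxx with e | e
      · -- 2P = P
        apply hP0
        rw [← e2] at e
        have : (2 : ℕ) • Point.some x y h = Point.some x y h + Point.some x y h := two_nsmul _
        rw [this] at e
        exact add_eq_right.mp e
      · -- 2P = -P
        apply hP0
        rw [← e2] at e
        have h3 : (3 : ℕ) • Point.some x y h = 0 := by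
          have : (3 : ℕ) • Point.some x y h
              = (2 : ℕ) • Point.some x y h + Point.some x y h := succ_nsmul _ 2
          rw [this, e, neg_add_cancel]
        have h2' : (2 : ℕ) • Point.some x y h = 0 := by
          have : (5 : ℕ) • Point.some x y h
              = (3 : ℕ) • Point.some x y h + (2 : ℕ) • Point.some x y h := add_nsmul _ 3 2
          rw [this, h3, zero_add] at h5
          exact h5
        rw [h2', eq_comm, neg_eq_zero] at e
        exact e
    refine ⟨hy, hd, ?_⟩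
    have hne : lam W.a₄ x y ^ 2 - 2 * x ≠ x := by
      intro hxx
      apply hd
      simp only [dd]
      linear_combination hxx
    obtain ⟨h'', e3⟩ := add_some_of_ne ha₁ ha₂ ha₃ h h' hne
    have h32 : Point.some _ _ h'' = -Point.some _ _ h' := by
      rw [← e3, ← e2]
      have : (5 : ℕ) • Point.some x y h
          = ((2 : ℕ) • Point.some x y h + Point.some x y h) + (2 : ℕ) • Point.some x y h := by
        rw [← succ_nsmul, ← add_nsmul]
      rw [this] at h5
      exact eq_neg_of_add_eq_zero_left h5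
    have hX := (Point.X_eq_iff (h₁ := h'') (h₂ := h')).mpr (Or.inr h32)
    exact (x3_eq_x2_iff hd).mp hX
  · rintro ⟨hy, hd, hth⟩
    obtain ⟨h', e2⟩ := two_nsmul_some h2 ha₁ ha₂ ha₃ h hy
    have hne : lam W.a₄ x y ^ 2 - 2 * x ≠ x := by
      intro hxx
      apply hd
      simp only [dd]
      linear_combination hxx
    obtain ⟨h'', e3⟩ := add_some_of_ne ha₁ ha₂ ha₃ h h' hne
    have hX := (x3_eq_x2_iff hd).mpr hth
    have h5 : (5 : ℕ) • Point.some x y h
        = ((2 : ℕ) • Point.some x y h + Point.some x y h) + (2 : ℕ) • Point.some x y h := by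
      rw [← succ_nsmul, ← add_nsmul]
    rcases (Point.X_eq_iff (h₁ := h'') (h₂ := h')).mp hX with e | e
    · -- 3P = 2P, impossible
      exfalso
      apply hP0
      rw [← e3, ← e2] at e
      exact add_eq_left.mp e
    · rw [h5, e2, e3, e, neg_add_cancel]

end group

section algebra

/-- The parameter formulas follow from the five-torsion relation. -/
theorem param_of_theta (h2 : (2 : k) ≠ 0) (h3 : (3 : k) ≠ 0) {A B x y : k}
    (heq : y ^ 2 = x ^ 3 + A * x + B) (hy : y ≠ 0) (hd : dd A x y ≠ 0)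
    (hth : theta A x y = 0) :
    tateU A x y ≠ 0 ∧ tateC A x y ≠ 0 ∧
      x = 3 * tateU A x y ^ 2 * (tateC A x y ^ 2 - 6 * tateC A x y + 1) ∧
      y = -108 * tateU A x y ^ 3 * tateC A x y ∧
      A = -27 * tateU A x y ^ 4 * tq4 (tateC A x y) ∧
      B = 54 * tateU A x y ^ 6 * tq6 (tateC A x y) ∧
      lam A x y = 3 * tateU A x y * (1 - tateC A x y) ∧
      dd A x y = 36 * tateU A x y ^ 2 * tateC A x y := by
  have h4 : (4 : k) ≠ 0 := by
    have : (4 : k) = 2 * 2 := by norm_num
    rw [this]; exact mul_ne_zero h2 h2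
  have hlam : lam A x y * (2 * y) = 3 * x ^ 2 + A := by
    simp only [lam]; field_simp
  have hdd : dd A x y = lam A x y ^ 2 - 3 * x := rfl
  have hu : tateU A x y = -y / (3 * dd A x y) := rfl
  have hc : tateC A x y = dd A x y ^ 3 / (4 * y ^ 2) := rfl
  simp only [theta] at hth
  generalize lam A x y = l at *
  generalize dd A x y = D at *
  generalize tateU A x y = u at *
  generalize tateC A x y = c at *
  have hu0 : u ≠ 0 := by
    rw [hu]; exact div_ne_zero (neg_ne_zero.mpr hy) (mul_ne_zero h3 hd)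
  have hc0 : c ≠ 0 := by
    rw [hc]; exact div_ne_zero (pow_ne_zero 3 hd) (mul_ne_zero h4 (pow_ne_zero 2 hy))
  have hyf : y = -108 * u ^ 3 * c := by
    rw [hu, hc]; field_simp; ring
  have hDf : D = 36 * u ^ 2 * c := by
    rw [hu, hc]; field_simp; ring
  have hlf : l = 3 * u * (1 - c) := by
    rw [hu, hc]; field_simp
    linear_combination (-1 : k) * hth
  have hxf : x = 3 * u ^ 2 * (c ^ 2 - 6 * c + 1) := by
    have : (3 : k) * (x - 3 * u ^ 2 * (c ^ 2 - 6 * c + 1)) = 0 := by
      rw [hlf, hDf] at hdd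
      linear_combination hdd
    rcases mul_eq_zero.mp this with h | h
    · exact absurd h h3
    · exact sub_eq_zero.mp h
  have hAf : A = -27 * u ^ 4 * tq4 c := by
    have : A = l * (2 * y) - 3 * x ^ 2 := by linear_combination (-1 : k) * hlam
    rw [this, hlf, hyf, hxf]; simp only [tq4]; ring
  have hBf : B = 54 * u ^ 6 * tq6 c := by
    have : B = y ^ 2 - x ^ 3 - A * x := by linear_combination (-1 : k) * heq
    rw [this, hAf, hyf, hxf]; simp only [tq4, tq6]; ring
  exact ⟨hu0, hc0, hxf, hyf, hAf, hBf, hlf, hDf⟩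

/-- Conversely, the slope, `dd`, `theta` and the parameters of a point in Tate form. -/
theorem lam_of_param (h2 : (2 : k) ≠ 0) (h3 : (3 : k) ≠ 0) {u c : k} (hu : u ≠ 0) (hc : c ≠ 0) :
    lam (-27 * u ^ 4 * tq4 c) (3 * u ^ 2 * (c ^ 2 - 6 * c + 1)) (-108 * u ^ 3 * c)
      = 3 * u * (1 - c) := by
  simp only [lam, tq4]
  have h108 : (108 : k) ≠ 0 := by
    have : (108 : k) = 2 * 2 * 3 * 3 * 3 := by norm_num
    rw [this]; simp [h2, h3]
  rw [div_eq_iff (by simp [h2, hu, hc, h108])]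
  ring

theorem dd_of_param (h2 : (2 : k) ≠ 0) (h3 : (3 : k) ≠ 0) {u c : k} (hu : u ≠ 0) (hc : c ≠ 0) :
    dd (-27 * u ^ 4 * tq4 c) (3 * u ^ 2 * (c ^ 2 - 6 * c + 1)) (-108 * u ^ 3 * c)
      = 36 * u ^ 2 * c := by
  simp only [dd, lam_of_param h2 h3 hu hc]
  ring

theorem theta_of_param (h2 : (2 : k) ≠ 0) (h3 : (3 : k) ≠ 0) {u c : k} (hu : u ≠ 0)
    (hc : c ≠ 0) :
    theta (-27 * u ^ 4 * tq4 c) (3 * u ^ 2 * (c ^ 2 - 6 * c + 1)) (-108 * u ^ 3 * c) = 0 := by
  simp only [theta, dd_of_param h2 h3 hu hc, lam_of_param h2 h3 hu hc]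
  ring

theorem tateU_of_param (h2 : (2 : k) ≠ 0) (h3 : (3 : k) ≠ 0) {u c : k} (hu : u ≠ 0)
    (hc : c ≠ 0) :
    tateU (-27 * u ^ 4 * tq4 c) (3 * u ^ 2 * (c ^ 2 - 6 * c + 1)) (-108 * u ^ 3 * c) = u := by
  simp only [tateU, dd_of_param h2 h3 hu hc]
  have h36 : (36 : k) ≠ 0 := by
    have : (36 : k) = 2 * 2 * 3 * 3 := by norm_num
    rw [this]; simp [h2, h3]
  rw [div_eq_iff (by simp [h3, hu, hc, h36])]
  ring

theorem tateC_of_param (h2 : (2 : k) ≠ 0) (h3 : (3 : k) ≠ 0) {u c : k} (hu : u ≠ 0)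
    (hc : c ≠ 0) :
    tateC (-27 * u ^ 4 * tq4 c) (3 * u ^ 2 * (c ^ 2 - 6 * c + 1)) (-108 * u ^ 3 * c) = c := by
  simp only [tateC, dd_of_param h2 h3 hu hc]
  have h108 : (108 : k) ≠ 0 := by
    have : (108 : k) = 2 * 2 * 3 * 3 * 3 := by norm_num
    rw [this]; simp [h2, h3]
  have h4 : (4 : k) ≠ 0 := by
    have : (4 : k) = 2 * 2 := by norm_num
    rw [this]; exact mul_ne_zero h2 h2
  rw [div_eq_iff (by simp [h4, hu, hc, h108])]
  ring

end algebra

section main

variable [DecidableEq k] {W : WeierstrassCurve.Affine k}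

/-- **Tate parameters of a point of order five.** -/
theorem tate_param (h2 : (2 : k) ≠ 0) (h3 : (3 : k) ≠ 0) (ha₁ : W.a₁ = 0) (ha₂ : W.a₂ = 0)
    (ha₃ : W.a₃ = 0) {x y : k} (h : W.Nonsingular x y) (h5 : (5 : ℕ) • Point.some x y h = 0) :
    tateU W.a₄ x y ≠ 0 ∧ tateC W.a₄ x y ≠ 0 ∧
      x = 3 * tateU W.a₄ x y ^ 2 * (tateC W.a₄ x y ^ 2 - 6 * tateC W.a₄ x y + 1) ∧
      y = -108 * tateU W.a₄ x y ^ 3 * tateC W.a₄ x y ∧
      W.a₄ = -27 * tateU W.a₄ x y ^ 4 * tq4 (tateC W.a₄ x y) ∧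
      W.a₆ = 54 * tateU W.a₄ x y ^ 6 * tq6 (tateC W.a₄ x y) ∧
      lam W.a₄ x y = 3 * tateU W.a₄ x y * (1 - tateC W.a₄ x y) ∧
      dd W.a₄ x y = 36 * tateU W.a₄ x y ^ 2 * tateC W.a₄ x y := by
  obtain ⟨hy, hd, hth⟩ := (five_nsmul_eq_zero_iff h2 ha₁ ha₂ ha₃ h).mp h5
  have heq : y ^ 2 = x ^ 3 + W.a₄ * x + W.a₆ := by
    have := (equation_iff x y).mp h.1
    rw [ha₁, ha₂, ha₃] at this
    linear_combination this
  exact param_of_theta h2 h3 heq hy hd hth

omit [DecidableEq k] in
/-- A point in Tate form lies on the curve and is nonsingular. -/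
theorem nonsingular_of_param (h2 : (2 : k) ≠ 0) (h3 : (3 : k) ≠ 0) (ha₁ : W.a₁ = 0)
    (ha₂ : W.a₂ = 0) (ha₃ : W.a₃ = 0) {u c : k} (hu : u ≠ 0) (hc : c ≠ 0)
    (ha₄ : W.a₄ = -27 * u ^ 4 * tq4 c) (ha₆ : W.a₆ = 54 * u ^ 6 * tq6 c) :
    W.Nonsingular (3 * u ^ 2 * (c ^ 2 - 6 * c + 1)) (-108 * u ^ 3 * c) := by
  have h108 : (108 : k) ≠ 0 := by
    have : (108 : k) = 2 * 2 * 3 * 3 * 3 := by norm_num
    rw [this]; simp [h2, h3]
  rw [nonsingular_iff]
  refine ⟨?_, Or.inr ?_⟩
  · rw [equation_iff, ha₁, ha₂, ha₃, ha₄, ha₆]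
    simp only [tq4, tq6]
    ring
  · rw [ha₁, ha₃]
    intro e
    have : (2 : k) * (-108 * u ^ 3 * c) = 0 := by linear_combination e
    simp [h2, hu, hc, h108] at this

/-- A nonsingular point in Tate form is killed by five. -/
theorem five_nsmul_of_param (h2 : (2 : k) ≠ 0) (h3 : (3 : k) ≠ 0) (ha₁ : W.a₁ = 0)
    (ha₂ : W.a₂ = 0) (ha₃ : W.a₃ = 0) {u c : k} (hu : u ≠ 0) (hc : c ≠ 0)
    (ha₄ : W.a₄ = -27 * u ^ 4 * tq4 c)
    (h : W.Nonsingular (3 * u ^ 2 * (c ^ 2 - 6 * c + 1)) (-108 * u ^ 3 * c)) :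
    (5 : ℕ) • Point.some _ _ h = 0 := by
  have h108 : (108 : k) ≠ 0 := by
    have : (108 : k) = 2 * 2 * 3 * 3 * 3 := by norm_num
    rw [this]; simp [h2, h3]
  have h36 : (36 : k) ≠ 0 := by
    have : (36 : k) = 2 * 2 * 3 * 3 := by norm_num
    rw [this]; simp [h2, h3]
  rw [five_nsmul_eq_zero_iff h2 ha₁ ha₂ ha₃ h, ha₄]
  refine ⟨by simp [hu, hc, h108], ?_, theta_of_param h2 h3 hu hc⟩
  rw [dd_of_param h2 h3 hu hc]
  simp [hu, hc, h36]

end main

end Fermat.Agent.S52.FiveTate
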