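import Fermat.Agent.S52.Five.Plan
import Fermat.Agent.S52.Five.TateParam
import Fermat.Agent.S52.Five.TateSection
import Fermat.Agent.S52.Five.SectionAdd

/-!
# S52 [FIVE]: the glue (everything of the package except leaf [F3])

Given a *natural family* of polynomial maps `F4, F6` (the `c`-invariants of the family) and
`tN, tM` (its Tate presentation) satisfying weighted homogeneity, the [STAR] identities and the
normalisations at `s = 0`, and given leaf [F3] (`Five.SectionAddStmt`) as a hypothesis, we construct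
for two short Weierstrass curves `E0`, `E0'` over a field `F` whose coefficients are
`(-27 c₄, -54 c₆)` and `(-27 F4(c₄,c₆,s), -54 F6(c₄,c₆,s))` an injective additive map
`E0[5](k) → E0'[5](k)` (`k ⊇ F` algebraically closed, `30 ≠ 0`) which commutes with every
`F`-algebra endomorphism of `k` acting on points — in particular with Frobenius.
-/

set_option autoImplicit false

open Polynomial WeierstrassCurve WeierstrassCurve.Affine

namespace Fermat.Agent.S52.FiveGlue

open Fermat.Agent.S52.Five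

/-! ### The explicit forms under ring homomorphisms -/

section forms

variable {R S : Type*} [CommRing R] [CommRing S] (φ : R →+* S)

theorem map_t4 (n m : R) : φ (t4 n m) = t4 (φ n) (φ m) := by
  simp [t4, map_ofNat]

theorem map_t6 (n m : R) : φ (t6 n m) = t6 (φ n) (φ m) := by
  simp [t6, map_ofNat]

theorem map_secX (u n m : R) : φ (secX u n m) = secX (φ u) (φ n) (φ m) := by
  simp [secX, map_ofNat]

theorem map_secY (u n m : R) : φ (secY u n m) = secY (φ u) (φ n) (φ m) := by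
  simp [secY, map_ofNat]

/-- The Tate section lies on the Tate curve (identity in any commutative ring). -/
theorem sec_on_curve (u n m : R) :
    secY u n m ^ 2 = secX u n m ^ 3 + (-27 * (u ^ 4 * t4 n m)) * secX u n m
      + (-54 * (u ^ 6 * t6 n m)) := by
  simp only [secX, secY, t4, t6]
  ring

theorem secX_neg (u n m : R) : secX (-u) n m = secX u n m := by
  simp only [secX]; ring

theorem secY_neg (u n m : R) : secY (-u) n m = -secY u n m := by
  simp only [secY]; ring

end forms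

/-! ### The parameter functions under field homomorphisms and negation -/

section par

variable {k k' : Type*} [Field k] [Field k'] (f : k →+* k')

theorem map_a1Par (c4 x y : k) : f (a1Par c4 x y) = a1Par (f c4) (f x) (f y) := by
  simp [a1Par, map_div₀, map_ofNat]

theorem map_a3Par (y : k) : f (a3Par y) = a3Par (f y) := by
  simp [a3Par, map_div₀, map_ofNat]

theorem map_a2Par (c4 x y : k) : f (a2Par c4 x y) = a2Par (f c4) (f x) (f y) := by
  simp [a2Par, map_a1Par, map_div₀, map_ofNat]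

theorem map_uPar (c4 x y : k) : f (uPar c4 x y) = uPar (f c4) (f x) (f y) := by
  simp [uPar, map_a2Par, map_a3Par, map_div₀]

theorem map_cPar (c4 x y : k) : f (cPar c4 x y) = cPar (f c4) (f x) (f y) := by
  simp [cPar, map_a1Par, map_a2Par, map_a3Par, map_div₀]

theorem a1Par_neg (c4 x y : k) : a1Par c4 x (-y) = -a1Par c4 x y := by
  simp [a1Par, div_neg]

theorem a3Par_neg (y : k) : a3Par (-y) = -a3Par y := by
  simp [a3Par, neg_div]

theorem a2Par_neg (c4 x y : k) : a2Par c4 x (-y) = a2Par c4 x y := by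
  simp [a2Par, a1Par_neg]

theorem uPar_neg (c4 x y : k) : uPar c4 x (-y) = -uPar c4 x y := by
  simp [uPar, a2Par_neg, a3Par_neg, neg_div]

theorem cPar_neg (c4 x y : k) : cPar c4 x (-y) = cPar c4 x y := by
  simp [cPar, a1Par_neg, a2Par_neg, a3Par_neg, neg_div_neg_eq]

end par

/-! ### Transfer lemmas between `sw a b` and arbitrary short curves -/

section transfer

variable {k : Type} [Field k]

theorem some_eq_of_eq {W : Affine k} {x y x' y' : k} (h : W.Nonsingular x y)
    (h' : W.Nonsingular x' y') (hx : x' = x) (hy : y' = y) :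
    Point.some x' y' h' = Point.some x y h := by
  subst hx hy
  rfl

variable [DecidableEq k]

/-- [F1] for an arbitrary short Weierstrass curve. -/
theorem tate_param_short (h2 : (2 : k) ≠ 0) (h3 : (3 : k) ≠ 0) (W : Affine k)
    (hW1 : W.a₁ = 0) (hW2 : W.a₂ = 0) (hW3 : W.a₃ = 0) (c4 c6 : k) (hW4 : W.a₄ = -27 * c4)
    (hW6 : W.a₆ = -54 * c6) (x y : k) (h : W.Nonsingular x y)
    (h5 : (5 : ℤ) • (Point.some x y h : W.Point) = 0) :
    uPar c4 x y ≠ 0 ∧
      c4 = uPar c4 x y ^ 4 * t4 (cPar c4 x y) 1 ∧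
      c6 = uPar c4 x y ^ 6 * t6 (cPar c4 x y) 1 ∧
      x = secX (uPar c4 x y) (cPar c4 x y) 1 ∧
      y = secY (uPar c4 x y) (cPar c4 x y) 1 := by
  obtain ⟨a1, a2, a3, a4, a6⟩ := W
  simp only at hW1 hW2 hW3 hW4 hW6
  subst hW1 hW2 hW3 hW4 hW6
  exact tateParamStmt k h2 h3 c4 c6 x y h h5

/-- [F2] with propositional equalities for the coefficients and coordinates. -/
theorem five_transfer (h2 : (2 : k) ≠ 0) (h3 : (3 : k) ≠ 0) {A B x y : k} (u n m : k)
    (hA : A = -27 * (u ^ 4 * t4 n m)) (hB : B = -54 * (u ^ 6 * t6 n m))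
    (hx : x = secX u n m) (hy : y = secY u n m) (hΔ : (sw A B).Δ ≠ 0)
    (h : (sw A B).Nonsingular x y) :
    (5 : ℤ) • (Point.some x y h : (sw A B).Point) = 0 := by
  subst hA hB hx hy
  obtain ⟨h', e⟩ := tateSectionStmt k h2 h3 u n m hΔ
  exact e

/-- [F3] for arbitrary short Weierstrass curves `W`, `W'` as the fibres at `0` and `s`. -/
theorem sectionAdd_short (hF3 : SectionAddStmt) [IsAlgClosed k]
    (h2 : (2 : k) ≠ 0) (h3 : (3 : k) ≠ 0) (h5 : (5 : k) ≠ 0) (a b : k[X])
    (W : Affine k) (hW1 : W.a₁ = 0) (hW2 : W.a₂ = 0) (hW3 : W.a₃ = 0)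
    (hW4 : W.a₄ = a.eval 0) (hW6 : W.a₆ = b.eval 0) (hΔ : W.Δ ≠ 0)
    (SX SY : W.Point → k[X])
    (H1 : ∀ P : W.Point, (5 : ℤ) • P = 0 → P ≠ 0 → SY P ^ 2 = SX P ^ 3 + a * SX P + b)
    (H2 : ∀ P : W.Point, (5 : ℤ) • P = 0 → P ≠ 0 → ∀ τ : k,
      (sw (a.eval τ) (b.eval τ)).Δ ≠ 0 →
      ∀ h : (sw (a.eval τ) (b.eval τ)).Nonsingular ((SX P).eval τ) ((SY P).eval τ),
        (5 : ℤ) • (Point.some _ _ h : (sw (a.eval τ) (b.eval τ)).Point) = 0)
    (H3 : ∀ P : W.Point, (5 : ℤ) • P = 0 → P ≠ 0 →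
      ∀ h : W.Nonsingular ((SX P).eval 0) ((SY P).eval 0), Point.some _ _ h = P)
    (H4 : ∀ P : W.Point, (5 : ℤ) • P = 0 → P ≠ 0 → SX (-P) = SX P ∧ SY (-P) = -SY P)
    (s : k) (W' : Affine k) (hW1' : W'.a₁ = 0) (hW2' : W'.a₂ = 0) (hW3' : W'.a₃ = 0)
    (hW4' : W'.a₄ = a.eval s) (hW6' : W'.a₆ = b.eval s) (hΔ' : W'.Δ ≠ 0) :
    ∃ ι : Submodule.torsionBy ℤ W.Point 5 →+ Submodule.torsionBy ℤ W'.Point 5,
      Function.Injective ι ∧
      ∀ P : Submodule.torsionBy ℤ W.Point 5, (P : W.Point) ≠ 0 →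
        ∃ h : W'.Nonsingular ((SX P).eval s) ((SY P).eval s),
          ((ι P : Submodule.torsionBy ℤ W'.Point 5) : W'.Point) = Point.some _ _ h := by
  obtain ⟨a1, a2, a3, a4, a6⟩ := W
  obtain ⟨a1', a2', a3', a4', a6'⟩ := W'
  simp only at hW1 hW2 hW3 hW4 hW6 hW1' hW2' hW3' hW4' hW6'
  subst hW1 hW2 hW3 hW4 hW6 hW1' hW2' hW3' hW4' hW6'
  exact hF3 k h2 h3 h5 a b _ _ rfl rfl hΔ SX SY H1 H2 H3 H4 s _ _ rfl rfl hΔ'

end transfer

/-! ### The polynomial sections -/

section sections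

variable (tN tM : ∀ (R : Type) [CommRing R], R → R → R)
variable {k : Type} [Field k]

/-- `N_P(T) = tN(c, u² T)`. -/
noncomputable def nPoly (u c : k) : k[X] := tN k[X] (C c) (C u ^ 2 * X)

/-- `M_P(T) = tM(c, u² T)`. -/
noncomputable def mPoly (u c : k) : k[X] := tM k[X] (C c) (C u ^ 2 * X)

/-- abscissa of the section with Tate parameters `(u, c)` at `s = 0`. -/
noncomputable def sxPoly (u c : k) : k[X] := secX (C u) (nPoly tN u c) (mPoly tM u c)

/-- ordinate of the section with Tate parameters `(u, c)` at `s = 0`. -/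
noncomputable def syPoly (u c : k) : k[X] := secY (C u) (nPoly tN u c) (mPoly tM u c)

/-- abscissa of the section through a point. -/
noncomputable def SX (c4 : k) {W : Affine k} : W.Point → k[X]
  | .zero => 0
  | .some x y _ => sxPoly tN tM (uPar c4 x y) (cPar c4 x y)

/-- ordinate of the section through a point. -/
noncomputable def SY (c4 : k) {W : Affine k} : W.Point → k[X]
  | .zero => 0
  | .some x y _ => syPoly tN tM (uPar c4 x y) (cPar c4 x y)

variable {tN tM}
variable (natN : ∀ (R S : Type) [CommRing R] [CommRing S] (φ : R →+* S) (c s : R),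
    φ (tN R c s) = tN S (φ c) (φ s))
variable (natM : ∀ (R S : Type) [CommRing R] [CommRing S] (φ : R →+* S) (c s : R),
    φ (tM R c s) = tM S (φ c) (φ s))

include natN in
theorem eval_nPoly (u c τ : k) : (nPoly tN u c).eval τ = tN k c (u ^ 2 * τ) := by
  have := natN k[X] k (evalRingHom τ) (C c) (C u ^ 2 * X)
  simpa [nPoly] using this

include natM in
theorem eval_mPoly (u c τ : k) : (mPoly tM u c).eval τ = tM k c (u ^ 2 * τ) := by
  have := natM k[X] k (evalRingHom τ) (C c) (C u ^ 2 * X)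
  simpa [mPoly] using this

include natN natM in
theorem eval_sxPoly (u c τ : k) :
    (sxPoly tN tM u c).eval τ = secX u (tN k c (u ^ 2 * τ)) (tM k c (u ^ 2 * τ)) := by
  have := map_secX (evalRingHom τ) (C u) (nPoly tN u c) (mPoly tM u c)
  simp only [coe_evalRingHom, eval_C] at this
  rw [sxPoly, this, eval_nPoly natN, eval_mPoly natM]

include natN natM in
theorem eval_syPoly (u c τ : k) :
    (syPoly tN tM u c).eval τ = secY u (tN k c (u ^ 2 * τ)) (tM k c (u ^ 2 * τ)) := by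
  have := map_secY (evalRingHom τ) (C u) (nPoly tN u c) (mPoly tM u c)
  simp only [coe_evalRingHom, eval_C] at this
  rw [syPoly, this, eval_nPoly natN, eval_mPoly natM]

theorem nPoly_neg (u c : k) : nPoly tN (-u) c = nPoly tN u c := by
  simp [nPoly]

theorem mPoly_neg (u c : k) : mPoly tM (-u) c = mPoly tM u c := by
  simp [mPoly]

theorem sxPoly_neg (u c : k) : sxPoly tN tM (-u) c = sxPoly tN tM u c := by
  simp only [sxPoly, nPoly_neg, mPoly_neg, map_neg, secX_neg]

theorem syPoly_neg (u c : k) : syPoly tN tM (-u) c = -syPoly tN tM u c := by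
  simp only [syPoly, nPoly_neg, mPoly_neg, map_neg, secY_neg]

end sections

/-! ### The main construction -/

section main

/-- The hypotheses on the family data `F4, F6` (the `c`-invariants of the family as natural
polynomial maps in `(c₄, c₆, s)`) and `tN, tM` (the Tate presentation, natural polynomial maps in
`(c, s)`): naturality, weighted homogeneity, the [STAR] identities and the values at `s = 0`. -/
structure FamilyData (F4 F6 : ∀ (R : Type) [CommRing R], R → R → R → R)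
    (tN tM : ∀ (R : Type) [CommRing R], R → R → R) : Prop where
  nat4 : ∀ (R S : Type) [CommRing R] [CommRing S] (φ : R →+* S) (a b s : R),
    φ (F4 R a b s) = F4 S (φ a) (φ b) (φ s)
  nat6 : ∀ (R S : Type) [CommRing R] [CommRing S] (φ : R →+* S) (a b s : R),
    φ (F6 R a b s) = F6 S (φ a) (φ b) (φ s)
  natN : ∀ (R S : Type) [CommRing R] [CommRing S] (φ : R →+* S) (c s : R),
    φ (tN R c s) = tN S (φ c) (φ s)
  natM : ∀ (R S : Type) [CommRing R] [CommRing S] (φ : R →+* S) (c s : R),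
    φ (tM R c s) = tM S (φ c) (φ s)
  hom4 : ∀ (R : Type) [CommRing R] (u a b s : R),
    F4 R (u ^ 4 * a) (u ^ 6 * b) s = u ^ 4 * F4 R a b (u ^ 2 * s)
  hom6 : ∀ (R : Type) [CommRing R] (u a b s : R),
    F6 R (u ^ 4 * a) (u ^ 6 * b) s = u ^ 6 * F6 R a b (u ^ 2 * s)
  star4 : ∀ (R : Type) [CommRing R] (c s : R),
    F4 R (t4 c 1) (t6 c 1) s = t4 (tN R c s) (tM R c s)
  star6 : ∀ (R : Type) [CommRing R] (c s : R),
    F6 R (t4 c 1) (t6 c 1) s = t6 (tN R c s) (tM R c s)
  zero4 : ∀ (R : Type) [CommRing R] (a b : R), F4 R a b 0 = a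
  zero6 : ∀ (R : Type) [CommRing R] (a b : R), F6 R a b 0 = b
  N0 : ∀ (R : Type) [CommRing R] (c : R), tN R c 0 = c
  M0 : ∀ (R : Type) [CommRing R] (c : R), tM R c 0 = 1

variable {F4 F6 : ∀ (R : Type) [CommRing R], R → R → R → R}
variable {tN tM : ∀ (R : Type) [CommRing R], R → R → R}

/-- The family member over a Tate curve with parameters `(u, c)` is the Tate curve with
parameters `(u, tN/tM)`: the `c₄` side. -/
theorem FamilyData.F4_param (hD : FamilyData F4 F6 tN tM) (R : Type) [CommRing R] (u c τ : R) :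
    F4 R (u ^ 4 * t4 c 1) (u ^ 6 * t6 c 1) τ
      = u ^ 4 * t4 (tN R c (u ^ 2 * τ)) (tM R c (u ^ 2 * τ)) := by
  rw [hD.hom4, hD.star4]

/-- The `c₆` side. -/
theorem FamilyData.F6_param (hD : FamilyData F4 F6 tN tM) (R : Type) [CommRing R] (u c τ : R) :
    F6 R (u ^ 4 * t4 c 1) (u ^ 6 * t6 c 1) τ
      = u ^ 6 * t6 (tN R c (u ^ 2 * τ)) (tM R c (u ^ 2 * τ)) := by
  rw [hD.hom6, hD.star6]

variable {k : Type} [Field k]

/-- The polynomial section lies on the family (identity in `k[T]`). -/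
theorem FamilyData.on_curve_poly (hD : FamilyData F4 F6 tN tM) (u c : k) :
    syPoly tN tM u c ^ 2 = sxPoly tN tM u c ^ 3
      + (-27 * F4 k[X] (C (u ^ 4 * t4 c 1)) (C (u ^ 6 * t6 c 1)) X) * sxPoly tN tM u c
      + (-54 * F6 k[X] (C (u ^ 4 * t4 c 1)) (C (u ^ 6 * t6 c 1)) X) := by
  have e1 : (C (u ^ 4 * t4 c 1) : k[X]) = C u ^ 4 * t4 (C c) 1 := by
    rw [C_mul, C_pow, map_t4 (C : k →+* k[X]), C_1]
  have e2 : (C (u ^ 6 * t6 c 1) : k[X]) = C u ^ 6 * t6 (C c) 1 := by
    rw [C_mul, C_pow, map_t6 (C : k →+* k[X]), C_1]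
  rw [e1, e2, hD.F4_param, hD.F6_param]
  exact sec_on_curve (C u) (nPoly tN u c) (mPoly tM u c)

/-- **[FIVE] in hypothesis form.** For a family with a Tate presentation (`FamilyData`) and
leaf [F3], the 5-torsion of `E0 : y² = x³ - 27c₄x - 54c₆` maps injectively and additively to the
5-torsion of the family member `E0' : y² = x³ - 27 F4(c₄,c₆,s) x - 54 F6(c₄,c₆,s)`, compatibly with
every `F`-algebra endomorphism of the algebraically closed field `k ⊇ F` (`30 ≠ 0` in `k`). -/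
theorem exists_five_map (hF3 : SectionAddStmt) (hD : FamilyData F4 F6 tN tM)
    {F : Type} [Field F] [Algebra F k] [IsAlgClosed k] [DecidableEq k]
    (h2 : (2 : k) ≠ 0) (h3 : (3 : k) ≠ 0) (h5 : (5 : k) ≠ 0)
    (E0 E0' : WeierstrassCurve F)
    (hE1 : E0.a₁ = 0) (hE2 : E0.a₂ = 0) (hE3 : E0.a₃ = 0)
    (hE1' : E0'.a₁ = 0) (hE2' : E0'.a₂ = 0) (hE3' : E0'.a₃ = 0)
    (c4 c6 s : F) (hE4 : E0.a₄ = -27 * c4) (hE6 : E0.a₆ = -54 * c6)
    (hE4' : E0'.a₄ = -27 * F4 F c4 c6 s) (hE6' : E0'.a₆ = -54 * F6 F c4 c6 s)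
    (hΔ : E0.Δ ≠ 0) (hΔ' : E0'.Δ ≠ 0) :
    ∃ ι : Submodule.torsionBy ℤ (E0.toAffine⁄k).Point 5 →+
        Submodule.torsionBy ℤ (E0'.toAffine⁄k).Point 5,
      Function.Injective ι ∧
      ∀ (f : k →ₐ[F] k) (P Q : Submodule.torsionBy ℤ (E0.toAffine⁄k).Point 5),
        (Q : (E0.toAffine⁄k).Point) = Point.map (W' := E0.toAffine) f (P : (E0.toAffine⁄k).Point) →
        ((ι Q : Submodule.torsionBy ℤ (E0'.toAffine⁄k).Point 5) : (E0'.toAffine⁄k).Point)
          = Point.map (W' := E0'.toAffine) f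
              ((ι P : Submodule.torsionBy ℤ (E0'.toAffine⁄k).Point 5) : (E0'.toAffine⁄k).Point) := by
  have hinj : Function.Injective (algebraMap F k) := (algebraMap F k).injective
  have hW1 : (E0.toAffine⁄k).a₁ = 0 := by
    show algebraMap F k E0.a₁ = 0
    rw [hE1, map_zero]
  have hW2 : (E0.toAffine⁄k).a₂ = 0 := by
    show algebraMap F k E0.a₂ = 0
    rw [hE2, map_zero]
  have hW3 : (E0.toAffine⁄k).a₃ = 0 := by
    show algebraMap F k E0.a₃ = 0
    rw [hE3, map_zero]
  have hW1' : (E0'.toAffine⁄k).a₁ = 0 := by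
    show algebraMap F k E0'.a₁ = 0
    rw [hE1', map_zero]
  have hW2' : (E0'.toAffine⁄k).a₂ = 0 := by
    show algebraMap F k E0'.a₂ = 0
    rw [hE2', map_zero]
  have hW3' : (E0'.toAffine⁄k).a₃ = 0 := by
    show algebraMap F k E0'.a₃ = 0
    rw [hE3', map_zero]
  have hW4 : (E0.toAffine⁄k).a₄ = -27 * algebraMap F k c4 := by
    show algebraMap F k E0.a₄ = _
    rw [hE4, map_mul, map_neg, map_ofNat]
  have hW6 : (E0.toAffine⁄k).a₆ = -54 * algebraMap F k c6 := by
    show algebraMap F k E0.a₆ = _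
    rw [hE6, map_mul, map_neg, map_ofNat]
  have hWΔ : (E0.toAffine⁄k).Δ ≠ 0 := by
    show (E0.map (algebraMap F k)).Δ ≠ 0
    rw [WeierstrassCurve.map_Δ]
    exact fun h => hΔ (hinj (h.trans (map_zero _).symm))
  have hWΔ' : (E0'.toAffine⁄k).Δ ≠ 0 := by
    show (E0'.map (algebraMap F k)).Δ ≠ 0
    rw [WeierstrassCurve.map_Δ]
    exact fun h => hΔ' (hinj (h.trans (map_zero _).symm))
  generalize hc4' : algebraMap F k c4 = c4' at hW4
  generalize hc6' : algebraMap F k c6 = c6' at hW6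
  generalize hs' : algebraMap F k s = s'
  -- the family as polynomials in `T`
  obtain ⟨a, ha⟩ : ∃ a : k[X], a = -27 * F4 k[X] (C c4') (C c6') X := ⟨_, rfl⟩
  obtain ⟨b, hb⟩ : ∃ b : k[X], b = -54 * F6 k[X] (C c4') (C c6') X := ⟨_, rfl⟩
  have ha_eval : ∀ τ : k, a.eval τ = -27 * F4 k c4' c6' τ := by
    intro τ
    have := hD.nat4 k[X] k (evalRingHom τ) (C c4') (C c6') X
    simp only [coe_evalRingHom, eval_C, eval_X] at this
    rw [ha, eval_mul, this]
    simp
  have hb_eval : ∀ τ : k, b.eval τ = -54 * F6 k c4' c6' τ := by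
    intro τ
    have := hD.nat6 k[X] k (evalRingHom τ) (C c4') (C c6') X
    simp only [coe_evalRingHom, eval_C, eval_X] at this
    rw [hb, eval_mul, this]
    simp
  have ha0 : (E0.toAffine⁄k).a₄ = a.eval 0 := by rw [ha_eval, hD.zero4, hW4]
  have hb0 : (E0.toAffine⁄k).a₆ = b.eval 0 := by rw [hb_eval, hD.zero6, hW6]
  have hW4' : (E0'.toAffine⁄k).a₄ = a.eval s' := by
    show algebraMap F k E0'.a₄ = _
    rw [hE4', ha_eval, map_mul, map_neg, map_ofNat, hD.nat4 F k (algebraMap F k), hc4', hc6', hs']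
  have hW6' : (E0'.toAffine⁄k).a₆ = b.eval s' := by
    show algebraMap F k E0'.a₆ = _
    rw [hE6', hb_eval, map_mul, map_neg, map_ofNat, hD.nat6 F k (algebraMap F k), hc4', hc6', hs']
  -- Tate parameters of the points of order five
  have key : ∀ (x y : k) (h : (E0.toAffine⁄k).Nonsingular x y),
      (5 : ℤ) • (Point.some x y h : (E0.toAffine⁄k).Point) = 0 →
      uPar c4' x y ≠ 0 ∧
        c4' = uPar c4' x y ^ 4 * t4 (cPar c4' x y) 1 ∧
        c6' = uPar c4' x y ^ 6 * t6 (cPar c4' x y) 1 ∧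
        x = secX (uPar c4' x y) (cPar c4' x y) 1 ∧
        y = secY (uPar c4' x y) (cPar c4' x y) 1 :=
    fun x y h h5 => tate_param_short h2 h3 _ hW1 hW2 hW3 c4' c6' hW4 hW6 x y h h5
  have H1 : ∀ P : (E0.toAffine⁄k).Point, (5 : ℤ) • P = 0 → P ≠ 0 →
      SY tN tM c4' P ^ 2 = SX tN tM c4' P ^ 3 + a * SX tN tM c4' P + b := by
    rintro (_ | ⟨x, y, h⟩) h5 hne
    · exact absurd rfl hne
    · obtain ⟨-, h4, h6, -, -⟩ := key x y h h5
      have := hD.on_curve_poly (k := k) (uPar c4' x y) (cPar c4' x y)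
      rw [← h4, ← h6, ← ha, ← hb] at this
      exact this
  have H2 : ∀ P : (E0.toAffine⁄k).Point, (5 : ℤ) • P = 0 → P ≠ 0 → ∀ τ : k,
      (sw (a.eval τ) (b.eval τ)).Δ ≠ 0 →
      ∀ h : (sw (a.eval τ) (b.eval τ)).Nonsingular ((SX tN tM c4' P).eval τ)
          ((SY tN tM c4' P).eval τ),
        (5 : ℤ) • (Point.some _ _ h : (sw (a.eval τ) (b.eval τ)).Point) = 0 := by
    rintro (_ | ⟨x, y, h⟩) h5 hne τ hΔτ hns
    · exact absurd rfl hne
    · obtain ⟨-, h4, h6, -, -⟩ := key x y h h5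
      refine five_transfer h2 h3 (uPar c4' x y) (tN k (cPar c4' x y) (uPar c4' x y ^ 2 * τ))
        (tM k (cPar c4' x y) (uPar c4' x y ^ 2 * τ)) ?_ ?_
        (eval_sxPoly hD.natN hD.natM _ _ τ) (eval_syPoly hD.natN hD.natM _ _ τ) hΔτ hns
      · rw [ha_eval, ← hD.F4_param, ← h4, ← h6]
      · rw [hb_eval, ← hD.F6_param, ← h4, ← h6]
  have H3 : ∀ P : (E0.toAffine⁄k).Point, (5 : ℤ) • P = 0 → P ≠ 0 →
      ∀ h : (E0.toAffine⁄k).Nonsingular ((SX tN tM c4' P).eval 0) ((SY tN tM c4' P).eval 0),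
        Point.some _ _ h = P := by
    rintro (_ | ⟨x, y, h⟩) h5 hne hns
    · exact absurd rfl hne
    · obtain ⟨-, -, -, hx, hy⟩ := key x y h h5
      apply some_eq_of_eq
      · show (sxPoly tN tM (uPar c4' x y) (cPar c4' x y)).eval 0 = x
        rw [eval_sxPoly hD.natN hD.natM, mul_zero, hD.N0, hD.M0]
        exact hx.symm
      · show (syPoly tN tM (uPar c4' x y) (cPar c4' x y)).eval 0 = y
        rw [eval_syPoly hD.natN hD.natM, mul_zero, hD.N0, hD.M0]
        exact hy.symm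
  have H4 : ∀ P : (E0.toAffine⁄k).Point, (5 : ℤ) • P = 0 → P ≠ 0 →
      SX tN tM c4' (-P) = SX tN tM c4' P ∧ SY tN tM c4' (-P) = -SY tN tM c4' P := by
    rintro (_ | ⟨x, y, h⟩) h5 hne
    · exact absurd rfl hne
    · have hneg : (E0.toAffine⁄k).negY x y = -y := by
        simp only [negY, hW1, hW3]; ring
      constructor
      · show sxPoly tN tM (uPar c4' x ((E0.toAffine⁄k).negY x y))
            (cPar c4' x ((E0.toAffine⁄k).negY x y))
          = sxPoly tN tM (uPar c4' x y) (cPar c4' x y)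
        rw [hneg, uPar_neg, cPar_neg, sxPoly_neg]
      · show syPoly tN tM (uPar c4' x ((E0.toAffine⁄k).negY x y))
            (cPar c4' x ((E0.toAffine⁄k).negY x y))
          = -syPoly tN tM (uPar c4' x y) (cPar c4' x y)
        rw [hneg, uPar_neg, cPar_neg, syPoly_neg]
  obtain ⟨ι, hιinj, hform⟩ := sectionAdd_short hF3 h2 h3 h5 a b (E0.toAffine⁄k) hW1 hW2 hW3 ha0 hb0
    hWΔ (SX tN tM c4') (SY tN tM c4') H1 H2 H3 H4 s' (E0'.toAffine⁄k) hW1' hW2' hW3' hW4' hW6' hWΔ'
  refine ⟨ι, hιinj, ?_⟩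
  intro f P Q hQ
  by_cases hP0 : (P : (E0.toAffine⁄k).Point) = 0
  · have hPz : P = 0 := Subtype.ext hP0
    have hQz : Q = 0 := by
      apply Subtype.ext
      rw [hQ, hP0]
      rfl
    rw [hPz, hQz, map_zero]
    rfl
  · obtain ⟨hP', eP⟩ := hform P hP0
    rcases hPc : (P : (E0.toAffine⁄k).Point) with _ | ⟨x, y, h⟩
    · exact absurd hPc hP0
    · have hQc : (Q : (E0.toAffine⁄k).Point)
          = Point.some (f x) (f y) ((E0.toAffine.baseChange_nonsingular f.injective ..).mpr h) := by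
        rw [hQ, hPc]
        rfl
      have hQ0 : (Q : (E0.toAffine⁄k).Point) ≠ 0 := by
        rw [hQc]
        exact Point.some_ne_zero _
      obtain ⟨hQ', eQ⟩ := hform Q hQ0
      have fc4 : f c4' = c4' := by rw [← hc4']; exact f.commutes c4
      have fs : f s' = s' := by rw [← hs']; exact f.commutes s
      have fu : uPar c4' (f x) (f y) = f (uPar c4' x y) := by
        have := map_uPar (f : k →+* k) c4' x y
        simp only [RingHom.coe_coe, fc4] at this
        exact this.symm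
      have fc : cPar c4' (f x) (f y) = f (cPar c4' x y) := by
        have := map_cPar (f : k →+* k) c4' x y
        simp only [RingHom.coe_coe, fc4] at this
        exact this.symm
      have fN : ∀ c t : k, f (tN k c t) = tN k (f c) (f t) := fun c t => hD.natN k k (f : k →+* k) c t
      have fM : ∀ c t : k, f (tM k c t) = tM k (f c) (f t) := fun c t => hD.natM k k (f : k →+* k) c t
      have fX : ∀ u n m : k, f (secX u n m) = secX (f u) (f n) (f m) :=
        fun u n m => map_secX (f : k →+* k) u n m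
      have fY : ∀ u n m : k, f (secY u n m) = secY (f u) (f n) (f m) :=
        fun u n m => map_secY (f : k →+* k) u n m
      have eX : (SX tN tM c4' (Q : (E0.toAffine⁄k).Point)).eval s'
          = f ((SX tN tM c4' (P : (E0.toAffine⁄k).Point)).eval s') := by
        rw [hQc, hPc]
        show (sxPoly tN tM (uPar c4' (f x) (f y)) (cPar c4' (f x) (f y))).eval s'
          = f ((sxPoly tN tM (uPar c4' x y) (cPar c4' x y)).eval s')
        rw [eval_sxPoly hD.natN hD.natM, eval_sxPoly hD.natN hD.natM, fX, fN, fM, map_mul, map_pow,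
          fs, fu, fc]
      have eY : (SY tN tM c4' (Q : (E0.toAffine⁄k).Point)).eval s'
          = f ((SY tN tM c4' (P : (E0.toAffine⁄k).Point)).eval s') := by
        rw [hQc, hPc]
        show (syPoly tN tM (uPar c4' (f x) (f y)) (cPar c4' (f x) (f y))).eval s'
          = f ((syPoly tN tM (uPar c4' x y) (cPar c4' x y)).eval s')
        rw [eval_syPoly hD.natN hD.natM, eval_syPoly hD.natN hD.natM, fY, fN, fM, map_mul, map_pow,
          fs, fu, fc]
      rw [eQ, eP, Point.map_some]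
      exact some_eq_of_eq _ _ eX eY

/-- **[FIVE]**: `exists_five_map` with leaf [F3] plugged in. The only remaining input is the
family data. -/
theorem exists_five_map_of_familyData (hD : FamilyData F4 F6 tN tM)
    {F : Type} [Field F] [Algebra F k] [IsAlgClosed k] [DecidableEq k]
    (h2 : (2 : k) ≠ 0) (h3 : (3 : k) ≠ 0) (h5 : (5 : k) ≠ 0)
    (E0 E0' : WeierstrassCurve F)
    (hE1 : E0.a₁ = 0) (hE2 : E0.a₂ = 0) (hE3 : E0.a₃ = 0)
    (hE1' : E0'.a₁ = 0) (hE2' : E0'.a₂ = 0) (hE3' : E0'.a₃ = 0)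
    (c4 c6 s : F) (hE4 : E0.a₄ = -27 * c4) (hE6 : E0.a₆ = -54 * c6)
    (hE4' : E0'.a₄ = -27 * F4 F c4 c6 s) (hE6' : E0'.a₆ = -54 * F6 F c4 c6 s)
    (hΔ : E0.Δ ≠ 0) (hΔ' : E0'.Δ ≠ 0) :
    ∃ ι : Submodule.torsionBy ℤ (E0.toAffine⁄k).Point 5 →+
        Submodule.torsionBy ℤ (E0'.toAffine⁄k).Point 5,
      Function.Injective ι ∧
      ∀ (f : k →ₐ[F] k) (P Q : Submodule.torsionBy ℤ (E0.toAffine⁄k).Point 5),
        (Q : (E0.toAffine⁄k).Point) = Point.map (W' := E0.toAffine) f (P : (E0.toAffine⁄k).Point) →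
        ((ι Q : Submodule.torsionBy ℤ (E0'.toAffine⁄k).Point 5) : (E0'.toAffine⁄k).Point)
          = Point.map (W' := E0'.toAffine) f
              ((ι P : Submodule.torsionBy ℤ (E0'.toAffine⁄k).Point 5) : (E0'.toAffine⁄k).Point) :=
  exists_five_map sectionAddStmt hD h2 h3 h5 E0 E0' hE1 hE2 hE3 hE1' hE2' hE3' c4 c6 s hE4 hE6
    hE4' hE6' hΔ hΔ'

end main

end Fermat.Agent.S52.FiveGlue
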