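import Mathlib

/-!
# S52 [MODEL], leaf (T): Tate parametrisation of the pairs `(c₄, c₆)`

`T4 n m`, `T6 n m` are the `c`-invariants of Tate's normal form
`y² + (1 - c) x y - c y = x³ - c x²` (point `(0,0)` of order five), made homogeneous in
`c = n / m`.  Over an algebraically closed field of characteristic `≠ 2, 3, 5` every pair
`(c₄, c₆)` with `c₄³ ≠ c₆²` is of the form `(u⁴ T4 c 1, u⁶ T6 c 1)`; no torsion points are used.
-/

set_option autoImplicit false

namespace Fermat.Agent.S52.TateParam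

open Polynomial

/-- `c₄` of Tate's normal form, homogeneous of degree four. -/
def T4 {R : Type*} [CommRing R] (n m : R) : R :=
  n ^ 4 - 12 * n ^ 3 * m + 14 * n ^ 2 * m ^ 2 + 12 * n * m ^ 3 + m ^ 4

/-- `c₆` of Tate's normal form, homogeneous of degree six. -/
def T6 {R : Type*} [CommRing R] (n m : R) : R :=
  -(n ^ 6 - 18 * n ^ 5 * m + 75 * n ^ 4 * m ^ 2 + 75 * n ^ 2 * m ^ 4 + 18 * n * m ^ 5 + m ^ 6)

theorem T4_cube_sub_T6_sq {R : Type*} [CommRing R] (n m : R) :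
    T4 n m ^ 3 - T6 n m ^ 2 = 1728 * n ^ 5 * m ^ 5 * (n ^ 2 - 11 * n * m - m ^ 2) := by
  unfold T4 T6; ring

theorem T4_smul {R : Type*} [CommRing R] (t n m : R) : T4 (t * n) (t * m) = t ^ 4 * T4 n m := by
  unfold T4; ring

theorem T6_smul {R : Type*} [CommRing R] (t n m : R) : T6 (t * n) (t * m) = t ^ 6 * T6 n m := by
  unfold T6; ring

theorem map_T4 {R S : Type*} [CommRing R] [CommRing S] (f : R →+* S) (n m : R) :
    f (T4 n m) = T4 (f n) (f m) := by
  simp only [T4, map_add, map_sub, map_mul, map_pow, map_ofNat]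

theorem map_T6 {R S : Type*} [CommRing R] [CommRing S] (f : R →+* S) (n m : R) :
    f (T6 n m) = T6 (f n) (f m) := by
  simp only [T6, map_add, map_sub, map_mul, map_pow, map_ofNat, map_neg]

theorem T4_eq_quadratic {R : Type*} [CommRing R] (n m : R) :
    T4 n m = (n ^ 2 - 11 * n * m - m ^ 2) * (n ^ 2 - n * m + 4 * m ^ 2) +
      5 * m ^ 3 * (11 * n + m) := by
  unfold T4; ring

section Field

variable {k : Type*} [Field k]

/-- The binary forms `T4`, `T6` have no common zero besides `(0, 0)` in characteristic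
`≠ 2, 3, 5`. -/
theorem eq_zero_of_T4_T6 (h2 : (2 : k) ≠ 0) (h3 : (3 : k) ≠ 0) (h5 : (5 : k) ≠ 0) {n m : k}
    (h4 : T4 n m = 0) (h6 : T6 n m = 0) : n = 0 ∧ m = 0 := by
  have h1728 : (1728 : k) ≠ 0 := by
    have : (1728 : k) = 2 ^ 6 * 3 ^ 3 := by norm_num
    rw [this]
    exact mul_ne_zero (pow_ne_zero _ h2) (pow_ne_zero _ h3)
  have hkey := T4_cube_sub_T6_sq n m
  rw [h4, h6] at hkey
  have hkey' : n ^ 5 * m ^ 5 * (n ^ 2 - 11 * n * m - m ^ 2) = 0 := by
    have : (1728 : k) * (n ^ 5 * m ^ 5 * (n ^ 2 - 11 * n * m - m ^ 2)) = 0 := by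
      rw [← mul_assoc, ← mul_assoc]; rw [← hkey]; ring
    exact (mul_eq_zero.mp this).resolve_left h1728
  have hn_of_m : m = 0 → n = 0 := by
    intro hm
    have : n ^ 4 = 0 := by
      have := h4; unfold T4 at this; rw [hm] at this; simpa using this
    exact pow_eq_zero_iff (by norm_num) |>.mp this
  have hm_of_n : n = 0 → m = 0 := by
    intro hn
    have : m ^ 4 = 0 := by
      have := h4; unfold T4 at this; rw [hn] at this; simpa using this
    exact pow_eq_zero_iff (by norm_num) |>.mp this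
  rcases mul_eq_zero.mp hkey' with h | h
  · rcases mul_eq_zero.mp h with h | h
    · have hn : n = 0 := pow_eq_zero_iff (by norm_num) |>.mp h
      exact ⟨hn, hm_of_n hn⟩
    · have hm : m = 0 := pow_eq_zero_iff (by norm_num) |>.mp h
      exact ⟨hn_of_m hm, hm⟩
  · -- `n² - 11 n m - m² = 0`
    have h4' := T4_eq_quadratic n m
    rw [h4, h, zero_mul, zero_add] at h4'
    have h4'' : m ^ 3 * (11 * n + m) = 0 := by
      have : (5 : k) * (m ^ 3 * (11 * n + m)) = 0 := by rw [← mul_assoc]; exact h4'.symm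
      exact (mul_eq_zero.mp this).resolve_left h5
    rcases mul_eq_zero.mp h4'' with hm | hm
    · have hm : m = 0 := pow_eq_zero_iff (by norm_num) |>.mp hm
      exact ⟨hn_of_m hm, hm⟩
    · have hm' : m = -11 * n := by linear_combination hm
      have hn2 : n ^ 2 = 0 := by
        have := h; rw [hm'] at this; linear_combination this
      have hn : n = 0 := pow_eq_zero_iff (by norm_num) |>.mp hn2
      exact ⟨hn, hm_of_n hn⟩

/-- The polynomial whose roots are the Tate parameters of `(c₄, c₆)`. -/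
noncomputable def paramPoly (c4 c6 : k) : k[X] :=
  C (c4 ^ 3) * (-(X ^ 6 - 18 * X ^ 5 + 75 * X ^ 4 + 75 * X ^ 2 + 18 * X + 1)) ^ 2 -
    C (c6 ^ 2) * (X ^ 4 - 12 * X ^ 3 + 14 * X ^ 2 + 12 * X + 1) ^ 3

theorem eval_paramPoly (c4 c6 x : k) :
    (paramPoly c4 c6).eval x = c4 ^ 3 * T6 x 1 ^ 2 - c6 ^ 2 * T4 x 1 ^ 3 := by
  simp only [paramPoly, T4, T6, eval_sub, eval_mul, eval_C, eval_pow, eval_neg, eval_add, eval_X,
    eval_one, eval_ofNat]
  ring

theorem natDegree_paramPoly (c4 c6 : k) (h : c4 ^ 3 ≠ c6 ^ 2) :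
    (paramPoly c4 c6).natDegree = 12 := by
  unfold paramPoly
  compute_degree!
  have e1 : (1 : k[X]).coeff 6 = 0 := by
    rw [Polynomial.coeff_one]; norm_num
  have e2 : (X : k[X]).coeff 6 = 0 := by
    rw [Polynomial.coeff_X]; norm_num
  rw [e1, e2]
  intro h'
  apply h
  have e3 : ((Int.negSucc 0 : ℤ) : k) = -1 := by
    simp
  rw [e3] at h'
  linear_combination h'

/-- **Tate parametrisation.**  Over an algebraically closed field of characteristic
`≠ 2, 3, 5`, every pair `(c₄, c₆)` with `c₄³ ≠ c₆²` is `(u⁴ T4 c 1, u⁶ T6 c 1)` with `u ≠ 0`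
and `c (c² - 11 c - 1) ≠ 0`. -/
theorem exists_param [IsAlgClosed k] (h2 : (2 : k) ≠ 0) (h3 : (3 : k) ≠ 0) (h5 : (5 : k) ≠ 0)
    (c4 c6 : k) (h : c4 ^ 3 ≠ c6 ^ 2) :
    ∃ c u : k, u ≠ 0 ∧ c4 = u ^ 4 * T4 c 1 ∧ c6 = u ^ 6 * T6 c 1 ∧
      c * (c ^ 2 - 11 * c - 1) ≠ 0 := by
  have hdeg : (paramPoly c4 c6).degree ≠ 0 := by
    intro h0
    have := Polynomial.natDegree_eq_of_degree_eq_some (n := 0) h0
    rw [natDegree_paramPoly c4 c6 h] at this
    norm_num at this
  obtain ⟨c, hc⟩ := IsAlgClosed.exists_root (paramPoly c4 c6) hdeg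
  rw [Polynomial.IsRoot, eval_paramPoly] at hc
  set A := T4 c 1 with hA
  set B := T6 c 1 with hB
  have hAB : ¬ (A = 0 ∧ B = 0) := by
    rintro ⟨ha, hb⟩
    exact one_ne_zero (eq_zero_of_T4_T6 h2 h3 h5 ha hb).2
  have hrel : c4 ^ 3 * B ^ 2 = c6 ^ 2 * A ^ 3 := by linear_combination hc
  have hdisc : A ^ 3 - B ^ 2 = 1728 * c ^ 5 * (c ^ 2 - 11 * c - 1) := by
    have := T4_cube_sub_T6_sq c (1 : k)
    rw [← hA, ← hB] at this
    rw [this]; ring
  -- the last conclusion follows from the first three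
  have hfin : ∀ u : k, c4 = u ^ 4 * A → c6 = u ^ 6 * B → c * (c ^ 2 - 11 * c - 1) ≠ 0 := by
    intro u h4 h6 h0
    apply h
    have : c4 ^ 3 - c6 ^ 2 = u ^ 12 * (A ^ 3 - B ^ 2) := by rw [h4, h6]; ring
    have h' : c4 ^ 3 - c6 ^ 2 = 0 := by
      rw [this, hdisc]
      have : (1728 : k) * c ^ 5 * (c ^ 2 - 11 * c - 1) =
          1728 * c ^ 4 * (c * (c ^ 2 - 11 * c - 1)) := by ring
      rw [this, h0]; ring
    exact sub_eq_zero.mp h'
  by_cases hc4 : c4 = 0
  · -- `c₄ = 0`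
    have hc6 : c6 ≠ 0 := by
      intro h6; apply h; rw [hc4, h6]; ring
    have hA0 : A = 0 := by
      have : c6 ^ 2 * A ^ 3 = 0 := by rw [← hrel, hc4]; ring
      rcases mul_eq_zero.mp this with h' | h'
      · exact absurd (pow_eq_zero_iff (by norm_num) |>.mp h') hc6
      · exact pow_eq_zero_iff (by norm_num) |>.mp h'
    have hB0 : B ≠ 0 := fun hb => hAB ⟨hA0, hb⟩
    obtain ⟨u, hu⟩ := IsAlgClosed.exists_pow_nat_eq (c6 / B) (n := 6) (by norm_num)
    have hu0 : u ≠ 0 := by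
      intro h0
      rw [h0] at hu
      have : c6 / B = 0 := by rw [← hu]; ring
      exact div_ne_zero hc6 hB0 this
    have e4 : c4 = u ^ 4 * A := by rw [hc4, hA0]; ring
    have e6 : c6 = u ^ 6 * B := by rw [hu]; field_simp
    exact ⟨c, u, hu0, e4, e6, hfin u e4 e6⟩
  by_cases hc6 : c6 = 0
  · -- `c₆ = 0`
    have hB0 : B = 0 := by
      have : c4 ^ 3 * B ^ 2 = 0 := by rw [hrel, hc6]; ring
      rcases mul_eq_zero.mp this with h' | h'
      · exact absurd (pow_eq_zero_iff (by norm_num) |>.mp h') hc4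
      · exact pow_eq_zero_iff (by norm_num) |>.mp h'
    have hA0 : A ≠ 0 := fun ha => hAB ⟨ha, hB0⟩
    obtain ⟨u, hu⟩ := IsAlgClosed.exists_pow_nat_eq (c4 / A) (n := 4) (by norm_num)
    have hu0 : u ≠ 0 := by
      intro h0
      rw [h0] at hu
      have : c4 / A = 0 := by rw [← hu]; ring
      exact div_ne_zero hc4 hA0 this
    have e4 : c4 = u ^ 4 * A := by rw [hu]; field_simp
    have e6 : c6 = u ^ 6 * B := by rw [hc6, hB0]; ring
    exact ⟨c, u, hu0, e4, e6, hfin u e4 e6⟩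
  · -- generic case
    have hA0 : A ≠ 0 := by
      intro ha
      have : c4 ^ 3 * B ^ 2 = 0 := by rw [hrel, ha]; ring
      rcases mul_eq_zero.mp this with h' | h'
      · exact hc4 (pow_eq_zero_iff (by norm_num) |>.mp h')
      · exact hAB ⟨ha, pow_eq_zero_iff (by norm_num) |>.mp h'⟩
    have hB0 : B ≠ 0 := by
      intro hb
      have : c6 ^ 2 * A ^ 3 = 0 := by rw [← hrel, hb]; ring
      rcases mul_eq_zero.mp this with h' | h'
      · exact hc6 (pow_eq_zero_iff (by norm_num) |>.mp h')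
      · exact hA0 (pow_eq_zero_iff (by norm_num) |>.mp h')
    obtain ⟨u, hu⟩ := IsAlgClosed.exists_pow_nat_eq (c6 * A / (c4 * B)) (n := 2) (by norm_num)
    have hu0 : u ≠ 0 := by
      intro h0
      rw [h0] at hu
      have : c6 * A / (c4 * B) = 0 := by rw [← hu]; ring
      exact div_ne_zero (mul_ne_zero hc6 hA0) (mul_ne_zero hc4 hB0) this
    have e4 : c4 = u ^ 4 * A := by
      have : u ^ 4 = (u ^ 2) ^ 2 := by ring
      rw [this, hu]
      field_simp
      linear_combination hrel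
    have e6 : c6 = u ^ 6 * B := by
      have : u ^ 6 = (u ^ 2) ^ 3 := by ring
      rw [this, hu]
      field_simp
      exact hrel
    exact ⟨c, u, hu0, e4, e6, hfin u e4 e6⟩

/-- **No common zero, hypothesis form.**  If a pair of functions `f4`, `f6` is weighted
homogeneous and is given on the Tate family by `T4`, `T6` of a pair `(tN, tM)` without common
zero away from `c (c² - 11 c - 1) = 0`, then `f4`, `f6` have no common zero at any
`(c₄, c₆)` with `c₄³ ≠ c₆²`. -/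
theorem no_common_zero [IsAlgClosed k] (h2 : (2 : k) ≠ 0) (h3 : (3 : k) ≠ 0) (h5 : (5 : k) ≠ 0)
    (f4 f6 : k → k → k → k) (tN tM : k → k → k)
    (hom4 : ∀ u a b s, f4 (u ^ 4 * a) (u ^ 6 * b) s = u ^ 4 * f4 a b (u ^ 2 * s))
    (hom6 : ∀ u a b s, f6 (u ^ 4 * a) (u ^ 6 * b) s = u ^ 6 * f6 a b (u ^ 2 * s))
    (star4 : ∀ c s, f4 (T4 c 1) (T6 c 1) s = T4 (tN c s) (tM c s))
    (star6 : ∀ c s, f6 (T4 c 1) (T6 c 1) s = T6 (tN c s) (tM c s))
    (bez : ∀ c s, tN c s = 0 → tM c s = 0 → c * (c ^ 2 - 11 * c - 1) = 0)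
    (c4 c6 s : k) (h : c4 ^ 3 ≠ c6 ^ 2) : ¬ (f4 c4 c6 s = 0 ∧ f6 c4 c6 s = 0) := by
  rintro ⟨z4, z6⟩
  obtain ⟨c, u, hu, e4, e6, hc⟩ := exists_param h2 h3 h5 c4 c6 h
  rw [e4, e6, hom4, star4] at z4
  rw [e4, e6, hom6, star6] at z6
  have z4' : T4 (tN c (u ^ 2 * s)) (tM c (u ^ 2 * s)) = 0 :=
    (mul_eq_zero.mp z4).resolve_left (pow_ne_zero _ hu)
  have z6' : T6 (tN c (u ^ 2 * s)) (tM c (u ^ 2 * s)) = 0 :=
    (mul_eq_zero.mp z6).resolve_left (pow_ne_zero _ hu)
  obtain ⟨hN, hM⟩ := eq_zero_of_T4_T6 h2 h3 h5 z4' z6'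
  exact hc (bez c (u ^ 2 * s) hN hM)

end Field

/-- **No common zero modulo `p`, hypothesis form.**  For a natural family `F4`, `F6` of polynomial
functions (given over every commutative ring, compatible with ring homomorphisms) which is
weighted homogeneous and has a Tate presentation `(N, M)` without common zero, the integers
`F4 c₄ c₆ s` and `F6 c₄ c₆ s` have no common prime factor `p ∤ 30 (c₄³ - c₆²)`. -/
theorem int_no_common_prime
    (F4 F6 : ∀ (R : Type) [CommRing R], R → R → R → R)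
    (N M : ∀ (R : Type) [CommRing R], R → R → R)
    (nat4 : ∀ (R S : Type) [CommRing R] [CommRing S] (φ : R →+* S) (a b s : R),
      φ (F4 R a b s) = F4 S (φ a) (φ b) (φ s))
    (nat6 : ∀ (R S : Type) [CommRing R] [CommRing S] (φ : R →+* S) (a b s : R),
      φ (F6 R a b s) = F6 S (φ a) (φ b) (φ s))
    (hom4 : ∀ (R : Type) [CommRing R] (u a b s : R),
      F4 R (u ^ 4 * a) (u ^ 6 * b) s = u ^ 4 * F4 R a b (u ^ 2 * s))
    (hom6 : ∀ (R : Type) [CommRing R] (u a b s : R),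
      F6 R (u ^ 4 * a) (u ^ 6 * b) s = u ^ 6 * F6 R a b (u ^ 2 * s))
    (star4 : ∀ (R : Type) [CommRing R] (c s : R),
      F4 R (T4 c 1) (T6 c 1) s = T4 (N R c s) (M R c s))
    (star6 : ∀ (R : Type) [CommRing R] (c s : R),
      F6 R (T4 c 1) (T6 c 1) s = T6 (N R c s) (M R c s))
    (bez : ∀ (k : Type) [Field k], (2 : k) ≠ 0 → (3 : k) ≠ 0 → (5 : k) ≠ 0 → ∀ c s : k,
      N k c s = 0 → M k c s = 0 → c * (c ^ 2 - 11 * c - 1) = 0)
    (p : ℕ) (hp : p.Prime) (c4 c6 s : ℤ) (h30 : ¬ (p : ℤ) ∣ 30 * (c4 ^ 3 - c6 ^ 2)) :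
    (p : ℤ) ∣ F4 ℤ c4 c6 s → (p : ℤ) ∣ F6 ℤ c4 c6 s → False := by
  intro d4 d6
  have : Fact p.Prime := ⟨hp⟩
  let k := AlgebraicClosure (ZMod p)
  have hz : ∀ n : ℤ, ((n : ℤ) : k) = 0 ↔ (p : ℤ) ∣ n := fun n =>
    CharP.intCast_eq_zero_iff k p n
  have hnum : ∀ n : ℤ, n ∣ 30 → ((n : ℤ) : k) ≠ 0 := by
    intro n hn h0
    exact h30 (((hz n).mp h0).trans (hn.trans (Dvd.intro _ rfl)))
  have h2 : (2 : k) ≠ 0 := by
    have := hnum 2 (by norm_num); simpa using this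
  have h3 : (3 : k) ≠ 0 := by
    have := hnum 3 (by norm_num); simpa using this
  have h5 : (5 : k) ≠ 0 := by
    have := hnum 5 (by norm_num); simpa using this
  have hΔ : ((c4 : ℤ) : k) ^ 3 ≠ ((c6 : ℤ) : k) ^ 2 := by
    intro h
    have : (((c4 ^ 3 - c6 ^ 2 : ℤ)) : k) = 0 := by
      push_cast; rw [h]; ring
    exact h30 (((hz _).mp this).trans (Dvd.intro_left _ rfl))
  have e4 : F4 k (c4 : k) (c6 : k) (s : k) = 0 := by
    have := nat4 ℤ k (Int.castRingHom k) c4 c6 s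
    simp only [eq_intCast] at this
    rw [← this]
    exact (hz _).mpr d4
  have e6 : F6 k (c4 : k) (c6 : k) (s : k) = 0 := by
    have := nat6 ℤ k (Int.castRingHom k) c4 c6 s
    simp only [eq_intCast] at this
    rw [← this]
    exact (hz _).mpr d6
  exact no_common_zero h2 h3 h5 (F4 k) (F6 k) (N k) (M k) (hom4 k) (hom6 k) (star4 k) (star6 k)
    (bez k h2 h3 h5) (c4 : k) (c6 : k) (s : k) hΔ ⟨e4, e6⟩

end Fermat.Agent.S52.TateParam
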