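import Mathlib
import Fermat.Prelude.Def_FLTPrelim_Modularity
import Fermat.Agent.S52.M2.Plan
import Fermat.Agent.Lib.DivPoly.Count

/-!
# S52 [TR]: congruence of Frobenius traces from a Frobenius-equivariant injection on 5-torsion

Hypothesis form (helper38): from the Frobenius quadratic equation (`M2.FrobQuadStmt`) on two short
Weierstrass curves `E0`, `E0'` over `𝔽_ℓ` (`ℓ ≠ 5`) and an injective additive map
`E0[5](k) → E0'[5](k)` commuting with Frobenius, the traces of Frobenius are congruent modulo 5.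
-/

set_option autoImplicit false

open WeierstrassCurve WeierstrassCurve.Affine

namespace Fermat.Agent.S52.TraceCong

section Abstract

variable {A A' : Type*} [AddCommGroup A] [AddCommGroup A']

/-- A nonzero element killed by `5` and by `m` forces `5 ∣ m`. -/
theorem five_dvd_of_zsmul_eq_zero {R : A} (hR : R ≠ 0) (h5 : (5 : ℤ) • R = 0) {m : ℤ}
    (hm : m • R = 0) : (5 : ℤ) ∣ m := by
  by_contra h
  have hp : Prime (5 : ℤ) := Int.prime_iff_natAbs_prime.mpr (by norm_num)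
  obtain ⟨u, v, huv⟩ := (hp.irreducible.coprime_iff_not_dvd.mpr h)
  apply hR
  have : R = (u * 5 + v * m) • R := by rw [huv, one_smul]
  rw [this, add_smul, mul_smul, mul_smul, h5, hm, smul_zero, smul_zero, add_zero]

/-- **(TR0)** Two endomorphisms satisfying quadratic equations with the same constant term which
are intertwined by an injection on 5-torsion have congruent traces modulo 5. -/
theorem dvd_of_quad (φ : A →+ A) (φ' : A' →+ A') (hφ : Function.Injective φ) (a a' n : ℤ)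
    (hq : ∀ P : A, φ (φ P) - a • φ P + n • P = 0)
    (hq' : ∀ P : A', φ' (φ' P) - a' • φ' P + n • P = 0)
    (ι : Submodule.torsionBy ℤ A 5 →+ Submodule.torsionBy ℤ A' 5) (hι : Function.Injective ι)
    (hcomm : ∀ P Q : Submodule.torsionBy ℤ A 5, (Q : A) = φ (P : A) →
      ((ι Q : Submodule.torsionBy ℤ A' 5) : A') = φ' ((ι P : Submodule.torsionBy ℤ A' 5) : A'))
    (hne : ∃ P : Submodule.torsionBy ℤ A 5, P ≠ 0) : (5 : ℤ) ∣ a' - a := by
  obtain ⟨P, hP⟩ := hne
  have hmem : ∀ P : Submodule.torsionBy ℤ A 5, φ (P : A) ∈ Submodule.torsionBy ℤ A 5 := by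
    intro P
    rw [Submodule.mem_torsionBy_iff, ← map_zsmul, (Submodule.mem_torsionBy_iff _ _).mp P.2,
      map_zero]
  let Q : Submodule.torsionBy ℤ A 5 := ⟨φ P, hmem P⟩
  let Q2 : Submodule.torsionBy ℤ A 5 := ⟨φ Q, hmem Q⟩
  have hQ0 : Q ≠ 0 := by
    intro h
    apply hP
    apply Subtype.ext
    have h' : φ (P : A) = 0 := congrArg Subtype.val h
    exact hφ (h'.trans (by simp))
  have hrel : Q2 - a • Q + n • P = 0 := Subtype.ext (hq P)
  have hrel' := congrArg ι hrel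
  rw [map_add, map_sub, map_zsmul, map_zsmul, map_zero] at hrel'
  have hrel'' : ((ι Q2 : Submodule.torsionBy ℤ A' 5) : A') - a • ((ι Q : _) : A') +
      n • ((ι P : _) : A') = 0 := by
    have := congrArg Subtype.val hrel'
    simpa using this
  rw [hcomm Q Q2 rfl, hcomm P Q rfl] at hrel''
  have hsub : (a' - a) • φ' ((ι P : Submodule.torsionBy ℤ A' 5) : A') = 0 := by
    have h2 := hq' ((ι P : Submodule.torsionBy ℤ A' 5) : A')
    rw [sub_smul]
    have e : a' • φ' ((ι P : Submodule.torsionBy ℤ A' 5) : A') -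
        a • φ' ((ι P : Submodule.torsionBy ℤ A' 5) : A') =
        (φ' (φ' ((ι P : Submodule.torsionBy ℤ A' 5) : A')) -
            a • φ' ((ι P : Submodule.torsionBy ℤ A' 5) : A') +
            n • ((ι P : Submodule.torsionBy ℤ A' 5) : A')) -
          (φ' (φ' ((ι P : Submodule.torsionBy ℤ A' 5) : A')) -
            a' • φ' ((ι P : Submodule.torsionBy ℤ A' 5) : A') +
            n • ((ι P : Submodule.torsionBy ℤ A' 5) : A')) := by abel
    rw [e, hrel'', h2, sub_zero]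
  rw [← hcomm P Q rfl] at hsub
  have hιQ0 : ((ι Q : Submodule.torsionBy ℤ A' 5) : A') ≠ 0 := by
    intro h
    apply hQ0
    apply hι
    rw [map_zero]
    exact Subtype.ext h
  exact five_dvd_of_zsmul_eq_zero hιQ0 ((Submodule.mem_torsionBy_iff _ _).mp (ι Q).2) hsub

end Abstract

section Concrete

open Fermat.Agent.S52

variable (ℓ : ℕ) [Fact ℓ.Prime]

/-- `5 ≠ 0` in characteristic `ℓ ≠ 5`. -/
lemma five_ne_zero_of (hℓ5 : ℓ ≠ 5) (k : Type*) [Field k] [Algebra (ZMod ℓ) k] : (5 : k) ≠ 0 := by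
  have h5 : (5 : ZMod ℓ) ≠ 0 := by
    intro h
    have h' : ((5 : ℕ) : ZMod ℓ) = 0 := by exact_mod_cast h
    rw [ZMod.natCast_eq_zero_iff] at h'
    exact hℓ5 ((Nat.prime_dvd_prime_iff_eq (Fact.out : ℓ.Prime) (by norm_num)).mp h')
  intro h
  apply h5
  apply (algebraMap (ZMod ℓ) k).injective
  rw [map_ofNat, map_zero]
  exact h

omit [Fact ℓ.Prime] in
/-- The trace of Frobenius of a curve over `𝔽_ℓ` in terms of the point count. -/
lemma traceOfFrobenius_eq (E0 : WeierstrassCurve (ZMod ℓ)) :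
    E0.traceOfFrobenius = (ℓ : ℤ) + 1 - (Nat.card E0.toAffine.Point : ℤ) := by
  rw [WeierstrassCurve.traceOfFrobenius, WeierstrassCurve.card, Nat.card_zmod]

/-- **(TR1)** congruence of the traces of Frobenius modulo 5. -/
theorem trace_congr (hFQ : M2.FrobQuadStmt.{0}) (hℓ5 : ℓ ≠ 5)
    (E0 E0' : WeierstrassCurve (ZMod ℓ))
    (h1 : E0.a₁ = 0) (h2 : E0.a₂ = 0) (h3 : E0.a₃ = 0) (hΔ : E0.Δ ≠ 0)
    (h1' : E0'.a₁ = 0) (h2' : E0'.a₂ = 0) (h3' : E0'.a₃ = 0) (hΔ' : E0'.Δ ≠ 0)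
    (k : Type) [Field k] [Algebra (ZMod ℓ) k] [IsAlgClosed k] [DecidableEq k]
    (ι : Submodule.torsionBy ℤ (E0.toAffine⁄k).Point 5 →+
      Submodule.torsionBy ℤ (E0'.toAffine⁄k).Point 5)
    (hι : Function.Injective ι)
    (hcomm : ∀ (f : k →ₐ[ZMod ℓ] k) (P Q : Submodule.torsionBy ℤ (E0.toAffine⁄k).Point 5),
      (Q : (E0.toAffine⁄k).Point) = Point.map (W' := E0.toAffine) f (P : (E0.toAffine⁄k).Point) →
      ((ι Q : Submodule.torsionBy ℤ (E0'.toAffine⁄k).Point 5) : (E0'.toAffine⁄k).Point) =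
        Point.map (W' := E0'.toAffine) f
          ((ι P : Submodule.torsionBy ℤ (E0'.toAffine⁄k).Point 5) : (E0'.toAffine⁄k).Point)) :
    (5 : ℤ) ∣ E0'.traceOfFrobenius - E0.traceOfFrobenius := by
  rw [traceOfFrobenius_eq, traceOfFrobenius_eq]
  have h5k : (5 : k) ≠ 0 := five_ne_zero_of ℓ hℓ5 k
  have hΔk : (E0.toAffine⁄k).Δ ≠ 0 := by
    rw [show (E0.toAffine⁄k) = E0.map (algebraMap (ZMod ℓ) k) from rfl, WeierstrassCurve.map_Δ]
    exact (map_ne_zero_iff _ (algebraMap (ZMod ℓ) k).injective).mpr hΔ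
  refine dvd_of_quad (M2.frobPt ℓ E0 k) (M2.frobPt ℓ E0' k) (Point.map_injective _)
    ((ℓ : ℤ) + 1 - (Nat.card E0.toAffine.Point : ℤ))
    ((ℓ : ℤ) + 1 - (Nat.card E0'.toAffine.Point : ℤ)) (ℓ : ℤ)
    (hFQ ℓ E0 k h1 h2 h3 hΔ) (hFQ ℓ E0' k h1' h2' h3' hΔ') ι hι
    (fun P Q hPQ => hcomm (FiniteField.frobeniusAlgHom (ZMod ℓ) k) P Q hPQ) ?_
  -- the 5-torsion is nontrivial
  have hcard := Fermat.Agent.Lib.DivPoly.card_torsionBy_of_natCast_ne_zero (E0.toAffine⁄k) hΔk 5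
    (by exact_mod_cast h5k)
  have hcard' : Nat.card (Submodule.torsionBy ℤ (E0.toAffine⁄k).Point 5) = 25 := by
    simpa using hcard
  have hfin : Finite (Submodule.torsionBy ℤ (E0.toAffine⁄k).Point 5) :=
    Nat.finite_of_card_ne_zero (by rw [hcard']; norm_num)
  by_contra hcon
  push Not at hcon
  have hsub : Subsingleton (Submodule.torsionBy ℤ (E0.toAffine⁄k).Point 5) :=
    ⟨fun x y => by rw [hcon x, hcon y]⟩
  have := Nat.card_unique (α := Submodule.torsionBy ℤ (E0.toAffine⁄k).Point 5)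
  omega

/-- **(TR2)** the same with the Frobenius-equivariant injection given existentially over
`k = AlgebraicClosure (ZMod ℓ)`. -/
theorem trace_congr_of_exists (hFQ : M2.FrobQuadStmt.{0}) (hℓ5 : ℓ ≠ 5)
    (E0 E0' : WeierstrassCurve (ZMod ℓ))
    (h1 : E0.a₁ = 0) (h2 : E0.a₂ = 0) (h3 : E0.a₃ = 0) (hΔ : E0.Δ ≠ 0)
    (h1' : E0'.a₁ = 0) (h2' : E0'.a₂ = 0) (h3' : E0'.a₃ = 0) (hΔ' : E0'.Δ ≠ 0)
    (hFive : ∀ [DecidableEq (AlgebraicClosure (ZMod ℓ))],
      ∃ ι : Submodule.torsionBy ℤ (E0.toAffine⁄(AlgebraicClosure (ZMod ℓ))).Point 5 →+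
        Submodule.torsionBy ℤ (E0'.toAffine⁄(AlgebraicClosure (ZMod ℓ))).Point 5,
        Function.Injective ι ∧
        ∀ (f : AlgebraicClosure (ZMod ℓ) →ₐ[ZMod ℓ] AlgebraicClosure (ZMod ℓ))
          (P Q : Submodule.torsionBy ℤ (E0.toAffine⁄(AlgebraicClosure (ZMod ℓ))).Point 5),
          (Q : (E0.toAffine⁄(AlgebraicClosure (ZMod ℓ))).Point) =
              Point.map (W' := E0.toAffine) f
                (P : (E0.toAffine⁄(AlgebraicClosure (ZMod ℓ))).Point) →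
            ((ι Q : Submodule.torsionBy ℤ (E0'.toAffine⁄(AlgebraicClosure (ZMod ℓ))).Point 5) :
                (E0'.toAffine⁄(AlgebraicClosure (ZMod ℓ))).Point) =
              Point.map (W' := E0'.toAffine) f
                ((ι P : Submodule.torsionBy ℤ
                  (E0'.toAffine⁄(AlgebraicClosure (ZMod ℓ))).Point 5) :
                  (E0'.toAffine⁄(AlgebraicClosure (ZMod ℓ))).Point)) :
    (5 : ℤ) ∣ E0'.traceOfFrobenius - E0.traceOfFrobenius := by
  classical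
  obtain ⟨ι, hι, hcomm⟩ := hFive
  exact trace_congr ℓ hFQ hℓ5 E0 E0' h1 h2 h3 hΔ h1' h2' h3' hΔ' (AlgebraicClosure (ZMod ℓ)) ι hι
    hcomm

/-- Good reduction in the Prelude's sense means nonzero discriminant of the reduction. -/
lemma reductionMod_Δ_ne_zero (W : WeierstrassCurve ℤ) (hg : W.IsGoodPrimeFor ℓ) :
    (W.reductionMod ℓ).Δ ≠ 0 := by
  rw [WeierstrassCurve.reductionMod, WeierstrassCurve.map_Δ]
  intro h
  exact hg ((ZMod.intCast_zmod_eq_zero_iff_dvd _ _).mp h)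

/-- **(TR3)** integral form: for short integral models `W`, `W'` with good reduction at `ℓ ≠ 5`,
a Frobenius-equivariant injection between the 5-torsion of the reductions gives
`5 ∣ a_ℓ(W') - a_ℓ(W)`. -/
theorem apOfModel_congr (hFQ : M2.FrobQuadStmt.{0}) (hℓ5 : ℓ ≠ 5) (W W' : WeierstrassCurve ℤ)
    (h1 : W.a₁ = 0) (h2 : W.a₂ = 0) (h3 : W.a₃ = 0) (hg : W.IsGoodPrimeFor ℓ)
    (h1' : W'.a₁ = 0) (h2' : W'.a₂ = 0) (h3' : W'.a₃ = 0) (hg' : W'.IsGoodPrimeFor ℓ)
    (k : Type) [Field k] [Algebra (ZMod ℓ) k] [IsAlgClosed k] [DecidableEq k]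
    (ι : Submodule.torsionBy ℤ ((W.reductionMod ℓ).toAffine⁄k).Point 5 →+
      Submodule.torsionBy ℤ ((W'.reductionMod ℓ).toAffine⁄k).Point 5)
    (hι : Function.Injective ι)
    (hcomm : ∀ (f : k →ₐ[ZMod ℓ] k)
      (P Q : Submodule.torsionBy ℤ ((W.reductionMod ℓ).toAffine⁄k).Point 5),
      (Q : ((W.reductionMod ℓ).toAffine⁄k).Point) =
          Point.map (W' := (W.reductionMod ℓ).toAffine) f
            (P : ((W.reductionMod ℓ).toAffine⁄k).Point) →
        ((ι Q : Submodule.torsionBy ℤ ((W'.reductionMod ℓ).toAffine⁄k).Point 5) :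
            ((W'.reductionMod ℓ).toAffine⁄k).Point) =
          Point.map (W' := (W'.reductionMod ℓ).toAffine) f
            ((ι P : Submodule.torsionBy ℤ ((W'.reductionMod ℓ).toAffine⁄k).Point 5) :
              ((W'.reductionMod ℓ).toAffine⁄k).Point)) :
    (5 : ℤ) ∣ W'.apOfModel ℓ - W.apOfModel ℓ := by
  have e : ∀ V : WeierstrassCurve ℤ, V.a₁ = 0 → V.a₂ = 0 → V.a₃ = 0 →
      (V.reductionMod ℓ).a₁ = 0 ∧ (V.reductionMod ℓ).a₂ = 0 ∧ (V.reductionMod ℓ).a₃ = 0 := by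
    intro V e1 e2 e3
    simp [WeierstrassCurve.reductionMod, e1, e2, e3]
  obtain ⟨r1, r2, r3⟩ := e W h1 h2 h3
  obtain ⟨r1', r2', r3'⟩ := e W' h1' h2' h3'
  exact trace_congr ℓ hFQ hℓ5 (W.reductionMod ℓ) (W'.reductionMod ℓ) r1 r2 r3
    (reductionMod_Δ_ne_zero ℓ W hg) r1' r2' r3' (reductionMod_Δ_ne_zero ℓ W' hg') k ι hι hcomm

end Concrete

end Fermat.Agent.S52.TraceCong
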