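import Mathlib
import Fermat.Statements.S52
import Fermat.Agent.S52.VC
import Fermat.Agent.S52.Model.Basic
import Fermat.Agent.S52.IrrTop
import Fermat.Agent.S52.M2.Main
import Fermat.Agent.S52.TraceCong

/-!
# S52: the top wiring in hypothesis form (helper38)

The frozen statement of S52 (3–5 switch) from a *natural family* `F4 F6` of `c`-invariants
(polynomial functions over every commutative ring) and the three assembled inputs

* `hcop`  — [MODEL] (M-c): `F4`, `F6` have no common prime outside `30 Δ`;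
* `hnr`   — [IRR-ALPHA]: the `3`-division quartic of the family has no root in `ℚ[T]`;
* `hFive` — [FIVE]: a Frobenius-equivariant injection `E[5] → E_s[5]` in characteristic `ℓ ≥ 7`.

Everything else is consumed from landed files: `S51` (through `IrrTop`), `VC`, `Model.Basic`,
`IrrTop`, `M2.Main`, `TraceCong`.
-/

set_option autoImplicit false

open Polynomial WeierstrassCurve WeierstrassCurve.Affine

namespace Fermat.Agent.S52.TopWiring

/-- A prime not dividing `6` is at least `5`. -/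
lemma five_le_of_not_dvd_six {ℓ : ℕ} (hℓ : ℓ.Prime) (h6 : ¬ ℓ ∣ 6) : 5 ≤ ℓ := by
  by_contra h
  push Not at h
  have h2 := hℓ.two_le
  interval_cases ℓ
  · exact h6 (by norm_num)
  · exact h6 (by norm_num)
  · exact absurd hℓ (by norm_num)

/-- A prime `≥ 5` different from `5` is at least `7`. -/
lemma seven_le_of_ne_five {ℓ : ℕ} (hℓ : ℓ.Prime) (h5 : 5 ≤ ℓ) (hne : ℓ ≠ 5) : 7 ≤ ℓ := by
  by_contra h
  push Not at h
  interval_cases ℓ
  · exact hne rfl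
  · exact absurd hℓ (by norm_num)

/-- In characteristic `ℓ ≥ 7` the numbers `2, 3, 5` are invertible. -/
lemma small_ne_zero (ℓ : ℕ) [Fact ℓ.Prime] (h7 : 7 ≤ ℓ) (k : Type*) [Field k]
    [Algebra (ZMod ℓ) k] : (2 : k) ≠ 0 ∧ (3 : k) ≠ 0 ∧ (5 : k) ≠ 0 := by
  have key : ∀ n : ℕ, 0 < n → n < 7 → ((n : ℕ) : k) ≠ 0 := by
    intro n hn0 hn7 h
    have h' : ((n : ℕ) : ZMod ℓ) = 0 := by
      apply (algebraMap (ZMod ℓ) k).injective
      rw [map_natCast, map_zero]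
      exact h
    rw [ZMod.natCast_eq_zero_iff] at h'
    have := Nat.le_of_dvd hn0 h'
    omega
  exact ⟨by simpa using key 2 (by norm_num) (by norm_num),
    by simpa using key 3 (by norm_num) (by norm_num),
    by simpa using key 5 (by norm_num) (by norm_num)⟩

/-- **The frozen statement of S52 from a natural family and the three assembled inputs.** -/
theorem result_of_family
    (F4 F6 : ∀ (R : Type) [CommRing R], R → R → R → R)
    (nat4 : ∀ (R S : Type) [CommRing R] [CommRing S] (φ : R →+* S) (a b s : R),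
      φ (F4 R a b s) = F4 S (φ a) (φ b) (φ s))
    (nat6 : ∀ (R S : Type) [CommRing R] [CommRing S] (φ : R →+* S) (a b s : R),
      φ (F6 R a b s) = F6 S (φ a) (φ b) (φ s))
    (zero4 : ∀ (R : Type) [CommRing R] (a b : R), F4 R a b 0 = a)
    (zero6 : ∀ (R : Type) [CommRing R] (a b : R), F6 R a b 0 = b)
    -- [MODEL] (M-c)
    (hcop : ∀ (p : ℕ), p.Prime → ∀ c4 c6 s : ℤ, ¬ (p : ℤ) ∣ 30 * (c4 ^ 3 - c6 ^ 2) →
      (p : ℤ) ∣ F4 ℤ c4 c6 s → (p : ℤ) ∣ F6 ℤ c4 c6 s → False)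
    -- [IRR-ALPHA]
    (hnr : ∀ c4 c6 : ℤ, c4 ^ 3 ≠ c6 ^ 2 → ∀ P : ℚ[X],
      ((IrrTop.quartic (F4 ℤ[X] (C c4) (C c6) X) (F6 ℤ[X] (C c4) (C c6) X)).map
        (mapRingHom (Int.castRingHom ℚ))).eval P ≠ 0)
    -- [FIVE]
    (hFive : ∀ (ℓ : ℕ) [Fact ℓ.Prime], 7 ≤ ℓ → ∀ (k : Type) [Field k] [Algebra (ZMod ℓ) k]
      [IsAlgClosed k] [DecidableEq k] (E0 E0' : WeierstrassCurve (ZMod ℓ)) (c4 c6 s : ZMod ℓ),
      E0.a₁ = 0 → E0.a₂ = 0 → E0.a₃ = 0 → E0.a₄ = -27 * c4 → E0.a₆ = -54 * c6 →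
      E0'.a₁ = 0 → E0'.a₂ = 0 → E0'.a₃ = 0 → E0'.a₄ = -27 * F4 (ZMod ℓ) c4 c6 s →
      E0'.a₆ = -54 * F6 (ZMod ℓ) c4 c6 s → E0.Δ ≠ 0 → E0'.Δ ≠ 0 →
      ∃ ι : Submodule.torsionBy ℤ (E0.toAffine⁄k).Point 5 →+
          Submodule.torsionBy ℤ (E0'.toAffine⁄k).Point 5,
        Function.Injective ι ∧
        ∀ (f : k →ₐ[ZMod ℓ] k) (P Q : Submodule.torsionBy ℤ (E0.toAffine⁄k).Point 5),
          (Q : (E0.toAffine⁄k).Point) =
              Point.map (W' := E0.toAffine) f (P : (E0.toAffine⁄k).Point) →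
            ((ι Q : Submodule.torsionBy ℤ (E0'.toAffine⁄k).Point 5) : (E0'.toAffine⁄k).Point) =
              Point.map (W' := E0'.toAffine) f
                ((ι P : Submodule.torsionBy ℤ (E0'.toAffine⁄k).Point 5) :
                  (E0'.toAffine⁄k).Point))
    (W : WeierstrassCurve ℤ) (hΔ : W.Δ ≠ 0) (hW : W.IsSemistableModel)
    (_h5 : W.ModRepIsIrreducible 5) :
    ∃ W' : WeierstrassCurve ℤ, W'.Δ ≠ 0 ∧ W'.IsSemistableModel ∧ W'.ModRepIsIrreducible 3 ∧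
      ∀ ℓ : ℕ, ℓ.Prime → W.IsGoodPrimeFor ℓ → W'.IsGoodPrimeFor ℓ → ℓ ≠ 5 →
        (5 : ℤ) ∣ (W'.apOfModel ℓ - W.apOfModel ℓ) := by
  by_cases h3 : W.ModRepIsIrreducible 3
  · exact ⟨W, hΔ, hW, h3, fun ℓ _ _ _ _ => by simp⟩
  -- the family as polynomials in `T`
  have ev4 : ∀ s : ℤ, (F4 ℤ[X] (C W.c₄) (C W.c₆) X).eval s = F4 ℤ W.c₄ W.c₆ s := fun s => by
    have := nat4 ℤ[X] ℤ (evalRingHom s) (C W.c₄) (C W.c₆) X
    simpa using this
  have ev6 : ∀ s : ℤ, (F6 ℤ[X] (C W.c₄) (C W.c₆) X).eval s = F6 ℤ W.c₄ W.c₆ s := fun s => by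
    have := nat6 ℤ[X] ℤ (evalRingHom s) (C W.c₄) (C W.c₆) X
    simpa using this
  have hrel := W.c_relation
  have hne : W.c₄ ^ 3 ≠ W.c₆ ^ 2 := by
    intro h
    rw [h, sub_self] at hrel
    exact hΔ (by simpa using hrel)
  have hN : (1728 * (60 * W.Δ) : ℤ) ≠ 0 := by
    simp [hΔ]
  obtain ⟨s, hNs, Hirr⟩ := IrrTop.irr3_family W hΔ h3 (F4 ℤ[X] (C W.c₄) (C W.c₆) X)
    (F6 ℤ[X] (C W.c₄) (C W.c₆) X) (by rw [ev4, zero4]) (by rw [ev6, zero6])
    (hnr W.c₄ W.c₆ hne) (1728 * (60 * W.Δ)) hN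
  have d4 : 1728 * (60 * W.Δ) ∣ F4 ℤ W.c₄ W.c₆ s - W.c₄ := by
    have := Polynomial.sub_dvd_eval_sub s 0 (F4 ℤ[X] (C W.c₄) (C W.c₆) X)
    rw [ev4, ev4, zero4, sub_zero] at this
    exact hNs.trans this
  have d6 : 1728 * (60 * W.Δ) ∣ F6 ℤ W.c₄ W.c₆ s - W.c₆ := by
    have := Polynomial.sub_dvd_eval_sub s 0 (F6 ℤ[X] (C W.c₄) (C W.c₆) X)
    rw [ev6, ev6, zero6, sub_zero] at this
    exact hNs.trans this
  obtain ⟨W', h1, h2, h3', h4', h6', hc4, hc6, hΔ', hss⟩ :=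
    Model.exists_model_of W hΔ hW _ _ d4 d6 (fun p hp hp30 => by
      refine hcop p hp W.c₄ W.c₆ s ?_
      intro hdvd
      apply hp30
      rw [← hrel] at hdvd
      have hpp : Prime (p : ℤ) := Nat.prime_iff_prime_int.mp hp
      have e : (30 : ℤ) * (1728 * W.Δ) = 1728 * (30 * W.Δ) := by ring
      rw [e] at hdvd
      rcases hpp.dvd_or_dvd hdvd with h | h
      · have h' : (p : ℤ) ∣ 30 := by
          have e2 : (1728 : ℤ) = 2 ^ 6 * 3 ^ 3 := by norm_num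
          rw [e2] at h
          rcases hpp.dvd_or_dvd h with h2 | h2
          · exact (hpp.dvd_of_dvd_pow h2).trans ⟨15, by norm_num⟩
          · exact (hpp.dvd_of_dvd_pow h2).trans ⟨10, by norm_num⟩
        exact h'.mul_right _
      · exact h)
  refine ⟨W', hΔ', hss, Hirr W' hΔ' (by rw [hc4, ev4]) (by rw [hc6, ev6]), ?_⟩
  intro ℓ hℓ hg hg' hℓ5
  by_cases hℓ6 : ℓ ∣ 6
  · rw [Model.apOfModel_eq_of_congr h1 h2 h3' h4' h6' ℓ hℓ6, sub_self]
    exact dvd_zero _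
  have hℓ5' : 5 ≤ ℓ := five_le_of_not_dvd_six hℓ hℓ6
  have hℓ7 : 7 ≤ ℓ := seven_le_of_ne_five hℓ hℓ5' hℓ5
  have : Fact ℓ.Prime := ⟨hℓ⟩
  rw [← VC.apOfModel_shortModel W ℓ hℓ5', ← VC.apOfModel_shortModel W' ℓ hℓ5']
  have hgs := (VC.isGoodPrimeFor_shortModel_iff W ℓ hℓ5').mpr hg
  have hgs' := (VC.isGoodPrimeFor_shortModel_iff W' ℓ hℓ5').mpr hg'
  classical
  have e4 : ((VC.shortModel W').reductionMod ℓ).a₄ =
      -27 * F4 (ZMod ℓ) ((W.c₄ : ℤ) : ZMod ℓ) ((W.c₆ : ℤ) : ZMod ℓ) ((s : ℤ) : ZMod ℓ) := by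
    have := nat4 ℤ (ZMod ℓ) (Int.castRingHom (ZMod ℓ)) W.c₄ W.c₆ s
    simp only [eq_intCast] at this
    rw [← this, ← hc4]
    simp [WeierstrassCurve.reductionMod, VC.shortModel]
  have e6 : ((VC.shortModel W').reductionMod ℓ).a₆ =
      -54 * F6 (ZMod ℓ) ((W.c₄ : ℤ) : ZMod ℓ) ((W.c₆ : ℤ) : ZMod ℓ) ((s : ℤ) : ZMod ℓ) := by
    have := nat6 ℤ (ZMod ℓ) (Int.castRingHom (ZMod ℓ)) W.c₄ W.c₆ s
    simp only [eq_intCast] at this
    rw [← this, ← hc6]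
    simp [WeierstrassCurve.reductionMod, VC.shortModel]
  obtain ⟨ι, hι, hcomm⟩ := hFive ℓ hℓ7 (AlgebraicClosure (ZMod ℓ))
    ((VC.shortModel W).reductionMod ℓ) ((VC.shortModel W').reductionMod ℓ)
    ((W.c₄ : ℤ) : ZMod ℓ) ((W.c₆ : ℤ) : ZMod ℓ) ((s : ℤ) : ZMod ℓ)
    (by simp [WeierstrassCurve.reductionMod, VC.shortModel])
    (by simp [WeierstrassCurve.reductionMod, VC.shortModel])
    (by simp [WeierstrassCurve.reductionMod, VC.shortModel])
    (by simp [WeierstrassCurve.reductionMod, VC.shortModel])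
    (by simp [WeierstrassCurve.reductionMod, VC.shortModel])
    (by simp [WeierstrassCurve.reductionMod, VC.shortModel])
    (by simp [WeierstrassCurve.reductionMod, VC.shortModel])
    (by simp [WeierstrassCurve.reductionMod, VC.shortModel])
    e4 e6
    (TraceCong.reductionMod_Δ_ne_zero ℓ _ hgs) (TraceCong.reductionMod_Δ_ne_zero ℓ _ hgs')
  exact TraceCong.apOfModel_congr ℓ M2.frobQuadStmt hℓ5 (VC.shortModel W) (VC.shortModel W')
    rfl rfl rfl hgs rfl rfl rfl hgs' (AlgebraicClosure (ZMod ℓ)) ι hι hcomm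

end Fermat.Agent.S52.TopWiring
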