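import Mathlib
import Fermat.Agent.S52.TopWiring
import Fermat.Agent.S52.TateParam
import Fermat.Agent.S52.FiveGlue

/-!
# S52: the frozen statement from the family data (helper38)

`result_of_familyData`: the frozen S52 statement from

* `hD   : FiveGlue.FamilyData F4 F6 tN tM` (naturality, homogeneity, [STAR], values at `0`),
* `bez  :` `tN`, `tM` have no common zero unless `c (c² - 11c - 1) = 0` (char `∉ {2,3,5}`),
* `hnr  :` [IRR-ALPHA] — the 3-division quartic of the family has no root in `ℚ[T]`.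

[MODEL] (M-c) is derived from `TateParam.int_no_common_prime`, [FIVE] from
`FiveGlue.exists_five_map_of_familyData`; the rest is `TopWiring.result_of_family`.
-/

set_option autoImplicit false

open Polynomial WeierstrassCurve WeierstrassCurve.Affine

namespace Fermat.Agent.S52.TopFamily

theorem result_of_familyData
    (F4 F6 : ∀ (R : Type) [CommRing R], R → R → R → R)
    (tN tM : ∀ (R : Type) [CommRing R], R → R → R)
    (hD : FiveGlue.FamilyData F4 F6 tN tM)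
    (bez : ∀ (k : Type) [Field k], (2 : k) ≠ 0 → (3 : k) ≠ 0 → (5 : k) ≠ 0 → ∀ c s : k,
      tN k c s = 0 → tM k c s = 0 → c * (c ^ 2 - 11 * c - 1) = 0)
    (hnr : ∀ c4 c6 : ℤ, c4 ^ 3 ≠ c6 ^ 2 → ∀ P : ℚ[X],
      ((IrrTop.quartic (F4 ℤ[X] (C c4) (C c6) X) (F6 ℤ[X] (C c4) (C c6) X)).map
        (mapRingHom (Int.castRingHom ℚ))).eval P ≠ 0)
    (W : WeierstrassCurve ℤ) (hΔ : W.Δ ≠ 0) (hW : W.IsSemistableModel)
    (h5 : W.ModRepIsIrreducible 5) :
    ∃ W' : WeierstrassCurve ℤ, W'.Δ ≠ 0 ∧ W'.IsSemistableModel ∧ W'.ModRepIsIrreducible 3 ∧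
      ∀ ℓ : ℕ, ℓ.Prime → W.IsGoodPrimeFor ℓ → W'.IsGoodPrimeFor ℓ → ℓ ≠ 5 →
        (5 : ℤ) ∣ (W'.apOfModel ℓ - W.apOfModel ℓ) := by
  refine TopWiring.result_of_family F4 F6 hD.nat4 hD.nat6 hD.zero4 hD.zero6 ?_ hnr ?_ W hΔ hW h5
  · intro p hp c4 c6 s h30
    exact TateParam.int_no_common_prime F4 F6 tN tM hD.nat4 hD.nat6 hD.hom4 hD.hom6
      (fun R _ c s => hD.star4 R c s) (fun R _ c s => hD.star6 R c s) bez p hp c4 c6 s h30
  · intro ℓ _ h7 k _ _ _ _ E0 E0' c4 c6 s a1 a2 a3 a4 a6 a1' a2' a3' a4' a6' hΔ0 hΔ0'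
    obtain ⟨h2, h3, h5k⟩ := TopWiring.small_ne_zero ℓ h7 k
    exact FiveGlue.exists_five_map_of_familyData hD h2 h3 h5k E0 E0' a1 a2 a3 a1' a2' a3' c4 c6 s
      a4 a6 a4' a6' hΔ0 hΔ0'

end Fermat.Agent.S52.TopFamily
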