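/-
S52 — the frozen statement from `Plan.Star` alone.  Owner: helper66.

* `bez`: `tN`, `tM` (helper52's `Defs`) have no common zero unless `c (c² - 11 c - 1) = 0`,
  over any field in which `2, 3, 5 ≠ 0` (from the pencil identity `Ident.pencil` at `± √5` in
  the algebraic closure);
* `familyData_of_star`: helper50's `FiveGlue.FamilyData` for the `Defs` family, from `Plan.Star`;
* `result_of_star`: the frozen S52 statement from `Plan.Star` (via helper38's
  `TopFamily.result_of_familyData` and helper11's `IrrAlpha.hnr_fam`).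
-/
import Mathlib
import Fermat.Agent.S52.TopFamily
import Fermat.Agent.S52.Ident
import Fermat.Agent.S52.IrrAlpha

set_option autoImplicit false

open Polynomial WeierstrassCurve

namespace Fermat.Agent.S52.OfStar

section Maps

variable {R S : Type*} [CommRing R] [CommRing S]

theorem map_tN (f : R →+* S) (c s : R) : f (tN c s) = tN (f c) (f s) := by
  simp only [tN, map_add, map_sub, map_mul, map_pow, map_neg, map_ofNat]

theorem map_tM (f : R →+* S) (c s : R) : f (tM c s) = tM (f c) (f s) := by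
  simp only [tM, map_add, map_sub, map_mul, map_pow, map_ofNat, map_one]

end Maps

/-- `tN` and `tM` have no common zero unless `c (c² - 11 c - 1) = 0` — over an algebraically
closed field. -/
theorem bez_algClosed (K : Type*) [Field K] [IsAlgClosed K] (h2 : (2 : K) ≠ 0)
    (h3 : (3 : K) ≠ 0) (h5 : (5 : K) ≠ 0) (c s : K) (hN : tN c s = 0) (hM : tM c s = 0) :
    c * (c ^ 2 - 11 * c - 1) = 0 := by
  obtain ⟨r, hr⟩ : ∃ r : K, r ^ 2 = 5 := IsAlgClosed.exists_pow_nat_eq (5 : K) (by norm_num)
  have hr0 : r ≠ 0 := by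
    rintro rfl
    apply h5
    rw [← hr]
    ring
  have p1 := pencil c s r hr
  have p2 := pencil c s (-r) (by rw [neg_sq, hr])
  rw [hN, hM] at p1 p2
  have q1 : (2 * c - 11 - 5 * r) * (1 + (c ^ 2 + 6 * r * c + 1) * s) ^ 5 = 0 := by
    rw [← p1]; ring
  have q2 : (2 * c - 11 - 5 * -r) * (1 + (c ^ 2 + 6 * -r * c + 1) * s) ^ 5 = 0 := by
    rw [← p2]; ring
  have h4 : (4 : K) ≠ 0 := by
    have : (4 : K) = 2 * 2 := by norm_num
    rw [this]
    exact mul_ne_zero h2 h2
  have h12 : (12 : K) ≠ 0 := by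
    have : (12 : K) = 2 * 2 * 3 := by norm_num
    rw [this]
    exact mul_ne_zero (mul_ne_zero h2 h2) h3
  -- the quadratic factor vanishes as soon as one of the two constants does
  have quad : ∀ t : K, t ^ 2 = 5 → 2 * c - 11 - 5 * t = 0 → c * (c ^ 2 - 11 * c - 1) = 0 := by
    intro t ht h0
    have e : (4 : K) * (c ^ 2 - 11 * c - 1) = 0 := by
      linear_combination (2 * c - 11 + 5 * t) * h0 + 25 * ht
    rcases mul_eq_zero.mp e with e4 | e'
    · exact absurd e4 h4
    · rw [e', mul_zero]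
  rcases mul_eq_zero.mp q1 with a1 | a1
  · exact quad r hr a1
  · rcases mul_eq_zero.mp q2 with a2 | a2
    · exact quad (-r) (by rw [neg_sq, hr]) a2
    · have l1 : 1 + (c ^ 2 + 6 * r * c + 1) * s = 0 := pow_eq_zero_iff (by norm_num) |>.mp a1
      have l2 : 1 + (c ^ 2 + 6 * -r * c + 1) * s = 0 := pow_eq_zero_iff (by norm_num) |>.mp a2
      have e : 12 * r * (c * s) = 0 := by linear_combination l1 - l2
      have hs : s ≠ 0 := by
        rintro rfl
        simp at l1
      have hcs : c * s = 0 := by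
        rcases mul_eq_zero.mp e with e1 | e1
        · exact absurd e1 (mul_ne_zero h12 hr0)
        · exact e1
      have hc : c = 0 := by
        rcases mul_eq_zero.mp hcs with e1 | e1
        · exact e1
        · exact absurd e1 hs
      rw [hc, zero_mul]

/-- **(R2)** `tN` and `tM` have no common zero unless `c (c² - 11 c - 1) = 0` (any field with
`2, 3, 5 ≠ 0`); the `bez` hypothesis of `TopFamily.result_of_familyData`, verbatim. -/
theorem bez : ∀ (k : Type) [Field k], (2 : k) ≠ 0 → (3 : k) ≠ 0 → (5 : k) ≠ 0 → ∀ c s : k,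
    tN c s = 0 → tM c s = 0 → c * (c ^ 2 - 11 * c - 1) = 0 := by
  intro k _ h2 h3 h5 c s hN hM
  let ι : k →+* AlgebraicClosure k := algebraMap k (AlgebraicClosure k)
  have hι : Function.Injective ι := (algebraMap k (AlgebraicClosure k)).injective
  have hne : ∀ n : ℕ, ((n : ℕ) : k) ≠ 0 → ((n : ℕ) : AlgebraicClosure k) ≠ 0 := by
    intro n hn h0
    apply hn
    apply hι
    rw [map_natCast, map_zero]
    exact h0
  have h2' : (2 : AlgebraicClosure k) ≠ 0 := by exact_mod_cast hne 2 (by exact_mod_cast h2)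
  have h3' : (3 : AlgebraicClosure k) ≠ 0 := by exact_mod_cast hne 3 (by exact_mod_cast h3)
  have h5' : (5 : AlgebraicClosure k) ≠ 0 := by exact_mod_cast hne 5 (by exact_mod_cast h5)
  have hN' : tN (ι c) (ι s) = 0 := by rw [← map_tN, hN, map_zero]
  have hM' : tM (ι c) (ι s) = 0 := by rw [← map_tM, hM, map_zero]
  have key := bez_algClosed (AlgebraicClosure k) h2' h3' h5' (ι c) (ι s) hN' hM'
  apply hι
  rw [map_zero, map_mul, map_sub, map_sub, map_pow, map_mul, map_ofNat, map_one]
  exact key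

/-- **(R1)** helper50's `FamilyData` for helper52's `Defs` family, from `Plan.Star`. -/
theorem familyData_of_star (hStar : Plan.Star) :
    FiveGlue.FamilyData (fun _ _ a b s => fam4 a b s) (fun _ _ a b s => fam6 a b s)
      (fun _ _ c s => tN c s) (fun _ _ c s => tM c s) where
  nat4 := fun _ _ _ _ φ a b s => IrrAlpha.map_fam4 φ a b s
  nat6 := fun _ _ _ _ φ a b s => IrrAlpha.map_fam6 φ a b s
  natN := fun _ _ _ _ φ c s => map_tN φ c s
  natM := fun _ _ _ _ φ c s => map_tM φ c s
  hom4 := fun _ _ u a b s => fam4_homog u a b s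
  hom6 := fun _ _ u a b s => fam6_homog u a b s
  star4 := fun R _ c s => (hStar R c s).1
  star6 := fun R _ c s => (hStar R c s).2
  zero4 := fun _ _ a b => fam4_zero a b
  zero6 := fun _ _ a b => fam6_zero a b
  N0 := fun _ _ c => tN_zero c
  M0 := fun _ _ c => tM_zero c

/-- **The frozen S52 statement from `Plan.Star`.** -/
theorem result_of_star (hStar : Plan.Star) (W : WeierstrassCurve ℤ) (hΔ : W.Δ ≠ 0)
    (hW : W.IsSemistableModel) (h5 : W.ModRepIsIrreducible 5) :
    ∃ W' : WeierstrassCurve ℤ, W'.Δ ≠ 0 ∧ W'.IsSemistableModel ∧ W'.ModRepIsIrreducible 3 ∧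
      ∀ ℓ : ℕ, ℓ.Prime → W.IsGoodPrimeFor ℓ → W'.IsGoodPrimeFor ℓ → ℓ ≠ 5 →
        (5 : ℤ) ∣ (W'.apOfModel ℓ - W.apOfModel ℓ) :=
  TopFamily.result_of_familyData _ _ _ _ (familyData_of_star hStar)
    (fun k _ h2 h3 h5 c s hN hM => bez k h2 h3 h5 c s hN hM)
    (fun c4 c6 h => IrrAlpha.hnr_fam hStar c4 c6 h) W hΔ hW h5

end Fermat.Agent.S52.OfStar
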