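import Fermat.Agent.S52.Plan
import Fermat.Agent.Lib.PolyRefl

/-!
# S52 [STAR]: the Tate presentation of the family, by kernel reflection

`theorem star : Plan.Star`, i.e. for every commutative ring `R` and `c s : R`

* `fam4 (tc4 c 1) (tc6 c 1) s = tc4 (tN c s) (tM c s)` (515 monomials in `(c, s)`),
* `fam6 (tc4 c 1) (tc6 c 1) s = tc6 (tN c s) (tM c s)` (1131 monomials).

Instead of one huge `ring` normalisation the two sides are evaluated as integer coefficient tables
(`Fermat.Agent.Lib.PolyRefl`) by the kernel (`decide +kernel`); only the four small bridges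
`fam4 a b s = ev3 fam4data a b s`, `tN c s = ev2 tNdata c s`, … use `ring`.
-/

set_option autoImplicit false

namespace Fermat.Agent.S52.Star

open Fermat.Agent.Lib.PolyRefl

/-- the monomials `z * c4^i * c6^j * s^k` of `fam4`, as `(z, i, j, k)`. -/
def fam4data : List (ℤ × ℕ × ℕ × ℕ) :=
   [(1, 1, 0, 0),
    (-20, 0, 1, 1),
    (190, 2, 0, 2),
    (-1140, 1, 1, 3),
    (5700, 0, 2, 4),
    (-855, 3, 0, 4),
    (-15504, 2, 1, 5),
    (-63840, 1, 2, 6),
    (102600, 4, 0, 6),
    (182400, 0, 3, 7),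
    (-259920, 3, 1, 7),
    (1126320, 2, 2, 8),
    (-1000350, 5, 0, 8),
    (-7904000, 1, 3, 9),
    (7736040, 4, 1, 9),
    (15808000, 0, 4, 10),
    (-5619744, 3, 2, 10),
    (-10003500, 6, 0, 10),
    (-54853760, 2, 3, 11),
    (54685800, 5, 1, 11),
    (37939200, 1, 4, 12),
    (7202520, 4, 2, 12),
    (-45015750, 7, 0, 12),
    (-58368000, 0, 5, 13),
    (23201280, 3, 3, 13),
    (35089200, 6, 1, 13),
    (287462400, 2, 4, 14),
    (-495188640, 5, 2, 14),
    (207765000, 8, 0, 14),
    (-466944000, 1, 5, 15),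
    (882458496, 4, 3, 15),
    (-415530000, 7, 1, 15),
    (583680000, 0, 6, 16),
    (-1220474880, 3, 4, 16),
    (714711600, 6, 2, 16),
    (-77911875, 9, 0, 16),
    (-361881600, 2, 5, 17),
    (715080960, 5, 3, 17),
    (-353200500, 8, 1, 17),
    (-622592000, 1, 6, 18),
    (2026391040, 4, 4, 18),
    (-2182917600, 7, 2, 18),
    (779118750, 10, 0, 18),
    (655360000, 0, 7, 19),
    (-2005401600, 3, 5, 19),
    (2044414080, 6, 3, 19),
    (-694372500, 9, 1, 19),
    (-180224000, 2, 6, 20),
    (544997376, 5, 4, 20),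
    (-549301500, 8, 2, 20),
    (184528125, 11, 0, 20)]

/-- the monomials `z * c4^i * c6^j * s^k` of `fam6`, as `(z, i, j, k)`. -/
def fam6data : List (ℤ × ℕ × ℕ × ℕ) :=
   [(1, 0, 1, 0),
    (-30, 2, 0, 1),
    (435, 1, 1, 2),
    (-2900, 0, 2, 3),
    (-1160, 3, 0, 3),
    (27405, 2, 1, 4),
    (-46980, 1, 2, 5),
    (-95526, 4, 0, 5),
    (156600, 0, 3, 6),
    (437175, 3, 1, 6),
    (-3915000, 2, 2, 7),
    (1879200, 5, 0, 7),
    (14407200, 1, 3, 8),
    (-8554275, 4, 1, 8),
    (-32016000, 0, 4, 9),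
    (42021000, 3, 2, 9),
    (-24312150, 6, 0, 9),
    (-216588240, 2, 3, 10),
    (246633255, 5, 1, 10),
    (1459929600, 1, 4, 11),
    (-1352475900, 4, 2, 11),
    (-162081000, 7, 0, 11),
    (-2433216000, 0, 5, 12),
    (-1612005600, 3, 3, 12),
    (4131714825, 6, 1, 12),
    (12044419200, 2, 4, 13),
    (-5235216300, 5, 2, 13),
    (-6928962750, 8, 0, 13),
    (-43045111800, 4, 3, 14),
    (43190534475, 7, 1, 14),
    (79420170240, 3, 4, 15),
    (-79575287760, 6, 2, 15),
    (-297825638400, 2, 5, 16),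
    (474659611200, 5, 3, 16),
    (-176688550125, 8, 1, 16),
    (700766208000, 1, 6, 17),
    (-935084908800, 4, 4, 17),
    (-77604382800, 7, 2, 17),
    (311803323750, 10, 0, 17),
    (-778629120000, 0, 7, 18),
    (-303665356800, 3, 5, 18),
    (2776512362400, 6, 3, 18),
    (-1694131392375, 9, 1, 18),
    (4290656256000, 2, 6, 19),
    (-8100765158400, 5, 4, 19),
    (3481840250100, 8, 2, 19),
    (328214025000, 11, 0, 19),
    (-3442360320000, 1, 7, 20),
    (3892110842880, 4, 5, 20),
    (2424887357760, 7, 3, 20),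
    (-2874607835625, 10, 1, 20),
    (3278438400000, 0, 8, 21),
    (-5125838438400, 3, 6, 21),
    (2709129888000, 6, 4, 21),
    (-3077188825500, 9, 2, 21),
    (2215444668750, 12, 0, 21),
    (-4573421568000, 2, 7, 22),
    (7701051801600, 5, 5, 22),
    (-1724509423800, 8, 3, 22),
    (-1403114956875, 11, 1, 22),
    (-6157762560000, 1, 8, 23),
    (30337884979200, 4, 6, 23),
    (-49888700928000, 7, 4, 23),
    (33414470973000, 10, 2, 23),
    (-7705894500000, 13, 0, 23),
    (5131468800000, 0, 9, 24),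
    (-22779445248000, 3, 7, 24),
    (35246094796800, 6, 5, 24),
    (-22687218914400, 9, 3, 24),
    (5089101159375, 12, 1, 24),
    (18216714240000, 2, 8, 25),
    (-71274600677376, 5, 6, 25),
    (105528606261120, 8, 4, 25),
    (-70097953635000, 11, 2, 25),
    (17627233668750, 14, 0, 25),
    (-41051750400000, 1, 9, 26),
    (163803539865600, 4, 7, 26),
    (-245438120632320, 7, 5, 26),
    (163672057566000, 10, 3, 26),
    (-40985726371875, 13, 1, 26),
    (30408704000000, 0, 10, 27),
    (-111934439424000, 3, 8, 27),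
    (143803576074240, 6, 6, 27),
    (-63806176396800, 9, 4, 27),
    (-8104032382500, 12, 2, 27),
    (9632368125000, 15, 0, 27),
    (-21438136320000, 2, 9, 28),
    (85731449241600, 5, 7, 28),
    (-128580522647040, 8, 5, 28),
    (85719228804000, 11, 3, 28),
    (-21432019078125, 14, 1, 28),
    (-5033164800000, 1, 10, 29),
    (31344427008000, 4, 8, 29),
    (-75042714746880, 7, 6, 29),
    (87394892457600, 10, 4, 29),
    (-49873523512500, 13, 2, 29),
    (11210083593750, 16, 0, 29),
    (3355443200000, 0, 11, 30),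
    (-17532190720000, 3, 9, 30),
    (36574189977600, 6, 7, 30),
    (-38083944628224, 9, 5, 30),
    (19796866155000, 12, 3, 30),
    (-4110363984375, 15, 1, 30)]

/-- the coefficient table of `tN` (row `k` = coefficients in `c` of the coefficient of `s^k`). -/
def tNdata : List (List ℤ) :=
   [[0, 1],
    [0, -7, -66, 5],
    [0, -38, -264, 1772, -264, 10],
    [0, -62, -396, 966, -24552, 5358, -396, 10],
    [0, -43, -264, -3364, -48312, 164046, -48312, 5372, -264, 5],
    [0, -11, -66, -2563, -24024, 80938, -475596, 163042, -24024, 1793, -66, 1]]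

/-- the coefficient table of `tM`. -/
def tMdata : List (List ℤ) :=
   [[1],
    [5, 66, -7],
    [10, 264, 1772, 264, -38],
    [10, 396, 5358, 24552, 966, 396, -62],
    [5, 264, 5372, 48312, 164046, 48312, -3364, 264, -43],
    [1, 66, 1793, 24024, 163042, 475596, 80938, 24024, -2563, 66, -11]]

/-- coefficients of `tc4 c 1`. -/
def T4data : List ℤ := [1, 12, 14, -12, 1]

/-- coefficients of `tc6 c 1`. -/
def T6data : List ℤ := [-1, -18, -75, 0, -75, 18, -1]

section bridge

variable {R : Type*} [CommRing R]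

theorem fam4_eq (a b s : R) : fam4 a b s = ev3 fam4data a b s := by
  simp only [fam4, fam4data, ev3_cons, ev3_nil]
  push_cast
  ring

theorem fam6_eq (a b s : R) : fam6 a b s = ev3 fam6data a b s := by
  simp only [fam6, fam6data, ev3_cons, ev3_nil]
  push_cast
  ring

theorem tN_eq (c s : R) : tN c s = ev2 tNdata c s := by
  simp only [tN, tNdata, ev2_cons, ev2_nil, ev1_cons, ev1_nil]
  push_cast
  ring

theorem tM_eq (c s : R) : tM c s = ev2 tMdata c s := by
  simp only [tM, tMdata, ev2_cons, ev2_nil, ev1_cons, ev1_nil]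
  push_cast
  ring

theorem tc4_one_eq (c : R) : tc4 c 1 = ev1 T4data c := by
  simp only [tc4, T4data, ev1_cons, ev1_nil]
  push_cast
  ring

theorem tc6_one_eq (c : R) : tc6 c 1 = ev1 T6data c := by
  simp only [tc6, T6data, ev1_cons, ev1_nil]
  push_cast
  ring

end bridge

/-- `tc4` on coefficient tables, from `N² , M², NM`:
`tc4 N M = N²(N² - 12NM + 14M²) + M²(12NM + M²)`. -/
def t4core (N2 M2 NM : List (List ℤ)) : List (List ℤ) :=
  add2 (mul2 N2 (add2 N2 (add2 (zsmul2 (-12) NM) (zsmul2 14 M2))))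
    (mul2 M2 (add2 (zsmul2 12 NM) M2))

/-- `tc4` on coefficient tables. -/
def t4L (N M : List (List ℤ)) : List (List ℤ) := t4core (mul2 N N) (mul2 M M) (mul2 N M)

/-- `tc6` on coefficient tables, from `N², M², NM`:
`tc6 N M = -(N⁴(N² - 18NM + 75M²) + M⁴(75N² + 18NM + M²))`. -/
def t6core (N2 M2 NM : List (List ℤ)) : List (List ℤ) :=
  zsmul2 (-1) (add2 (mul2 (mul2 N2 N2) (add2 N2 (add2 (zsmul2 (-18) NM) (zsmul2 75 M2))))
    (mul2 (mul2 M2 M2) (add2 (zsmul2 75 N2) (add2 (zsmul2 18 NM) M2))))

/-- `tc6` on coefficient tables. -/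
def t6L (N M : List (List ℤ)) : List (List ℤ) := t6core (mul2 N N) (mul2 M M) (mul2 N M)

theorem ev2_t4L {R : Type*} [CommRing R] (N M : List (List ℤ)) (c s : R) :
    ev2 (t4L N M) c s = tc4 (ev2 N c s) (ev2 M c s) := by
  simp only [t4L, t4core, ev2_add2, ev2_mul2, ev2_zsmul2, tc4]
  push_cast
  ring

theorem ev2_t6L {R : Type*} [CommRing R] (N M : List (List ℤ)) (c s : R) :
    ev2 (t6L N M) c s = tc6 (ev2 N c s) (ev2 M c s) := by
  simp only [t6L, t6core, ev2_add2, ev2_mul2, ev2_zsmul2, tc6]
  push_cast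
  ring

/-- The coefficient tables of the two sides of the first [STAR] identity agree (kernel
computation). -/
theorem star4_data :
    isZero2 (sub2 (subst3 fam4data T4data T6data) (t4L tNdata tMdata)) = true := by
  decide +kernel

/-- The coefficient tables of the two sides of the second [STAR] identity agree (kernel
computation). -/
theorem star6_data :
    isZero2 (sub2 (subst3 fam6data T4data T6data) (t6L tNdata tMdata)) = true := by
  decide +kernel

/-- The first [STAR] identity. -/
theorem star4 {R : Type*} [CommRing R] (c s : R) :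
    fam4 (tc4 c 1) (tc6 c 1) s = tc4 (tN c s) (tM c s) := by
  rw [fam4_eq, tc4_one_eq, tc6_one_eq, ← ev2_subst3, ev2_eq_of_isZero2 star4_data, ev2_t4L,
    ← tN_eq, ← tM_eq]

/-- The second [STAR] identity. -/
theorem star6 {R : Type*} [CommRing R] (c s : R) :
    fam6 (tc4 c 1) (tc6 c 1) s = tc6 (tN c s) (tM c s) := by
  rw [fam6_eq, tc4_one_eq, tc6_one_eq, ← ev2_subst3, ev2_eq_of_isZero2 star6_data, ev2_t6L,
    ← tN_eq, ← tM_eq]

/-- **[STAR]** the Tate presentation of the family. -/
theorem star : Plan.Star := fun _ _ c s => ⟨star4 c s, star6 c s⟩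

end Fermat.Agent.S52.Star
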