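import Mathlib
import Fermat.Prelude.Def_FLTPrelim_Modularity

/-!
# S52 (3-5 switch): explicit data

* `fam4`, `fam6`: the `c`-invariants of the members of the family of elliptic curves 5-congruent
  to the curve with invariants `(c4, c6)` (parameter `s`; `s = 0` is the curve itself).
* `tc4`, `tc6`: the `c`-invariants of Tate's normal form `y² + (1-c)xy - cy = x³ - cx²`
  (on which `(0,0)` has order 5), made homogeneous in `c = n/m`.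
* `tN`, `tM`: the Tate presentation of the family: `fam4 (tc4 c 1) (tc6 c 1) s = tc4 (tN c s) (tM c s)`
  and similarly for `fam6`.
-/

set_option autoImplicit false

namespace Fermat.Agent.S52

/-- `c₄` of the member with parameter `s` of the 5-congruent family attached to `(c4, c6)`. -/
def fam4 {R : Type*} [CommRing R] (c4 c6 s : R) : R :=
  c4
  + (-20 * c6) * s
  + (190 * c4 ^ 2) * s ^ 2
  + (-1140 * c4 * c6) * s ^ 3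
  + (5700 * c6 ^ 2 - 855 * c4 ^ 3) * s ^ 4
  + (-15504 * c4 ^ 2 * c6) * s ^ 5
  + (-63840 * c4 * c6 ^ 2 + 102600 * c4 ^ 4) * s ^ 6
  + (182400 * c6 ^ 3 - 259920 * c4 ^ 3 * c6) * s ^ 7
  + (1126320 * c4 ^ 2 * c6 ^ 2 - 1000350 * c4 ^ 5) * s ^ 8
  + (-7904000 * c4 * c6 ^ 3 + 7736040 * c4 ^ 4 * c6) * s ^ 9
  + (15808000 * c6 ^ 4 - 5619744 * c4 ^ 3 * c6 ^ 2 - 10003500 * c4 ^ 6) * s ^ 10
  + (-54853760 * c4 ^ 2 * c6 ^ 3 + 54685800 * c4 ^ 5 * c6) * s ^ 11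
  + (37939200 * c4 * c6 ^ 4 + 7202520 * c4 ^ 4 * c6 ^ 2 - 45015750 * c4 ^ 7) * s ^ 12
  + (-58368000 * c6 ^ 5 + 23201280 * c4 ^ 3 * c6 ^ 3 + 35089200 * c4 ^ 6 * c6) * s ^ 13
  + (287462400 * c4 ^ 2 * c6 ^ 4 - 495188640 * c4 ^ 5 * c6 ^ 2 + 207765000 * c4 ^ 8) * s ^ 14
  + (-466944000 * c4 * c6 ^ 5 + 882458496 * c4 ^ 4 * c6 ^ 3 - 415530000 * c4 ^ 7 * c6) * s ^ 15
  + (583680000 * c6 ^ 6 - 1220474880 * c4 ^ 3 * c6 ^ 4 + 714711600 * c4 ^ 6 * c6 ^ 2 - 77911875 * c4 ^ 9) * s ^ 16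
  + (-361881600 * c4 ^ 2 * c6 ^ 5 + 715080960 * c4 ^ 5 * c6 ^ 3 - 353200500 * c4 ^ 8 * c6) * s ^ 17
  + (-622592000 * c4 * c6 ^ 6 + 2026391040 * c4 ^ 4 * c6 ^ 4 - 2182917600 * c4 ^ 7 * c6 ^ 2 + 779118750 * c4 ^ 10) * s ^ 18
  + (655360000 * c6 ^ 7 - 2005401600 * c4 ^ 3 * c6 ^ 5 + 2044414080 * c4 ^ 6 * c6 ^ 3 - 694372500 * c4 ^ 9 * c6) * s ^ 19
  + (-180224000 * c4 ^ 2 * c6 ^ 6 + 544997376 * c4 ^ 5 * c6 ^ 4 - 549301500 * c4 ^ 8 * c6 ^ 2 + 184528125 * c4 ^ 11) * s ^ 20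

/-- `c₆` of the member with parameter `s` of the 5-congruent family attached to `(c4, c6)`. -/
def fam6 {R : Type*} [CommRing R] (c4 c6 s : R) : R :=
  c6
  + (-30 * c4 ^ 2) * s
  + (435 * c4 * c6) * s ^ 2
  + (-2900 * c6 ^ 2 - 1160 * c4 ^ 3) * s ^ 3
  + (27405 * c4 ^ 2 * c6) * s ^ 4
  + (-46980 * c4 * c6 ^ 2 - 95526 * c4 ^ 4) * s ^ 5
  + (156600 * c6 ^ 3 + 437175 * c4 ^ 3 * c6) * s ^ 6
  + (-3915000 * c4 ^ 2 * c6 ^ 2 + 1879200 * c4 ^ 5) * s ^ 7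
  + (14407200 * c4 * c6 ^ 3 - 8554275 * c4 ^ 4 * c6) * s ^ 8
  + (-32016000 * c6 ^ 4 + 42021000 * c4 ^ 3 * c6 ^ 2 - 24312150 * c4 ^ 6) * s ^ 9
  + (-216588240 * c4 ^ 2 * c6 ^ 3 + 246633255 * c4 ^ 5 * c6) * s ^ 10
  + (1459929600 * c4 * c6 ^ 4 - 1352475900 * c4 ^ 4 * c6 ^ 2 - 162081000 * c4 ^ 7) * s ^ 11
  + (-2433216000 * c6 ^ 5 - 1612005600 * c4 ^ 3 * c6 ^ 3 + 4131714825 * c4 ^ 6 * c6) * s ^ 12
  + (12044419200 * c4 ^ 2 * c6 ^ 4 - 5235216300 * c4 ^ 5 * c6 ^ 2 - 6928962750 * c4 ^ 8) * s ^ 13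
  + (-43045111800 * c4 ^ 4 * c6 ^ 3 + 43190534475 * c4 ^ 7 * c6) * s ^ 14
  + (79420170240 * c4 ^ 3 * c6 ^ 4 - 79575287760 * c4 ^ 6 * c6 ^ 2) * s ^ 15
  + (-297825638400 * c4 ^ 2 * c6 ^ 5 + 474659611200 * c4 ^ 5 * c6 ^ 3 - 176688550125 * c4 ^ 8 * c6) * s ^ 16
  + (700766208000 * c4 * c6 ^ 6 - 935084908800 * c4 ^ 4 * c6 ^ 4 - 77604382800 * c4 ^ 7 * c6 ^ 2 + 311803323750 * c4 ^ 10) * s ^ 17
  + (-778629120000 * c6 ^ 7 - 303665356800 * c4 ^ 3 * c6 ^ 5 + 2776512362400 * c4 ^ 6 * c6 ^ 3 - 1694131392375 * c4 ^ 9 * c6) * s ^ 18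
  + (4290656256000 * c4 ^ 2 * c6 ^ 6 - 8100765158400 * c4 ^ 5 * c6 ^ 4 + 3481840250100 * c4 ^ 8 * c6 ^ 2 + 328214025000 * c4 ^ 11) * s ^ 19
  + (-3442360320000 * c4 * c6 ^ 7 + 3892110842880 * c4 ^ 4 * c6 ^ 5 + 2424887357760 * c4 ^ 7 * c6 ^ 3 - 2874607835625 * c4 ^ 10 * c6) * s ^ 20
  + (3278438400000 * c6 ^ 8 - 5125838438400 * c4 ^ 3 * c6 ^ 6 + 2709129888000 * c4 ^ 6 * c6 ^ 4 - 3077188825500 * c4 ^ 9 * c6 ^ 2 + 2215444668750 * c4 ^ 12) * s ^ 21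
  + (-4573421568000 * c4 ^ 2 * c6 ^ 7 + 7701051801600 * c4 ^ 5 * c6 ^ 5 - 1724509423800 * c4 ^ 8 * c6 ^ 3 - 1403114956875 * c4 ^ 11 * c6) * s ^ 22
  + (-6157762560000 * c4 * c6 ^ 8 + 30337884979200 * c4 ^ 4 * c6 ^ 6 - 49888700928000 * c4 ^ 7 * c6 ^ 4 + 33414470973000 * c4 ^ 10 * c6 ^ 2 - 7705894500000 * c4 ^ 13) * s ^ 23
  + (5131468800000 * c6 ^ 9 - 22779445248000 * c4 ^ 3 * c6 ^ 7 + 35246094796800 * c4 ^ 6 * c6 ^ 5 - 22687218914400 * c4 ^ 9 * c6 ^ 3 + 5089101159375 * c4 ^ 12 * c6) * s ^ 24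
  + (18216714240000 * c4 ^ 2 * c6 ^ 8 - 71274600677376 * c4 ^ 5 * c6 ^ 6 + 105528606261120 * c4 ^ 8 * c6 ^ 4 - 70097953635000 * c4 ^ 11 * c6 ^ 2 + 17627233668750 * c4 ^ 14) * s ^ 25
  + (-41051750400000 * c4 * c6 ^ 9 + 163803539865600 * c4 ^ 4 * c6 ^ 7 - 245438120632320 * c4 ^ 7 * c6 ^ 5 + 163672057566000 * c4 ^ 10 * c6 ^ 3 - 40985726371875 * c4 ^ 13 * c6) * s ^ 26
  + (30408704000000 * c6 ^ 10 - 111934439424000 * c4 ^ 3 * c6 ^ 8 + 143803576074240 * c4 ^ 6 * c6 ^ 6 - 63806176396800 * c4 ^ 9 * c6 ^ 4 - 8104032382500 * c4 ^ 12 * c6 ^ 2 + 9632368125000 * c4 ^ 15) * s ^ 27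
  + (-21438136320000 * c4 ^ 2 * c6 ^ 9 + 85731449241600 * c4 ^ 5 * c6 ^ 7 - 128580522647040 * c4 ^ 8 * c6 ^ 5 + 85719228804000 * c4 ^ 11 * c6 ^ 3 - 21432019078125 * c4 ^ 14 * c6) * s ^ 28
  + (-5033164800000 * c4 * c6 ^ 10 + 31344427008000 * c4 ^ 4 * c6 ^ 8 - 75042714746880 * c4 ^ 7 * c6 ^ 6 + 87394892457600 * c4 ^ 10 * c6 ^ 4 - 49873523512500 * c4 ^ 13 * c6 ^ 2 + 11210083593750 * c4 ^ 16) * s ^ 29
  + (3355443200000 * c6 ^ 11 - 17532190720000 * c4 ^ 3 * c6 ^ 9 + 36574189977600 * c4 ^ 6 * c6 ^ 7 - 38083944628224 * c4 ^ 9 * c6 ^ 5 + 19796866155000 * c4 ^ 12 * c6 ^ 3 - 4110363984375 * c4 ^ 15 * c6) * s ^ 30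

/-- The cusp form of the family: `fam4 ^ 3 - fam6 ^ 2 = (c4 ^ 3 - c6 ^ 2) * famF ^ 5`. -/
def famF {R : Type*} [CommRing R] (c4 c6 s : R) : R :=
  1
  + (-66 * c4) * s ^ 2
  + (440 * c6) * s ^ 3
  + (-1485 * c4 ^ 2) * s ^ 4
  + (3168 * c4 * c6) * s ^ 5
  + (-10560 * c6 ^ 2 + 5940 * c4 ^ 3) * s ^ 6
  + (4752 * c4 ^ 2 * c6) * s ^ 7
  + (63360 * c4 * c6 ^ 2 - 66825 * c4 ^ 4) * s ^ 8
  + (-140800 * c6 ^ 3 + 142560 * c4 ^ 3 * c6) * s ^ 9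
  + (133056 * c4 ^ 2 * c6 ^ 2 - 133650 * c4 ^ 5) * s ^ 10
  + (-61440 * c4 * c6 ^ 3 + 61560 * c4 ^ 4 * c6) * s ^ 11
  + (102400 * c6 ^ 4 - 193536 * c4 ^ 3 * c6 ^ 2 + 91125 * c4 ^ 6) * s ^ 12

/-- Numerator of the Tate parameter of the family member `s`, seen from a 5-torsion point with Tate parameter `c`. -/
def tN {R : Type*} [CommRing R] (c s : R) : R :=
  c
  + (-7 * c - 66 * c ^ 2 + 5 * c ^ 3) * s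
  + (-38 * c - 264 * c ^ 2 + 1772 * c ^ 3 - 264 * c ^ 4 + 10 * c ^ 5) * s ^ 2
  + (-62 * c - 396 * c ^ 2 + 966 * c ^ 3 - 24552 * c ^ 4 + 5358 * c ^ 5 - 396 * c ^ 6 + 10 * c ^ 7) * s ^ 3
  + (-43 * c - 264 * c ^ 2 - 3364 * c ^ 3 - 48312 * c ^ 4 + 164046 * c ^ 5 - 48312 * c ^ 6 + 5372 * c ^ 7 - 264 * c ^ 8 + 5 * c ^ 9) * s ^ 4
  + (-11 * c - 66 * c ^ 2 - 2563 * c ^ 3 - 24024 * c ^ 4 + 80938 * c ^ 5 - 475596 * c ^ 6 + 163042 * c ^ 7 - 24024 * c ^ 8 + 1793 * c ^ 9 - 66 * c ^ 10 + c ^ 11) * s ^ 5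

/-- Denominator of the Tate parameter of the family member `s`. -/
def tM {R : Type*} [CommRing R] (c s : R) : R :=
  1
  + (5 + 66 * c - 7 * c ^ 2) * s
  + (10 + 264 * c + 1772 * c ^ 2 + 264 * c ^ 3 - 38 * c ^ 4) * s ^ 2
  + (10 + 396 * c + 5358 * c ^ 2 + 24552 * c ^ 3 + 966 * c ^ 4 + 396 * c ^ 5 - 62 * c ^ 6) * s ^ 3
  + (5 + 264 * c + 5372 * c ^ 2 + 48312 * c ^ 3 + 164046 * c ^ 4 + 48312 * c ^ 5 - 3364 * c ^ 6 + 264 * c ^ 7 - 43 * c ^ 8) * s ^ 4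
  + (1 + 66 * c + 1793 * c ^ 2 + 24024 * c ^ 3 + 163042 * c ^ 4 + 475596 * c ^ 5 + 80938 * c ^ 6 + 24024 * c ^ 7 - 2563 * c ^ 8 + 66 * c ^ 9 - 11 * c ^ 10) * s ^ 5

/-- `c₄` of Tate's normal form with parameter `n / m`, homogeneous of degree 4. -/
def tc4 {R : Type*} [CommRing R] (n m : R) : R :=
  n ^ 4 - 12 * n ^ 3 * m + 14 * n ^ 2 * m ^ 2 + 12 * n * m ^ 3 + m ^ 4

/-- `c₆` of Tate's normal form with parameter `n / m`, homogeneous of degree 6. -/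
def tc6 {R : Type*} [CommRing R] (n m : R) : R :=
  -(n ^ 6 - 18 * n ^ 5 * m + 75 * n ^ 4 * m ^ 2 + 75 * n ^ 2 * m ^ 4 + 18 * n * m ^ 5 + m ^ 6)

/-- The short Weierstrass curve `y² = x³ + a x + b`. -/
def sw {R : Type*} [CommRing R] (a b : R) : WeierstrassCurve R := ⟨0, 0, 0, a, b⟩

/-- The short Weierstrass curve `y² = x³ - 27 c4 x - 54 c6` with `c`-invariants
`(6⁴ c4, 6⁶ c6)`. -/
def swc {R : Type*} [CommRing R] (c4 c6 : R) : WeierstrassCurve R := sw (-27 * c4) (-54 * c6)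

end Fermat.Agent.S52
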