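import Mathlib

/-!
# S52 [IRR-ALPHA], design-neutral core

* `tc4`, `tc6`: the homogeneous `c`-invariants of Tate's normal form
  `y² + (1 - c) x y - c y = x³ - c x²` (a point of order 5 at the origin), `c = n / m`.
* `tc4_pow_three_sub_tc6_sq`: `tc4³ - tc6² = 1728 n⁵ m⁵ (n² - 11 n m - m²)`.
* `psi3_identity`: a root `P` of `3x⁴ + 6Ax² + 12Bx - A²` satisfies
  `16 P² (4A³ + 27B²) = (A + 3P²)³ (3A + P²)`.
* `no_root_core`: over a field of characteristic `≠ 2, 3`, if `A = -27 u⁴ tc4(N, M)` and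
  `B = -54 u⁶ tc6(N, M)` with `N, M ∈ k[T]` coprime of degree `≤ 5`, `N * M` squarefree of degree
  `≥ 5`, then the 3-division polynomial `3x⁴ + 6Ax² + 12Bx - A²` has no root in `k[T]`.
* `exists_tate_param`: over an algebraically closed field of characteristic `≠ 2, 3, 5` every pair
  `(a, b)` with `a³ ≠ b²` is `(u⁴ tc4(c, 1), u⁶ tc6(c, 1))` with `u ≠ 0`, `c ≠ 0`,
  `c² - 11 c - 1 ≠ 0`.
-/

set_option autoImplicit false

namespace Fermat.Agent.S52.IrrAlphaCore

open Polynomial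

section Defs

variable {R : Type*} [CommRing R]

/-- Homogeneous `c₄` of Tate's normal form with parameter `c = n / m`. -/
def tc4 (n m : R) : R := n ^ 4 - 12 * n ^ 3 * m + 14 * n ^ 2 * m ^ 2 + 12 * n * m ^ 3 + m ^ 4

/-- Homogeneous `c₆` of Tate's normal form with parameter `c = n / m`. -/
def tc6 (n m : R) : R :=
  -(n ^ 6 - 18 * n ^ 5 * m + 75 * n ^ 4 * m ^ 2 + 75 * n ^ 2 * m ^ 4 + 18 * n * m ^ 5 + m ^ 6)

/-- The quadratic factor of the discriminant of Tate's normal form. -/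
def tq (n m : R) : R := n ^ 2 - 11 * n * m - m ^ 2

theorem tc4_pow_three_sub_tc6_sq (n m : R) :
    tc4 n m ^ 3 - tc6 n m ^ 2 = 1728 * n ^ 5 * m ^ 5 * tq n m := by
  simp only [tc4, tc6, tq]; ring

theorem psi3_identity (A B P : R) (h : 3 * P ^ 4 + 6 * A * P ^ 2 + 12 * B * P - A ^ 2 = 0) :
    16 * P ^ 2 * (4 * A ^ 3 + 27 * B ^ 2) = (A + 3 * P ^ 2) ^ 3 * (3 * A + P ^ 2) := by
  linear_combination (3 * (12 * B * P + A ^ 2 - 6 * A * P ^ 2 - 3 * P ^ 4)) * h

theorem disc_tate (u n m : R) :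
    4 * (-27 * u ^ 4 * tc4 n m) ^ 3 + 27 * (-54 * u ^ 6 * tc6 n m) ^ 2 =
      -(136048896 * u ^ 12) * (n * m) ^ 5 * tq n m := by
  have h := tc4_pow_three_sub_tc6_sq n m
  linear_combination (-78732 * u ^ 12) * h

theorem map_tc4 {S : Type*} [CommRing S] (f : R →+* S) (n m : R) :
    f (tc4 n m) = tc4 (f n) (f m) := by
  simp [tc4, map_ofNat]

theorem map_tc6 {S : Type*} [CommRing S] (f : R →+* S) (n m : R) :
    f (tc6 n m) = tc6 (f n) (f m) := by
  simp [tc6, map_ofNat]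

end Defs

section Core

variable {k : Type*} [Field k]

private theorem isCoprime_tc4 {N M : k[X]} (h : IsCoprime N M) : IsCoprime (N * M) (tc4 N M) := by
  have h1 : IsCoprime N (tc4 N M) := by
    have : tc4 N M = M ^ 4 + N * (N ^ 3 - 12 * N ^ 2 * M + 14 * N * M ^ 2 + 12 * M ^ 3) := by
      simp only [tc4]; ring
    rw [this]
    exact (h.pow_right (n := 4)).add_mul_left_right _
  have h2 : IsCoprime M (tc4 N M) := by
    have : tc4 N M = N ^ 4 + M * (-12 * N ^ 3 + 14 * N ^ 2 * M + 12 * N * M ^ 2 + M ^ 3) := by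
      simp only [tc4]; ring
    rw [this]
    exact (h.symm.pow_right (n := 4)).add_mul_left_right _
  exact IsCoprime.mul_left h1 h2

private theorem isCoprime_tq {N M : k[X]} (h : IsCoprime N M) : IsCoprime (N * M) (tq N M) := by
  have h1 : IsCoprime N (tq N M) := by
    have : tq N M = -M ^ 2 + N * (N - 11 * M) := by
      simp only [tq]; ring
    rw [this]
    exact ((h.pow_right (n := 2)).neg_right).add_mul_left_right _
  have h2 : IsCoprime M (tq N M) := by
    have : tq N M = N ^ 2 + M * (-11 * N - M) := by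
      simp only [tq]; ring
    rw [this]
    exact (h.symm.pow_right (n := 2)).add_mul_left_right _
  exact IsCoprime.mul_left h1 h2

private theorem natDegree_sub_le_of_le' {p q : k[X]} {n : ℕ} (hp : p.natDegree ≤ n)
    (hq : q.natDegree ≤ n) : (p - q).natDegree ≤ n :=
  (natDegree_sub_le p q).trans (max_le hp hq)

private theorem natDegree_tc4_le {N M : k[X]} (hN : N.natDegree ≤ 5) (hM : M.natDegree ≤ 5) :
    (tc4 N M).natDegree ≤ 20 := by
  have e : tc4 N M = N ^ 4 - C 12 * N ^ 3 * M + C 14 * N ^ 2 * M ^ 2 + C 12 * N * M ^ 3 + M ^ 4 := by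
    simp only [tc4, map_ofNat]
  rw [e]
  have p4 : ∀ {Q : k[X]}, Q.natDegree ≤ 5 → ∀ j : ℕ, (Q ^ j).natDegree ≤ j * 5 :=
    fun h j => natDegree_pow_le_of_le j h
  have c : ∀ a : k, (C a : k[X]).natDegree ≤ 0 := fun a => (natDegree_C a).le
  refine natDegree_add_le_of_degree_le (natDegree_add_le_of_degree_le
    (natDegree_add_le_of_degree_le (natDegree_sub_le_of_le' ?_ ?_) ?_) ?_) ?_
  · exact (p4 hN 4).trans (by norm_num)
  · exact (natDegree_mul_le_of_le (natDegree_mul_le_of_le (c 12) (p4 hN 3)) hM).trans (by norm_num)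
  · exact (natDegree_mul_le_of_le (natDegree_mul_le_of_le (c 14) (p4 hN 2)) (p4 hM 2)).trans
      (by norm_num)
  · exact (natDegree_mul_le_of_le (natDegree_mul_le_of_le (c 12) hN) (p4 hM 3)).trans (by norm_num)
  · exact (p4 hM 4).trans (by norm_num)

private theorem natDegree_tc6_le {N M : k[X]} (hN : N.natDegree ≤ 5) (hM : M.natDegree ≤ 5) :
    (tc6 N M).natDegree ≤ 30 := by
  have e : tc6 N M = -(N ^ 6 - C 18 * N ^ 5 * M + C 75 * N ^ 4 * M ^ 2 + C 75 * N ^ 2 * M ^ 4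
      + C 18 * N * M ^ 5 + M ^ 6) := by
    simp only [tc6, map_ofNat]
  rw [e, natDegree_neg]
  have p4 : ∀ {Q : k[X]}, Q.natDegree ≤ 5 → ∀ j : ℕ, (Q ^ j).natDegree ≤ j * 5 :=
    fun h j => natDegree_pow_le_of_le j h
  have c : ∀ a : k, (C a : k[X]).natDegree ≤ 0 := fun a => (natDegree_C a).le
  refine natDegree_add_le_of_degree_le (natDegree_add_le_of_degree_le
    (natDegree_add_le_of_degree_le (natDegree_add_le_of_degree_le
      (natDegree_sub_le_of_le' ?_ ?_) ?_) ?_) ?_) ?_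
  · exact (p4 hN 6).trans (by norm_num)
  · exact (natDegree_mul_le_of_le (natDegree_mul_le_of_le (c 18) (p4 hN 5)) hM).trans (by norm_num)
  · exact (natDegree_mul_le_of_le (natDegree_mul_le_of_le (c 75) (p4 hN 4)) (p4 hM 2)).trans
      (by norm_num)
  · exact (natDegree_mul_le_of_le (natDegree_mul_le_of_le (c 75) (p4 hN 2)) (p4 hM 4)).trans
      (by norm_num)
  · exact (natDegree_mul_le_of_le (natDegree_mul_le_of_le (c 18) hN) (p4 hM 5)).trans (by norm_num)
  · exact (p4 hM 6).trans (by norm_num)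

/-- **Core of [IRR-ALPHA].**  If `A = -27 u⁴ tc4(N, M)`, `B = -54 u⁶ tc6(N, M)` with `N, M ∈ k[T]`
coprime of degree `≤ 5` and `N * M` squarefree of degree `≥ 5`, then the 3-division polynomial
`3x⁴ + 6Ax² + 12Bx - A²` of `y² = x³ + A x + B` has no root in `k[T]`. -/
theorem no_root_core (h2 : (2 : k) ≠ 0) (h3 : (3 : k) ≠ 0) (N M P : k[X]) (u : k) (hu : u ≠ 0)
    (hcop : IsCoprime N M) (hsq : Squarefree (N * M)) (hdeg : 5 ≤ (N * M).natDegree)
    (hN : N.natDegree ≤ 5) (hM : M.natDegree ≤ 5) :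
    3 * P ^ 4 + 6 * (C (-27 * u ^ 4) * tc4 N M) * P ^ 2 + 12 * (C (-54 * u ^ 6) * tc6 N M) * P
      - (C (-27 * u ^ 4) * tc4 N M) ^ 2 ≠ 0 := by
  intro h
  -- constants
  have hc27 : (-27 * u ^ 4 : k) ≠ 0 := by
    have : (27 : k) = 3 ^ 3 := by norm_num
    rw [neg_mul, neg_ne_zero, this]
    exact mul_ne_zero (pow_ne_zero _ h3) (pow_ne_zero _ hu)
  have hc0 : (-(136048896 * u ^ 12) : k) ≠ 0 := by
    have : (136048896 : k) = 2 ^ 8 * 3 ^ 12 := by norm_num
    rw [neg_ne_zero, this]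
    exact mul_ne_zero (mul_ne_zero (pow_ne_zero _ h2) (pow_ne_zero _ h3)) (pow_ne_zero _ hu)
  have h16 : (16 : k) ≠ 0 := by
    have : (16 : k) = 2 ^ 4 := by norm_num
    rw [this]; exact pow_ne_zero _ h2
  have h8 : (8 : k) ≠ 0 := by
    have : (8 : k) = 2 ^ 3 := by norm_num
    rw [this]; exact pow_ne_zero _ h2
  -- names
  obtain ⟨A, hA⟩ : ∃ A : k[X], A = C (-27 * u ^ 4) * tc4 N M := ⟨_, rfl⟩
  obtain ⟨B, hB⟩ : ∃ B : k[X], B = C (-54 * u ^ 6) * tc6 N M := ⟨_, rfl⟩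
  rw [← hA, ← hB] at h
  obtain ⟨W, hW⟩ : ∃ W : k[X], W = N * M := ⟨_, rfl⟩
  rw [← hW] at hsq hdeg
  have hW0 : W ≠ 0 := hsq.ne_zero
  have hid : 16 * P ^ 2 * (4 * A ^ 3 + 27 * B ^ 2) = (A + 3 * P ^ 2) ^ 3 * (3 * A + P ^ 2) :=
    psi3_identity A B P h
  have hdisc : 4 * A ^ 3 + 27 * B ^ 2 = C (-(136048896 * u ^ 12)) * W ^ 5 * tq N M := by
    have := disc_tate (C u : k[X]) N M
    rw [hA, hB, hW]
    simp only [map_mul, map_neg, map_pow, map_ofNat] at this ⊢
    linear_combination this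
  -- coprimality
  have hWA : IsCoprime W A := by
    rw [hA, hW]
    exact (isCoprime_mul_unit_left_right (isUnit_C.mpr hc27.isUnit) _ _).mpr (isCoprime_tc4 hcop)
  have hAsq : P ∣ A ^ 2 :=
    ⟨3 * P ^ 3 + 6 * A * P + 12 * B, by linear_combination (-1 : k[X]) * h⟩
  have hWP : IsCoprime W P := (hWA.pow_right (n := 2)).of_isCoprime_of_dvd_right hAsq
  have hWV : IsCoprime W (tq N M) := by rw [hW]; exact isCoprime_tq hcop
  -- `W ^ 5 ∣ X ^ 3 * Y`
  have hdvd : W ^ 5 ∣ (A + 3 * P ^ 2) ^ 3 * (3 * A + P ^ 2) := by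
    rw [← hid, hdisc]
    exact ⟨16 * P ^ 2 * C (-(136048896 * u ^ 12)) * tq N M, by ring⟩
  -- key step: `W` is coprime to `X = A + 3 P ^ 2`
  have hWX : IsCoprime W (A + 3 * P ^ 2) := by
    refine isCoprime_of_prime_dvd (fun hh => hW0 hh.1) ?_
    intro π hπ hπW hπX
    have hπA : ¬ π ∣ A := fun hd => hπ.not_isUnit (hWA.isUnit_of_dvd' hπW hd)
    have hπP : ¬ π ∣ P := fun hd => hπ.not_isUnit (hWP.isUnit_of_dvd' hπW hd)
    have hπV : ¬ π ∣ tq N M := fun hd => hπ.not_isUnit (hWV.isUnit_of_dvd' hπW hd)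
    have hπY : ¬ π ∣ 3 * A + P ^ 2 := by
      intro hd
      have h8A : π ∣ C 8 * A := by
        have e : C 8 * A = 3 * (3 * A + P ^ 2) - (A + 3 * P ^ 2) := by
          simp only [map_ofNat]; ring
        rw [e]; exact dvd_sub (dvd_mul_of_dvd_right hd _) hπX
      rcases hπ.dvd_or_dvd h8A with h' | h'
      · exact hπ.not_isUnit (isUnit_of_dvd_unit h' (isUnit_C.mpr h8.isUnit))
      · exact hπA h'
    have h5 : π ^ 5 ∣ (A + 3 * P ^ 2) ^ 3 :=
      hπ.pow_dvd_of_dvd_mul_right 5 hπY ((pow_dvd_pow_of_dvd hπW 5).trans hdvd)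
    obtain ⟨X1, hX1⟩ := hπX
    have hπX1 : π ∣ X1 := by
      have h2' : π ^ 2 ∣ X1 ^ 3 := by
        have e : (A + 3 * P ^ 2) ^ 3 = π ^ 3 * X1 ^ 3 := by rw [hX1]; ring
        rw [e] at h5
        have h5' : π ^ 3 * π ^ 2 ∣ π ^ 3 * X1 ^ 3 := by rwa [← pow_add]
        exact (mul_dvd_mul_iff_left (pow_ne_zero 3 hπ.ne_zero)).mp h5'
      exact hπ.dvd_of_dvd_pow ((dvd_pow_self π two_ne_zero).trans h2')
    have h6 : π ^ 6 ∣ (A + 3 * P ^ 2) ^ 3 := by
      obtain ⟨X2, hX2⟩ := hπX1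
      exact ⟨X2 ^ 3, by rw [hX1, hX2]; ring⟩
    have h6' : π ^ 6 ∣ W ^ 5 := by
      have e : (A + 3 * P ^ 2) ^ 3 * (3 * A + P ^ 2) =
          W ^ 5 * (C (16 * -(136048896 * u ^ 12)) * P ^ 2 * tq N M) := by
        rw [← hid, hdisc]; simp only [map_mul, map_ofNat]; ring
      have h6'' : π ^ 6 ∣ W ^ 5 * (C (16 * -(136048896 * u ^ 12)) * P ^ 2 * tq N M) := by
        rw [← e]; exact Dvd.dvd.mul_right h6 _
      refine hπ.pow_dvd_of_dvd_mul_right 6 ?_ h6''
      intro hd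
      rcases hπ.dvd_or_dvd hd with h' | h'
      · rcases hπ.dvd_or_dvd h' with h'' | h''
        · exact hπ.not_isUnit
            (isUnit_of_dvd_unit h'' (isUnit_C.mpr (mul_ne_zero h16 hc0).isUnit))
        · exact hπP (hπ.dvd_of_dvd_pow h'')
      · exact hπV h'
    obtain ⟨W1, hW1⟩ := hπW
    have hπW1 : π ∣ W1 := by
      have e : W ^ 5 = π ^ 5 * W1 ^ 5 := by rw [hW1]; ring
      rw [e] at h6'
      have h6'' : π ^ 5 * π ∣ π ^ 5 * W1 ^ 5 := by rwa [← pow_succ]
      exact hπ.dvd_of_dvd_pow ((mul_dvd_mul_iff_left (pow_ne_zero 5 hπ.ne_zero)).mp h6'')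
    obtain ⟨W2, hW2⟩ := hπW1
    exact hπ.not_isUnit (hsq π ⟨W2, by rw [hW1, hW2]; ring⟩)
  have hWY : W ^ 5 ∣ 3 * A + P ^ 2 :=
    (hWX.pow (m := 5) (n := 3)).dvd_of_dvd_mul_left hdvd
  -- degrees
  have hdA : A.natDegree ≤ 20 := by
    rw [hA, natDegree_C_mul hc27]; exact natDegree_tc4_le hN hM
  have hdB : B.natDegree ≤ 30 := by
    rw [hB]; exact (natDegree_C_mul_le _ _).trans (natDegree_tc6_le hN hM)
  have hdP : P.natDegree ≤ 10 := by
    by_contra hlt
    rw [not_le] at hlt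
    have e : C 3 * P ^ 4 = A ^ 2 - 6 * A * P ^ 2 - 12 * B * P := by
      simp only [map_ofNat]; linear_combination h
    have h1 : (C 3 * P ^ 4).natDegree = 4 * P.natDegree := by
      rw [natDegree_C_mul h3, natDegree_pow]
    have h2' : (A ^ 2 - 6 * A * P ^ 2 - 12 * B * P).natDegree < 4 * P.natDegree := by
      refine lt_of_le_of_lt (natDegree_sub_le_of_le' (n := 4 * P.natDegree - 1)
        (natDegree_sub_le_of_le' ?_ ?_) ?_) (by omega)
      · exact (natDegree_pow_le_of_le 2 hdA).trans (by omega)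
      · have e6 : (6 * A * P ^ 2 : k[X]) = C 6 * A * P ^ 2 := by simp only [map_ofNat]
        rw [e6]
        exact (natDegree_mul_le_of_le (natDegree_mul_le_of_le (natDegree_C 6).le hdA)
          (natDegree_pow_le_of_le 2 le_rfl)).trans (by omega)
      · have e12 : (12 * B * P : k[X]) = C 12 * B * P := by simp only [map_ofNat]
        rw [e12]
        exact (natDegree_mul_le_of_le (natDegree_mul_le_of_le (natDegree_C 12).le hdB)
          le_rfl).trans (by omega)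
    rw [e] at h1; omega
  have hdY : (3 * A + P ^ 2).natDegree ≤ 20 := by
    have e3 : (3 * A + P ^ 2 : k[X]) = C 3 * A + P ^ 2 := by simp only [map_ofNat]
    rw [e3]
    exact natDegree_add_le_of_degree_le ((natDegree_C_mul_le _ _).trans hdA)
      ((natDegree_pow_le_of_le 2 hdP).trans (by norm_num))
  have hY0 : 3 * A + P ^ 2 = 0 := by
    refine eq_zero_of_dvd_of_natDegree_lt hWY ?_
    rw [natDegree_pow]; omega
  -- conclusion
  rw [hY0, mul_zero, hdisc] at hid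
  have hPV : P ^ 2 * (W ^ 5 * tq N M) = 0 := by
    have e0 : C (16 * -(136048896 * u ^ 12)) * (P ^ 2 * (W ^ 5 * tq N M)) = 0 := by
      rw [← hid]; simp only [map_mul, map_ofNat]; ring
    exact (mul_eq_zero.mp e0).resolve_left (by simpa using mul_ne_zero h16 hc0)
  have hWunit : ¬ IsUnit W := fun hun => by
    have := natDegree_eq_zero_of_isUnit hun; omega
  rcases mul_eq_zero.mp hPV with hP | hWV0
  · have hP0 : P = 0 := (pow_eq_zero_iff two_ne_zero).mp hP
    rw [hP0] at hY0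
    have hA0 : A = 0 := by
      have e3 : C 3 * A = 0 := by simp only [map_ofNat]; linear_combination hY0
      exact (mul_eq_zero.mp e3).resolve_left (by simpa using h3)
    rw [hA0] at hWA
    exact hWunit (isCoprime_zero_right.mp hWA)
  · rcases mul_eq_zero.mp hWV0 with h' | h'
    · exact hW0 ((pow_eq_zero_iff (by norm_num)).mp h')
    · rw [h'] at hWV
      exact hWunit (isCoprime_zero_right.mp hWV)

end Core

section TateParam

variable {k : Type*} [Field k]

/-- `tc4(c, 1)` and `c² - 11c - 1` have no common zero in characteristic `≠ 5`. -/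
theorem tq_ne_zero_of_tc4_eq_zero (h5 : (5 : k) ≠ 0) {c : k} (h : tc4 c 1 = 0) : tq c 1 ≠ 0 := by
  intro hq
  have e : tc4 c 1 = tq c 1 * (c ^ 2 - c + 4) + 5 * (11 * c + 1) := by
    simp only [tc4, tq]; ring
  rw [h, hq, zero_mul, zero_add] at e
  have h11 : 11 * c + 1 = 0 := (mul_eq_zero.mp e.symm).resolve_left h5
  have : (121 : k) * tq c 1 = 1 := by
    simp only [tq]; linear_combination (11 * c - 122) * h11
  rw [hq, mul_zero] at this
  exact zero_ne_one this

/-- Over an algebraically closed field of characteristic `≠ 2, 3, 5` every pair `(a, b)` with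
`a³ ≠ b²` is `(u⁴ tc4(c, 1), u⁶ tc6(c, 1))` with `u ≠ 0`, `c ≠ 0`, `c² - 11c - 1 ≠ 0`
("every elliptic curve has a point of order 5", in purely algebraic form). -/
theorem exists_tate_param [IsAlgClosed k] (h2 : (2 : k) ≠ 0) (h3 : (3 : k) ≠ 0)
    (h5 : (5 : k) ≠ 0) (a b : k) (hab : a ^ 3 ≠ b ^ 2) :
    ∃ c u : k, u ≠ 0 ∧ c ≠ 0 ∧ tq c 1 ≠ 0 ∧ a = u ^ 4 * tc4 c 1 ∧ b = u ^ 6 * tc6 c 1 := by
  have hD : a ^ 3 - b ^ 2 ≠ 0 := sub_ne_zero.mpr hab
  have h1728 : (1728 : k) ≠ 0 := by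
    have : (1728 : k) = 2 ^ 6 * 3 ^ 3 := by norm_num
    rw [this]; exact mul_ne_zero (pow_ne_zero _ h2) (pow_ne_zero _ h3)
  obtain ⟨j', hj⟩ : ∃ j' : k, j' * (a ^ 3 - b ^ 2) = 1728 * a ^ 3 :=
    ⟨1728 * a ^ 3 / (a ^ 3 - b ^ 2), div_mul_cancel₀ _ hD⟩
  -- a root of `tc4(c,1)³ = j' c⁵ (c² - 11 c - 1)`
  obtain ⟨c, hc⟩ : ∃ c : k, tc4 c 1 ^ 3 = j' * c ^ 5 * tq c 1 := by
    let Q4 : k[X] := X ^ 4 - C 12 * X ^ 3 + C 14 * X ^ 2 + C 12 * X + C 1
    let R7 : k[X] := C j' * X ^ 5 * (X ^ 2 - C 11 * X - C 1)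
    have hQ4 : Q4.Monic := by
      simp only [Q4]; monicity!
    have hQ4d : Q4.natDegree = 4 := by
      simp only [Q4]; compute_degree!
    have hR7 : R7.natDegree ≤ 7 := by
      simp only [R7]; compute_degree
    have hm : (Q4 ^ 3).Monic := hQ4.pow 3
    have hd : (Q4 ^ 3).natDegree = 12 := by rw [hQ4.natDegree_pow, hQ4d]
    have hlt : R7.degree < (Q4 ^ 3).degree := by
      rw [degree_eq_natDegree hm.ne_zero, hd]
      exact lt_of_le_of_lt degree_le_natDegree (by exact_mod_cast Nat.lt_of_le_of_lt hR7 (by norm_num))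
    have hG : (Q4 ^ 3 - R7).degree ≠ 0 := by
      rw [degree_sub_eq_left_of_degree_lt hlt, degree_eq_natDegree hm.ne_zero, hd]
      norm_num
    obtain ⟨c, hc⟩ := IsAlgClosed.exists_root _ hG
    refine ⟨c, ?_⟩
    have hc' : eval c (Q4 ^ 3 - R7) = 0 := hc
    simp only [Q4, R7, eval_sub, eval_pow, eval_add, eval_mul, eval_C, eval_X] at hc'
    simp only [tc4, tq]
    linear_combination hc'
  have hid := tc4_pow_three_sub_tc6_sq c (1 : k)
  have hmain : tc4 c 1 ^ 3 * (a ^ 3 - b ^ 2) = 1728 * a ^ 3 * (c ^ 5 * tq c 1) := by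
    rw [hc]; linear_combination (c ^ 5 * tq c 1) * hj
  -- `c ≠ 0` and `tq c 1 ≠ 0`
  have hδ : c ^ 5 * tq c 1 ≠ 0 := by
    intro h0
    rw [h0, mul_zero] at hmain
    have h4 : tc4 c 1 = 0 := by
      rcases mul_eq_zero.mp hmain with h | h
      · exact pow_eq_zero_iff (three_ne_zero) |>.mp h
      · exact absurd h hD
    rcases mul_eq_zero.mp h0 with h | h
    · have hc0 : c = 0 := pow_eq_zero_iff (by norm_num) |>.mp h
      rw [hc0] at h4
      simp [tc4] at h4
    · exact tq_ne_zero_of_tc4_eq_zero h5 h4 h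
  have hc0 : c ≠ 0 := fun h => hδ (by rw [h]; simp)
  have hq0 : tq c 1 ≠ 0 := fun h => hδ (by rw [h]; simp)
  refine ⟨c, ?_⟩
  by_cases h4 : tc4 c 1 = 0
  · -- then `a = 0`
    have ha : a = 0 := by
      rw [h4] at hmain
      have : a ^ 3 = 0 := by
        have h' : 1728 * a ^ 3 * (c ^ 5 * tq c 1) = 0 := by rw [← hmain]; ring
        rcases mul_eq_zero.mp h' with h'' | h''
        · exact (mul_eq_zero.mp h'').resolve_left h1728
        · exact absurd h'' hδ
      exact pow_eq_zero_iff (three_ne_zero) |>.mp this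
    have h6 : tc6 c 1 ≠ 0 := by
      intro h6
      rw [h4, h6] at hid
      have : (1728 : k) * (c ^ 5 * tq c 1) = 0 := by linear_combination -hid
      exact hδ ((mul_eq_zero.mp this).resolve_left h1728)
    have hb : b ≠ 0 := by
      rintro rfl
      exact hD (by rw [ha]; ring)
    obtain ⟨u, hu⟩ := IsAlgClosed.exists_pow_nat_eq (b / tc6 c 1) (by norm_num : 0 < 6)
    refine ⟨u, ?_, hc0, hq0, ?_, ?_⟩
    · rintro rfl
      rw [zero_pow (by norm_num)] at hu
      exact div_ne_zero hb h6 hu.symm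
    · rw [ha, h4, mul_zero]
    · rw [hu, div_mul_cancel₀ _ h6]
  · have ha : a ≠ 0 := by
      rintro rfl
      have : tc4 c 1 ^ 3 * ((0 : k) ^ 3 - b ^ 2) = 0 := by rw [hmain]; ring
      rcases mul_eq_zero.mp this with h | h
      · exact h4 (pow_eq_zero_iff (three_ne_zero) |>.mp h)
      · exact hD h
    by_cases h6 : tc6 c 1 = 0
    · -- then `b = 0`
      have hb : b = 0 := by
        rw [h6] at hid
        have e : tc4 c 1 ^ 3 * b ^ 2 = 0 := by
          linear_combination a ^ 3 * hid - hmain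
        rcases mul_eq_zero.mp e with h | h
        · exact absurd (pow_eq_zero_iff (three_ne_zero) |>.mp h) h4
        · exact pow_eq_zero_iff (two_ne_zero) |>.mp h
      obtain ⟨u, hu⟩ := IsAlgClosed.exists_pow_nat_eq (a / tc4 c 1) (by norm_num : 0 < 4)
      refine ⟨u, ?_, hc0, hq0, ?_, ?_⟩
      · rintro rfl
        rw [zero_pow (by norm_num)] at hu
        exact div_ne_zero ha h4 hu.symm
      · rw [hu, div_mul_cancel₀ _ h4]
      · rw [hb, h6, mul_zero]
    · -- generic case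
      have hkey : b ^ 2 * tc4 c 1 ^ 3 = a ^ 3 * tc6 c 1 ^ 2 := by
        linear_combination -hmain + a ^ 3 * hid
      have hb : b ≠ 0 := by
        rintro rfl
        have e : a ^ 3 * tc6 c 1 ^ 2 = 0 := by rw [← hkey]; ring
        rcases mul_eq_zero.mp e with h | h
        · exact ha (pow_eq_zero_iff (three_ne_zero) |>.mp h)
        · exact h6 (pow_eq_zero_iff (two_ne_zero) |>.mp h)
      have hden : a * tc6 c 1 ≠ 0 := mul_ne_zero ha h6
      have hw2 : (b * tc4 c 1 / (a * tc6 c 1)) ^ 2 = a / tc4 c 1 := by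
        rw [div_pow, div_eq_div_iff (pow_ne_zero _ hden) h4]
        linear_combination hkey
      have hw3 : (b * tc4 c 1 / (a * tc6 c 1)) ^ 3 = b / tc6 c 1 := by
        rw [div_pow, div_eq_div_iff (pow_ne_zero _ hden) h6]
        linear_combination (b * tc6 c 1) * hkey
      obtain ⟨u, hu⟩ := IsAlgClosed.exists_pow_nat_eq (b * tc4 c 1 / (a * tc6 c 1))
        (by norm_num : 0 < 2)
      refine ⟨u, ?_, hc0, hq0, ?_, ?_⟩
      · rintro rfl
        rw [zero_pow (by norm_num)] at hu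
        exact div_ne_zero (mul_ne_zero hb h4) hden hu.symm
      · have e : u ^ 4 = a / tc4 c 1 := by
          rw [← hw2, ← hu]; ring
        rw [e, div_mul_cancel₀ _ h4]
      · have e : u ^ 6 = b / tc6 c 1 := by
          rw [← hw3, ← hu]; ring
        rw [e, div_mul_cancel₀ _ h6]

end TateParam

end Fermat.Agent.S52.IrrAlphaCore
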