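import Mathlib
import Fermat.Prelude.Def_FLTPrelim_GaloisRep
import Fermat.Prelude.Def_FLTPrelim_ModularRep
import Fermat.Agent.S52.IrrTop
import Fermat.Agent.S52.IrrAlphaCore

/-!
# S52 [IRR] for a natural family (wiring leaf (W2))

A *natural family* is a polynomial function `F : ∀ (R : Type) [CommRing R], R → R → R → R`
commuting with ring homomorphisms.  Its polynomial form in the parameter is
`polyOf F a b = F ℤ[X] (C a) (C b) X ∈ ℤ[T]`; this file transports the end-to-end statement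
`IrrTop.irr3_family` to natural families, with the "no root in `ℚ[T]`" hypothesis in two shapes.
-/

open Polynomial

namespace Fermat.Agent.S52.IrrFamily

/-- The polynomial form (in the third variable) of a natural family at integers `a b`. -/
noncomputable def polyOf (F : ∀ (R : Type) [CommRing R], R → R → R → R) (a b : ℤ) : ℤ[X] :=
  F ℤ[X] (C a) (C b) X

theorem eval_polyOf (F : ∀ (R : Type) [CommRing R], R → R → R → R)
    (nat : ∀ (R S : Type) [CommRing R] [CommRing S] (φ : R →+* S) (a b s : R),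
      φ (F R a b s) = F S (φ a) (φ b) (φ s)) (a b s : ℤ) :
    (polyOf F a b).eval s = F ℤ a b s := by
  have h := nat ℤ[X] ℤ (evalRingHom s) (C a) (C b) X
  simpa [polyOf] using h

theorem polyOf_eval_zero (F : ∀ (R : Type) [CommRing R], R → R → R → R)
    (nat : ∀ (R S : Type) [CommRing R] [CommRing S] (φ : R →+* S) (a b s : R),
      φ (F R a b s) = F S (φ a) (φ b) (φ s))
    (zero : ∀ (R : Type) [CommRing R] (a b : R), F R a b 0 = a) (a b : ℤ) :
    (polyOf F a b).eval 0 = a := by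
  rw [eval_polyOf F nat, zero]

theorem polyOf_eval_zero' (F : ∀ (R : Type) [CommRing R], R → R → R → R)
    (nat : ∀ (R S : Type) [CommRing R] [CommRing S] (φ : R →+* S) (a b s : R),
      φ (F R a b s) = F S (φ a) (φ b) (φ s))
    (zero : ∀ (R : Type) [CommRing R] (a b : R), F R a b 0 = b) (a b : ℤ) :
    (polyOf F a b).eval 0 = b := by
  rw [eval_polyOf F nat, zero]

theorem map_polyOf (F : ∀ (R : Type) [CommRing R], R → R → R → R)
    (nat : ∀ (R S : Type) [CommRing R] [CommRing S] (φ : R →+* S) (a b s : R),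
      φ (F R a b s) = F S (φ a) (φ b) (φ s)) (K : Type) [CommRing K] (a b : ℤ) :
    (polyOf F a b).map (Int.castRingHom K) = F K[X] (C (a : K)) (C (b : K)) X := by
  have h := nat ℤ[X] K[X] (mapRingHom (Int.castRingHom K)) (C a) (C b) X
  simpa [polyOf] using h

/-- **[IRR] for a natural family, `ℚ[T]` form of the hypothesis.** -/
theorem irr3_natural_family
    (F4 F6 : ∀ (R : Type) [CommRing R], R → R → R → R)
    (nat4 : ∀ (R S : Type) [CommRing R] [CommRing S] (φ : R →+* S) (a b s : R),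
      φ (F4 R a b s) = F4 S (φ a) (φ b) (φ s))
    (nat6 : ∀ (R S : Type) [CommRing R] [CommRing S] (φ : R →+* S) (a b s : R),
      φ (F6 R a b s) = F6 S (φ a) (φ b) (φ s))
    (zero4 : ∀ (R : Type) [CommRing R] (a b : R), F4 R a b 0 = a)
    (zero6 : ∀ (R : Type) [CommRing R] (a b : R), F6 R a b 0 = b)
    (W : WeierstrassCurve ℤ) (hΔ : W.Δ ≠ 0) (h3 : ¬ W.ModRepIsIrreducible 3)
    (hnr : ∀ P : ℚ[X], ((IrrTop.quartic (polyOf F4 W.c₄ W.c₆) (polyOf F6 W.c₄ W.c₆)).map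
      (mapRingHom (Int.castRingHom ℚ))).eval P ≠ 0)
    (N : ℤ) (hN : N ≠ 0) :
    ∃ s : ℤ, N ∣ s ∧ ∀ W' : WeierstrassCurve ℤ, W'.Δ ≠ 0 → W'.c₄ = F4 ℤ W.c₄ W.c₆ s →
      W'.c₆ = F6 ℤ W.c₄ W.c₆ s → W'.ModRepIsIrreducible 3 := by
  obtain ⟨s, hs, H⟩ := IrrTop.irr3_family W hΔ h3 (polyOf F4 W.c₄ W.c₆) (polyOf F6 W.c₄ W.c₆)
    (polyOf_eval_zero F4 nat4 zero4 _ _) (polyOf_eval_zero' F6 nat6 zero6 _ _) hnr N hN
  refine ⟨s, hs, fun W' hΔ' h4 h6 => H W' hΔ' ?_ ?_⟩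
  · rw [h4, eval_polyOf F4 nat4]
  · rw [h6, eval_polyOf F6 nat6]

/-- The hypothesis `hnr` from the short-model `ψ₃` having no root in `K[T]`, `K` any field of
characteristic zero, for the natural family evaluated at `(C a, C b, T)`. -/
theorem hnr_of_natural
    (F4 F6 : ∀ (R : Type) [CommRing R], R → R → R → R)
    (nat4 : ∀ (R S : Type) [CommRing R] [CommRing S] (φ : R →+* S) (a b s : R),
      φ (F4 R a b s) = F4 S (φ a) (φ b) (φ s))
    (nat6 : ∀ (R S : Type) [CommRing R] [CommRing S] (φ : R →+* S) (a b s : R),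
      φ (F6 R a b s) = F6 S (φ a) (φ b) (φ s))
    (K : Type) [Field K] [CharZero K] (c4 c6 : ℤ)
    (h : ∀ P : K[X], 3 * P ^ 4 + 6 * (C (-27) * F4 K[X] (C (c4 : K)) (C (c6 : K)) X) * P ^ 2
      + 12 * (C (-54) * F6 K[X] (C (c4 : K)) (C (c6 : K)) X) * P
      - (C (-27) * F4 K[X] (C (c4 : K)) (C (c6 : K)) X) ^ 2 ≠ 0) :
    ∀ P : ℚ[X], ((IrrTop.quartic (polyOf F4 c4 c6) (polyOf F6 c4 c6)).map
      (mapRingHom (Int.castRingHom ℚ))).eval P ≠ 0 := by
  apply IrrTop.hnr_of_field (K := K)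
  rw [map_polyOf F4 nat4, map_polyOf F6 nat6]
  exact h

/-- **[IRR] for a natural family, field form of the hypothesis.**  `K` is any field of
characteristic zero (e.g. `AlgebraicClosure ℚ`), and the hypothesis is: for all `a b : K` with
`a³ ≠ b²` the short-model `3`-division polynomial `3P⁴ + 6AP² + 12BP - A²` with
`A = -27 F4(a, b, T)`, `B = -54 F6(a, b, T)` has no root `P ∈ K[T]`. -/
theorem irr3_natural_family_of_field
    (F4 F6 : ∀ (R : Type) [CommRing R], R → R → R → R)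
    (nat4 : ∀ (R S : Type) [CommRing R] [CommRing S] (φ : R →+* S) (a b s : R),
      φ (F4 R a b s) = F4 S (φ a) (φ b) (φ s))
    (nat6 : ∀ (R S : Type) [CommRing R] [CommRing S] (φ : R →+* S) (a b s : R),
      φ (F6 R a b s) = F6 S (φ a) (φ b) (φ s))
    (zero4 : ∀ (R : Type) [CommRing R] (a b : R), F4 R a b 0 = a)
    (zero6 : ∀ (R : Type) [CommRing R] (a b : R), F6 R a b 0 = b)
    (K : Type) [Field K] [CharZero K]
    (hK : ∀ a b : K, a ^ 3 ≠ b ^ 2 → ∀ P : K[X],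
      3 * P ^ 4 + 6 * (C (-27) * F4 K[X] (C a) (C b) X) * P ^ 2
        + 12 * (C (-54) * F6 K[X] (C a) (C b) X) * P
        - (C (-27) * F4 K[X] (C a) (C b) X) ^ 2 ≠ 0)
    (W : WeierstrassCurve ℤ) (hΔ : W.Δ ≠ 0) (h3 : ¬ W.ModRepIsIrreducible 3)
    (N : ℤ) (hN : N ≠ 0) :
    ∃ s : ℤ, N ∣ s ∧ ∀ W' : WeierstrassCurve ℤ, W'.Δ ≠ 0 → W'.c₄ = F4 ℤ W.c₄ W.c₆ s →
      W'.c₆ = F6 ℤ W.c₄ W.c₆ s → W'.ModRepIsIrreducible 3 := by
  refine irr3_natural_family F4 F6 nat4 nat6 zero4 zero6 W hΔ h3 ?_ N hN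
  refine hnr_of_natural F4 F6 nat4 nat6 K W.c₄ W.c₆ (hK _ _ ?_)
  intro hc
  have hrel : (1728 : ℤ) * W.Δ = W.c₄ ^ 3 - W.c₆ ^ 2 := W.c_relation
  have : ((W.c₄ : ℤ) : K) ^ 3 - ((W.c₆ : ℤ) : K) ^ 2 = ((1728 * W.Δ : ℤ) : K) := by
    rw [hrel]; push_cast; ring
  rw [hc, sub_self] at this
  have h0 : (1728 * W.Δ : ℤ) = 0 := by exact_mod_cast this.symm
  exact hΔ (by simpa using h0)

open Fermat.Agent.S52.IrrAlphaCore

theorem squarefree_mulEquiv {A B : Type*} [Monoid A] [Monoid B] (e : A ≃* B) {x : A}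
    (hx : Squarefree x) : Squarefree (e x) := by
  intro y hy
  have h1 : e.symm y * e.symm y ∣ x := by
    have := map_dvd e.symm hy
    rwa [map_mul, e.symm_apply_apply] at this
  have h2 := (hx _ h1).map e
  rwa [e.apply_symm_apply] at h2

/-- substitution `T ↦ v T` (`v ≠ 0`) preserves squarefreeness -/
theorem squarefree_comp_C_mul_X {K : Type*} [Field K] (v : K) (hv : v ≠ 0) (p : K[X])
    (hp : Squarefree p) : Squarefree (p.comp (C v * X)) := by
  have : Invertible v := invertibleOfNonzero hv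
  have e : p.comp (C v * X) = (algEquivCMulXAddC v 0).toMulEquiv p := by
    change _ = algEquivCMulXAddC v 0 p
    rw [algEquivCMulXAddC_apply, C_0, add_zero, comp_eq_aeval]
  rw [e]
  exact squarefree_mulEquiv _ hp

theorem natDegree_comp_C_mul_X {K : Type*} [Field K] (v : K) (hv : v ≠ 0) (p : K[X]) :
    (p.comp (C v * X)).natDegree = p.natDegree := by
  rw [natDegree_comp, natDegree_C_mul_X v hv, mul_one]

/-- **Field form of (H-IRR) from the Tate presentation.** -/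
theorem hK_of_tate
    (F4 F6 : ∀ (R : Type) [CommRing R], R → R → R → R)
    (tN tM : ∀ (R : Type) [CommRing R], R → R → R)
    (natN : ∀ (R S : Type) [CommRing R] [CommRing S] (φ : R →+* S) (c s : R),
      φ (tN R c s) = tN S (φ c) (φ s))
    (natM : ∀ (R S : Type) [CommRing R] [CommRing S] (φ : R →+* S) (c s : R),
      φ (tM R c s) = tM S (φ c) (φ s))
    (hom4 : ∀ (R : Type) [CommRing R] (u a b s : R),
      F4 R (u ^ 4 * a) (u ^ 6 * b) s = u ^ 4 * F4 R a b (u ^ 2 * s))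
    (hom6 : ∀ (R : Type) [CommRing R] (u a b s : R),
      F6 R (u ^ 4 * a) (u ^ 6 * b) s = u ^ 6 * F6 R a b (u ^ 2 * s))
    (star4 : ∀ (R : Type) [CommRing R] (c s : R),
      F4 R (tc4 c 1) (tc6 c 1) s = tc4 (tN R c s) (tM R c s))
    (star6 : ∀ (R : Type) [CommRing R] (c s : R),
      F6 R (tc4 c 1) (tc6 c 1) s = tc6 (tN R c s) (tM R c s))
    (K : Type) [Field K] [IsAlgClosed K] (h2 : (2 : K) ≠ 0) (h3 : (3 : K) ≠ 0) (h5 : (5 : K) ≠ 0)
    (hcop : ∀ c : K, c ≠ 0 → tq c 1 ≠ 0 → IsCoprime (tN K[X] (C c) X) (tM K[X] (C c) X))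
    (hsq : ∀ c : K, c ≠ 0 → tq c 1 ≠ 0 → Squarefree (tN K[X] (C c) X * tM K[X] (C c) X))
    (hdeg : ∀ c : K, c ≠ 0 → tq c 1 ≠ 0 →
      5 ≤ (tN K[X] (C c) X * tM K[X] (C c) X).natDegree)
    (hdN : ∀ c : K, c ≠ 0 → tq c 1 ≠ 0 → (tN K[X] (C c) X).natDegree ≤ 5)
    (hdM : ∀ c : K, c ≠ 0 → tq c 1 ≠ 0 → (tM K[X] (C c) X).natDegree ≤ 5)
    (a b : K) (hab : a ^ 3 ≠ b ^ 2) (P : K[X]) :
    3 * P ^ 4 + 6 * (C (-27) * F4 K[X] (C a) (C b) X) * P ^ 2
      + 12 * (C (-54) * F6 K[X] (C a) (C b) X) * P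
      - (C (-27) * F4 K[X] (C a) (C b) X) ^ 2 ≠ 0 := by
  obtain ⟨c, u, hu, hc, hq, ha, hb⟩ := exists_tate_param h2 h3 h5 a b hab
  have hv : u ^ 2 ≠ 0 := pow_ne_zero _ hu
  set N0 : K[X] := tN K[X] (C c) X with hN0
  set M0 : K[X] := tM K[X] (C c) X with hM0
  set N : K[X] := tN K[X] (C c) (C u ^ 2 * X) with hN
  set M : K[X] := tM K[X] (C c) (C u ^ 2 * X) with hM
  have eN : N = N0.comp (C (u ^ 2) * X) := by
    have h := natN K[X] K[X] (compRingHom (C (u ^ 2) * X)) (C c) X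
    simp only [coe_compRingHom, C_comp, X_comp] at h
    rw [hN, hN0, h, C_pow]
  have eM : M = M0.comp (C (u ^ 2) * X) := by
    have h := natM K[X] K[X] (compRingHom (C (u ^ 2) * X)) (C c) X
    simp only [coe_compRingHom, C_comp, X_comp] at h
    rw [hM, hM0, h, C_pow]
  have e4 : F4 K[X] (C a) (C b) X = C (u ^ 4) * tc4 N M := by
    have h1 : (C a : K[X]) = C u ^ 4 * tc4 (C c) 1 := by
      rw [ha, C_mul, C_pow, map_tc4 C, C_1]
    have h2 : (C b : K[X]) = C u ^ 6 * tc6 (C c) 1 := by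
      rw [hb, C_mul, C_pow, map_tc6 C, C_1]
    rw [h1, h2, hom4, star4, C_pow]
  have e6 : F6 K[X] (C a) (C b) X = C (u ^ 6) * tc6 N M := by
    have h1 : (C a : K[X]) = C u ^ 4 * tc4 (C c) 1 := by
      rw [ha, C_mul, C_pow, map_tc4 C, C_1]
    have h2 : (C b : K[X]) = C u ^ 6 * tc6 (C c) 1 := by
      rw [hb, C_mul, C_pow, map_tc6 C, C_1]
    rw [h1, h2, hom6, star6, C_pow]
  have hcop' : IsCoprime N M := by
    rw [eN, eM]
    exact (hcop c hc hq).map (compRingHom (C (u ^ 2) * X))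
  have hsq' : Squarefree (N * M) := by
    rw [eN, eM, ← mul_comp]
    exact squarefree_comp_C_mul_X _ hv _ (hsq c hc hq)
  have hdeg' : 5 ≤ (N * M).natDegree := by
    rw [eN, eM, ← mul_comp, natDegree_comp_C_mul_X _ hv]
    exact hdeg c hc hq
  have hdN' : N.natDegree ≤ 5 := by
    rw [eN, natDegree_comp_C_mul_X _ hv]; exact hdN c hc hq
  have hdM' : M.natDegree ≤ 5 := by
    rw [eM, natDegree_comp_C_mul_X _ hv]; exact hdM c hc hq
  have key := no_root_core h2 h3 N M P u hu hcop' hsq' hdeg' hdN' hdM'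
  rw [e4, e6]
  have c1 : (C (-27) : K[X]) * (C (u ^ 4) * tc4 N M) = C (-27 * u ^ 4) * tc4 N M := by
    rw [← mul_assoc, ← C_mul]
  have c2 : (C (-54) : K[X]) * (C (u ^ 6) * tc6 N M) = C (-54 * u ^ 6) * tc6 N M := by
    rw [← mul_assoc, ← C_mul]
  rw [c1, c2]
  exact key


/-- **[IRR] for a natural family with a Tate presentation.**  All data-independent glue is done
here; the remaining inputs are the five facts about `tN(c, T)`, `tM(c, T) ∈ K[T]` for
`c (c² - 11c - 1) ≠ 0` over ONE algebraically closed field `K` of characteristic zero. -/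
theorem irr3_of_tate
    (F4 F6 : ∀ (R : Type) [CommRing R], R → R → R → R)
    (tN tM : ∀ (R : Type) [CommRing R], R → R → R)
    (nat4 : ∀ (R S : Type) [CommRing R] [CommRing S] (φ : R →+* S) (a b s : R),
      φ (F4 R a b s) = F4 S (φ a) (φ b) (φ s))
    (nat6 : ∀ (R S : Type) [CommRing R] [CommRing S] (φ : R →+* S) (a b s : R),
      φ (F6 R a b s) = F6 S (φ a) (φ b) (φ s))
    (natN : ∀ (R S : Type) [CommRing R] [CommRing S] (φ : R →+* S) (c s : R),
      φ (tN R c s) = tN S (φ c) (φ s))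
    (natM : ∀ (R S : Type) [CommRing R] [CommRing S] (φ : R →+* S) (c s : R),
      φ (tM R c s) = tM S (φ c) (φ s))
    (hom4 : ∀ (R : Type) [CommRing R] (u a b s : R),
      F4 R (u ^ 4 * a) (u ^ 6 * b) s = u ^ 4 * F4 R a b (u ^ 2 * s))
    (hom6 : ∀ (R : Type) [CommRing R] (u a b s : R),
      F6 R (u ^ 4 * a) (u ^ 6 * b) s = u ^ 6 * F6 R a b (u ^ 2 * s))
    (star4 : ∀ (R : Type) [CommRing R] (c s : R),
      F4 R (tc4 c 1) (tc6 c 1) s = tc4 (tN R c s) (tM R c s))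
    (star6 : ∀ (R : Type) [CommRing R] (c s : R),
      F6 R (tc4 c 1) (tc6 c 1) s = tc6 (tN R c s) (tM R c s))
    (zero4 : ∀ (R : Type) [CommRing R] (a b : R), F4 R a b 0 = a)
    (zero6 : ∀ (R : Type) [CommRing R] (a b : R), F6 R a b 0 = b)
    (K : Type) [Field K] [CharZero K] [IsAlgClosed K]
    (hcop : ∀ c : K, c ≠ 0 → tq c 1 ≠ 0 → IsCoprime (tN K[X] (C c) X) (tM K[X] (C c) X))
    (hsq : ∀ c : K, c ≠ 0 → tq c 1 ≠ 0 → Squarefree (tN K[X] (C c) X * tM K[X] (C c) X))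
    (hdeg : ∀ c : K, c ≠ 0 → tq c 1 ≠ 0 →
      5 ≤ (tN K[X] (C c) X * tM K[X] (C c) X).natDegree)
    (hdN : ∀ c : K, c ≠ 0 → tq c 1 ≠ 0 → (tN K[X] (C c) X).natDegree ≤ 5)
    (hdM : ∀ c : K, c ≠ 0 → tq c 1 ≠ 0 → (tM K[X] (C c) X).natDegree ≤ 5)
    (W : WeierstrassCurve ℤ) (hΔ : W.Δ ≠ 0) (h3 : ¬ W.ModRepIsIrreducible 3)
    (N : ℤ) (hN : N ≠ 0) :
    ∃ s : ℤ, N ∣ s ∧ ∀ W' : WeierstrassCurve ℤ, W'.Δ ≠ 0 → W'.c₄ = F4 ℤ W.c₄ W.c₆ s →
      W'.c₆ = F6 ℤ W.c₄ W.c₆ s → W'.ModRepIsIrreducible 3 :=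
  irr3_natural_family_of_field F4 F6 nat4 nat6 zero4 zero6 K
    (hK_of_tate F4 F6 tN tM natN natM hom4 hom6 star4 star6 K (by norm_num) (by norm_num)
      (by norm_num) hcop hsq hdeg hdN hdM) W hΔ h3 N hN

end Fermat.Agent.S52.IrrFamily
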