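import Mathlib
import Fermat.Agent.S52.IrrFamily
import Fermat.Agent.S52.FiveGlue

/-!
# S52 [IRR] from `FiveGlue.FamilyData`

The end-to-end [IRR] statement for a natural family packaged as `FiveGlue.FamilyData`, with the
five facts on `tN(c, T)`, `tM(c, T)` over one algebraically closed field of characteristic zero
as the only remaining hypotheses.
-/

open Polynomial

namespace Fermat.Agent.S52.IrrFamily

open Fermat.Agent.S52.IrrAlphaCore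

/-- **[IRR] from `FamilyData`.** -/
theorem irr3_of_familyData
    {F4 F6 : ∀ (R : Type) [CommRing R], R → R → R → R}
    {tN tM : ∀ (R : Type) [CommRing R], R → R → R}
    (hD : Fermat.Agent.S52.FiveGlue.FamilyData F4 F6 tN tM)
    (K : Type) [Field K] [CharZero K] [IsAlgClosed K]
    (hcop : ∀ c : K, c ≠ 0 → tq c 1 ≠ 0 → IsCoprime (tN K[X] (C c) X) (tM K[X] (C c) X))
    (hsq : ∀ c : K, c ≠ 0 → tq c 1 ≠ 0 → Squarefree (tN K[X] (C c) X * tM K[X] (C c) X))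
    (hdeg : ∀ c : K, c ≠ 0 → tq c 1 ≠ 0 →
      5 ≤ (tN K[X] (C c) X * tM K[X] (C c) X).natDegree)
    (hdN : ∀ c : K, c ≠ 0 → tq c 1 ≠ 0 → (tN K[X] (C c) X).natDegree ≤ 5)
    (hdM : ∀ c : K, c ≠ 0 → tq c 1 ≠ 0 → (tM K[X] (C c) X).natDegree ≤ 5)
    (W : WeierstrassCurve ℤ) (hΔ : W.Δ ≠ 0) (h3 : ¬ W.ModRepIsIrreducible 3)
    (N : ℤ) (hN : N ≠ 0) :
    ∃ s : ℤ, N ∣ s ∧ ∀ W' : WeierstrassCurve ℤ, W'.Δ ≠ 0 → W'.c₄ = F4 ℤ W.c₄ W.c₆ s →
      W'.c₆ = F6 ℤ W.c₄ W.c₆ s → W'.ModRepIsIrreducible 3 :=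
  irr3_of_tate F4 F6 tN tM hD.nat4 hD.nat6 hD.natN hD.natM hD.hom4 hD.hom6 hD.star4 hD.star6
    hD.zero4 hD.zero6 K hcop hsq hdeg hdN hdM W hΔ h3 N hN

end Fermat.Agent.S52.IrrFamily
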