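import Mathlib
import Fermat.Agent.S51.Tors3
import Fermat.Agent.S52.IrrPadic
import Fermat.Agent.S52.IrrRam

/-!
# S52 / [IRR] glue: [IRR-RAM] ∘ [IRR-PADIC] ∘ S51

* `exists_prime_no_rat_root_eventually`: if `ψ₃(W)` has a rational root and `G ∈ ℤ[T][x]` is monic
  in `x`, specialises at `T = 0` to the monic form of `ψ₃(W)` and has no root in `ℚ[T]`, then there
  is a prime `q` such that for every nonzero integer `M` the specialisation `G(M q^k, x)` has no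
  rational root for all large `k`.
* `shortPsi A B = x⁴ + 18A x² + 108B x - 27A²`: the monic form of `ψ₃` of `y² = x³ + A x + B`,
  and the bridge `short_eval_eq` between `ψ₃(W)` and `shortPsi (-27 c₄) (-54 c₆)`.
* `exists_prime_irr3`: the packaged [IRR] statement: if `W` is not 3-irreducible and
  `G(0,·) = shortPsi (-27 c₄(W)) (-54 c₆(W))`, `G` without root in `ℚ[T]`, then there is a prime `q`
  such that for all `M ≠ 0` and all large `k`, every `W'` with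
  `G(M q^k,·) = shortPsi (-27 c₄(W')) (-54 c₆(W'))` is 3-irreducible.
-/

open Polynomial

namespace Fermat.Agent.S52.IrrGlue

/-- the prime `q` only depends on `W`: it works for every family `G` through the monic `ψ₃(W)`. -/
theorem exists_prime_forall_family (W : WeierstrassCurve ℤ) (hΔ : W.Δ ≠ 0)
    (hroot : ∃ x : ℚ, 3 * x ^ 4 + (W.b₂ : ℚ) * x ^ 3 + 3 * (W.b₄ : ℚ) * x ^ 2
      + 3 * (W.b₆ : ℚ) * x + (W.b₈ : ℚ) = 0) :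
    ∃ q : ℕ, q.Prime ∧ ∀ (G : ℤ[X][X]), G.Monic →
      G.map (evalRingHom 0) = X ^ 4 + C W.b₂ * X ^ 3 + C (9 * W.b₄) * X ^ 2
        + C (27 * W.b₆) * X + C (27 * W.b₈) →
      (∀ P : ℚ[X], (G.map (mapRingHom (Int.castRingHom ℚ))).eval P ≠ 0) →
      ∀ M : ℤ, M ≠ 0 → ∃ k₀ : ℕ, ∀ k ≥ k₀, ∀ x : ℚ,
        ((G.map (evalRingHom (M * (q : ℤ) ^ k))).map (Int.castRingHom ℚ)).eval x ≠ 0 := by
  obtain ⟨ξ, Cf, q, hq, -, hfac, hsimple, hC⟩ := IrrRam.exists_prime_bound_psi3 W hΔ hroot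
  exact ⟨q, hq, fun G hG hG0 hnr M hM =>
    IrrPadic.no_rat_root_eventually G hG q hq M hM ξ Cf (hG0.trans hfac) hsimple hC hnr⟩

/-- **[IRR-RAM] ∘ [IRR-PADIC]**, general Weierstrass form. -/
theorem exists_prime_no_rat_root_eventually (W : WeierstrassCurve ℤ) (hΔ : W.Δ ≠ 0)
    (hroot : ∃ x : ℚ, 3 * x ^ 4 + (W.b₂ : ℚ) * x ^ 3 + 3 * (W.b₄ : ℚ) * x ^ 2
      + 3 * (W.b₆ : ℚ) * x + (W.b₈ : ℚ) = 0)
    (G : ℤ[X][X]) (hG : G.Monic)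
    (hG0 : G.map (evalRingHom 0) = X ^ 4 + C W.b₂ * X ^ 3 + C (9 * W.b₄) * X ^ 2
      + C (27 * W.b₆) * X + C (27 * W.b₈))
    (hnr : ∀ P : ℚ[X], (G.map (mapRingHom (Int.castRingHom ℚ))).eval P ≠ 0) :
    ∃ q : ℕ, q.Prime ∧ ∀ M : ℤ, M ≠ 0 → ∃ k₀ : ℕ, ∀ k ≥ k₀, ∀ x : ℚ,
      ((G.map (evalRingHom (M * (q : ℤ) ^ k))).map (Int.castRingHom ℚ)).eval x ≠ 0 := by
  obtain ⟨q, hq, h⟩ := exists_prime_forall_family W hΔ hroot
  exact ⟨q, hq, h G hG hG0 hnr⟩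

/-! ## the short model -/

/-- the monic form `x⁴ + 18A x² + 108B x - 27A²` of the 3-division polynomial of
`y² = x³ + A x + B` (`27 ψ₃(x/3)`). -/
noncomputable def shortPsi (A B : ℤ) : ℤ[X] :=
  X ^ 4 + C (18 * A) * X ^ 2 + C (108 * B) * X - C (27 * A ^ 2)

theorem shortPsi_monic (A B : ℤ) : (shortPsi A B).Monic := by
  unfold shortPsi
  monicity!

theorem eval_shortPsi (A B x : ℤ) :
    (shortPsi A B).eval x = x ^ 4 + 18 * A * x ^ 2 + 108 * B * x - 27 * A ^ 2 := by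
  simp [shortPsi]

theorem eval_map_shortPsi (A B : ℤ) (z : ℚ) :
    ((shortPsi A B).map (Int.castRingHom ℚ)).eval z
      = z ^ 4 + 18 * (A : ℚ) * z ^ 2 + 108 * (B : ℚ) * z - 27 * (A : ℚ) ^ 2 := by
  simp [shortPsi]

theorem aeval_shortPsi (A B : ℤ) (z : ℚ) :
    aeval z (shortPsi A B) = z ^ 4 + 18 * (A : ℚ) * z ^ 2 + 108 * (B : ℚ) * z - 27 * (A : ℚ) ^ 2 := by
  rw [aeval_def, ← eval_map, algebraMap_int_eq, eval_map_shortPsi]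

/-- `ψ₃(W)` at `x` and the monic `ψ₃` of the short model at `z = 108 x + 9 b₂`. -/
theorem short_eval_eq (W : WeierstrassCurve ℤ) (x : ℚ) :
    (108 * x + 9 * (W.b₂ : ℚ)) ^ 4 + 18 * ((-27 * W.c₄ : ℤ) : ℚ) * (108 * x + 9 * (W.b₂ : ℚ)) ^ 2
        + 108 * ((-54 * W.c₆ : ℤ) : ℚ) * (108 * x + 9 * (W.b₂ : ℚ)) - 27 * ((-27 * W.c₄ : ℤ) : ℚ) ^ 2
      = 45349632 * (3 * x ^ 4 + (W.b₂ : ℚ) * x ^ 3 + 3 * (W.b₄ : ℚ) * x ^ 2
        + 3 * (W.b₆ : ℚ) * x + (W.b₈ : ℚ)) := by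
  simp only [WeierstrassCurve.c₄, WeierstrassCurve.c₆, WeierstrassCurve.b₂, WeierstrassCurve.b₄,
    WeierstrassCurve.b₆, WeierstrassCurve.b₈]
  push_cast
  ring

/-- a rational root of `ψ₃(W)` gives an integral root of `shortPsi (-27 c₄) (-54 c₆)`. -/
theorem exists_int_root_shortPsi (W : WeierstrassCurve ℤ)
    (hroot : ∃ x : ℚ, 3 * x ^ 4 + (W.b₂ : ℚ) * x ^ 3 + 3 * (W.b₄ : ℚ) * x ^ 2
      + 3 * (W.b₆ : ℚ) * x + (W.b₈ : ℚ) = 0) :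
    ∃ a : ℤ, (shortPsi (-27 * W.c₄) (-54 * W.c₆)).eval a = 0 := by
  obtain ⟨x, hx⟩ := hroot
  have hz : aeval (108 * x + 9 * (W.b₂ : ℚ)) (shortPsi (-27 * W.c₄) (-54 * W.c₆)) = 0 := by
    rw [aeval_shortPsi, short_eval_eq, hx, mul_zero]
  obtain ⟨n, hn⟩ := IrrRam.exists_int_eq_of_monic_root (shortPsi_monic _ _) hz
  refine ⟨n, ?_⟩
  rw [← hn, aeval_shortPsi] at hz
  rw [eval_shortPsi]
  exact_mod_cast hz

/-- if `shortPsi (-27 c₄) (-54 c₆)` has no rational root then neither has `ψ₃(W)`. -/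
theorem no_rat_root_psi3_of_shortPsi (W : WeierstrassCurve ℤ)
    (h : ∀ z : ℚ, ((shortPsi (-27 * W.c₄) (-54 * W.c₆)).map (Int.castRingHom ℚ)).eval z ≠ 0)
    (x : ℚ) : 3 * x ^ 4 + (W.b₂ : ℚ) * x ^ 3 + 3 * (W.b₄ : ℚ) * x ^ 2
      + 3 * (W.b₆ : ℚ) * x + (W.b₈ : ℚ) ≠ 0 := by
  intro hx
  refine h (108 * x + 9 * (W.b₂ : ℚ)) ?_
  rw [eval_map_shortPsi, short_eval_eq, hx, mul_zero]

/-- **[IRR-RAM] for the short model**: `(ξ, Cf, q)` for `shortPsi (-27 c₄) (-54 c₆)`. -/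
theorem exists_prime_bound_shortPsi (W : WeierstrassCurve ℤ) (hΔ : W.Δ ≠ 0)
    (hroot : ∃ x : ℚ, 3 * x ^ 4 + (W.b₂ : ℚ) * x ^ 3 + 3 * (W.b₄ : ℚ) * x ^ 2
      + 3 * (W.b₆ : ℚ) * x + (W.b₈ : ℚ) = 0) :
    ∃ (ξ : Finset ℤ) (Cf : Polynomial ℤ) (q : ℕ), q.Prime ∧ Cf.Monic ∧
      shortPsi (-27 * W.c₄) (-54 * W.c₆) = (∏ a ∈ ξ, (X - C a)) * Cf ∧
      (∀ a ∈ ξ, Cf.eval a ≠ 0) ∧ ∃ B : ℕ, ∀ x : ℤ, ¬ (q : ℤ) ^ B ∣ Cf.eval x := by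
  obtain ⟨a, ha⟩ := exists_int_root_shortPsi W hroot
  rw [eval_shortPsi] at ha
  have hrel := W.c_relation
  have hw : (2 ^ 12 * 3 ^ 16 * W.Δ : ℤ) ≠ 0 := mul_ne_zero (by norm_num) hΔ
  have hdisc : IrrRam.disc4 0 (18 * (-27 * W.c₄)) (108 * (-54 * W.c₆)) (-(27 * (-27 * W.c₄) ^ 2))
      = -3 * (2 ^ 12 * 3 ^ 16 * W.Δ) ^ 2 := by
    simp only [IrrRam.disc4]
    linear_combination (2 ^ 12 * 3 ^ 27 : ℤ) * (W.c₄ ^ 3 - W.c₆ ^ 2 + 1728 * W.Δ) * hrel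
  obtain ⟨ξ, Cf, q, hq, hCf, hfac, hsimple, hB⟩ :=
    IrrRam.exists_prime_bound_quartic 0 (18 * (-27 * W.c₄)) (108 * (-54 * W.c₆))
      (-(27 * (-27 * W.c₄) ^ 2)) _ hw hdisc ⟨a, by linear_combination ha⟩
  refine ⟨ξ, Cf, q, hq, hCf, ?_, hsimple, hB⟩
  rw [← hfac, shortPsi]
  simp only [map_zero, zero_mul, add_zero, map_neg]
  ring

/-- **[IRR], packaged.**  `W` not 3-irreducible, `G ∈ ℤ[T][x]` monic in `x` without root in `ℚ[T]`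
and with `G(0,·)` the monic `ψ₃` of the short model of `W`.  Then there is a prime `q` such that
for every `M ≠ 0` and all large `k`: every `W'` (with `Δ' ≠ 0`) whose short model has monic `ψ₃`
equal to `G(M q^k,·)` is 3-irreducible. -/
theorem exists_prime_irr3 (W : WeierstrassCurve ℤ) (hΔ : W.Δ ≠ 0)
    (h3 : ¬ W.ModRepIsIrreducible 3) (G : ℤ[X][X]) (hG : G.Monic)
    (hG0 : G.map (evalRingHom 0) = shortPsi (-27 * W.c₄) (-54 * W.c₆))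
    (hnr : ∀ P : ℚ[X], (G.map (mapRingHom (Int.castRingHom ℚ))).eval P ≠ 0) :
    ∃ q : ℕ, q.Prime ∧ ∀ M : ℤ, M ≠ 0 → ∃ k₀ : ℕ, ∀ k ≥ k₀, ∀ W' : WeierstrassCurve ℤ,
      W'.Δ ≠ 0 →
      G.map (evalRingHom (M * (q : ℤ) ^ k)) = shortPsi (-27 * W'.c₄) (-54 * W'.c₆) →
      W'.ModRepIsIrreducible 3 := by
  obtain ⟨ξ, Cf, q, hq, -, hfac, hsimple, hC⟩ :=
    exists_prime_bound_shortPsi W hΔ (Fermat.Agent.S51.exists_rat_root_of_not_irr3 W hΔ h3)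
  refine ⟨q, hq, fun M hM => ?_⟩
  obtain ⟨k₀, hk₀⟩ :=
    IrrPadic.no_rat_root_eventually G hG q hq M hM ξ Cf (hG0.trans hfac) hsimple hC hnr
  refine ⟨k₀, fun k hk W' hΔ' hGk => ?_⟩
  by_contra hirr
  obtain ⟨x, hx⟩ := Fermat.Agent.S51.exists_rat_root_of_not_irr3 W' hΔ' hirr
  refine no_rat_root_psi3_of_shortPsi W' (fun z => ?_) x hx
  rw [← hGk]
  exact hk₀ k hk z

end Fermat.Agent.S52.IrrGlue
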