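import Fermat.Agent.S52.Defs

/-!
# S52 (3-5 switch): interface statements

Every package of the S52 programme proves one of the propositions below (`theorem x : Plan.X`
in its own file); `Fermat/Agent/S52/Top.lean` derives the frozen statement from them.
-/

set_option autoImplicit false
open WeierstrassCurve WeierstrassCurve.Affine WeierstrassCurve.Affine.Point

noncomputable section

namespace Fermat.Agent.S52

/-- Frobenius on the points of `W⁄k`, `k` a field of characteristic `ℓ`, `W` defined over `ℤ`. -/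
def frobPt (ℓ : ℕ) [Fact ℓ.Prime] (k : Type) [Field k] [CharP k ℓ] [DecidableEq k]
    (W : WeierstrassCurve ℤ) : (W⁄k).Point →+ (W⁄k).Point :=
  Point.map (W' := W) (S := ℤ) ((frobenius k ℓ).toIntAlgHom)

namespace Plan

/-- **[STAR]** the Tate presentation of the family (two polynomial identities). -/
def Star : Prop :=
  ∀ (R : Type) [CommRing R] (c s : R),
    fam4 (tc4 c 1) (tc6 c 1) s = tc4 (tN c s) (tM c s) ∧
    fam6 (tc4 c 1) (tc6 c 1) s = tc6 (tN c s) (tM c s)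

/-- **[M2]** the Frobenius quadratic equation `φ² - a_ℓ φ + ℓ = 0` on `E(k)`, for a short
Weierstrass curve `y² = x³ + a x + b` over `ℤ` with good reduction at `ℓ ≥ 5` and `k`
algebraically closed of characteristic `ℓ`; `a_ℓ` is the Prelude's `apOfModel`. -/
def FrobQuadratic : Prop :=
  ∀ (ℓ : ℕ) [Fact ℓ.Prime], 5 ≤ ℓ → ∀ (a b : ℤ), (sw a b).IsGoodPrimeFor ℓ →
    ∀ (k : Type) [Field k] [CharP k ℓ] [IsAlgClosed k] [DecidableEq k]
      (P : ((sw a b)⁄k).Point),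
      frobPt ℓ k (sw a b) (frobPt ℓ k (sw a b) P)
        - (sw a b).apOfModel ℓ • frobPt ℓ k (sw a b) P + (ℓ : ℤ) • P = 0

/-- **[FIVE]** for `ℓ ≥ 7`: an injective, additive, Frobenius-equivariant map from the
5-torsion of `E : y² = x³ - 27 c4 x - 54 c6` to the 5-torsion of the family member `E_s`,
over an algebraically closed field of characteristic `ℓ` (both curves with good reduction). -/
def FiveCongr : Prop :=
  ∀ (ℓ : ℕ) [Fact ℓ.Prime], 7 ≤ ℓ → ∀ (c4 c6 s : ℤ),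
    (swc c4 c6).IsGoodPrimeFor ℓ → (swc (fam4 c4 c6 s) (fam6 c4 c6 s)).IsGoodPrimeFor ℓ →
    ∀ (k : Type) [Field k] [CharP k ℓ] [IsAlgClosed k] [DecidableEq k],
      ∃ ι : ((swc c4 c6)⁄k).Point → ((swc (fam4 c4 c6 s) (fam6 c4 c6 s))⁄k).Point,
        (∀ P Q, (5 : ℕ) • P = 0 → (5 : ℕ) • Q = 0 → ι (P + Q) = ι P + ι Q) ∧
        (∀ P, (5 : ℕ) • P = 0 → ι P = 0 → P = 0) ∧
        (∀ P, (5 : ℕ) • P = 0 →
          ι (frobPt ℓ k (swc c4 c6) P) =
            frobPt ℓ k (swc (fam4 c4 c6 s) (fam6 c4 c6 s)) (ι P))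

/-- **[VC]** for `ℓ ≥ 5` the number of points mod `ℓ` of an integral Weierstrass model equals
that of its short model `y² = x³ - 27 c₄ x - 54 c₆`. -/
def CardShort : Prop :=
  ∀ (ℓ : ℕ) [Fact ℓ.Prime], 5 ≤ ℓ → ∀ W : WeierstrassCurve ℤ,
    W.apOfModel ℓ = (swc W.c₄ W.c₆).apOfModel ℓ

/-- **[MODEL]** semistable integral models of the members `s ≡ 0 mod N`, congruent to `W`
modulo 2 and 3. -/
def Model : Prop :=
  ∀ W : WeierstrassCurve ℤ, W.Δ ≠ 0 → W.IsSemistableModel →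
    ∃ N : ℤ, N ≠ 0 ∧ ∀ s : ℤ, N ∣ s → ∃ W' : WeierstrassCurve ℤ,
      W'.c₄ = fam4 W.c₄ W.c₆ s ∧ W'.c₆ = fam6 W.c₄ W.c₆ s ∧ W'.Δ ≠ 0 ∧ W'.IsSemistableModel ∧
      W'.reductionMod 2 = W.reductionMod 2 ∧ W'.reductionMod 3 = W.reductionMod 3

/-- **[IRR]** if the 3-division polynomial of `W` has a rational root, then in every congruence
class `s ≡ 0 mod N` some member of the family has a 3-division polynomial without rational
root. -/
def Irr : Prop :=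
  ∀ W : WeierstrassCurve ℤ, W.Δ ≠ 0 →
    (∃ x : ℚ, 3 * x ^ 4 + (W.b₂ : ℚ) * x ^ 3 + 3 * (W.b₄ : ℚ) * x ^ 2 + 3 * (W.b₆ : ℚ) * x
      + (W.b₈ : ℚ) = 0) →
    ∀ N : ℤ, N ≠ 0 → ∃ s : ℤ, N ∣ s ∧
      ∀ W' : WeierstrassCurve ℤ, W'.c₄ = fam4 W.c₄ W.c₆ s → W'.c₆ = fam6 W.c₄ W.c₆ s →
        ∀ x : ℚ, 3 * x ^ 4 + (W'.b₂ : ℚ) * x ^ 3 + 3 * (W'.b₄ : ℚ) * x ^ 2
          + 3 * (W'.b₆ : ℚ) * x + (W'.b₈ : ℚ) ≠ 0

end Plan

end Fermat.Agent.S52

end
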