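import Mathlib
import Fermat.Prelude.Def_FLTPrelim_Modularity

/-!
# S52 package [VC]: the short Weierstrass model has the same point counts

For a Weierstrass curve `W` over a field in which `2` and `3` are invertible, the map
`(x, y) ↦ (36 x + 3 b₂, 108 (2 y + a₁ x + a₃))` is a bijection from the nonsingular affine points
of `W` onto those of the short model `Y² = X³ - 27 c₄ X - 54 c₆`.  Hence, for an integral
Weierstrass curve `W` and a prime `ℓ ≥ 5`, the short model `shortModel W` has the same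
`apOfModel` at `ℓ` as `W` (no hypothesis on the discriminant).
-/

set_option autoImplicit false

namespace Fermat.Agent.S52.VCShort

open WeierstrassCurve

/-- The short Weierstrass model `Y² = X³ - 27 c₄ X - 54 c₆` of a Weierstrass curve, over any
commutative ring. -/
def short {R : Type*} [CommRing R] (W : WeierstrassCurve R) : WeierstrassCurve R :=
  ⟨0, 0, 0, -27 * W.c₄, -54 * W.c₆⟩

/-- The short Weierstrass model of an integral Weierstrass curve. -/
def shortModel (W : WeierstrassCurve ℤ) : WeierstrassCurve ℤ := short W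

section Ring

variable {R : Type*} [CommRing R] (W : WeierstrassCurve R)

@[simp] theorem short_a₁ : (short W).a₁ = 0 := rfl
@[simp] theorem short_a₂ : (short W).a₂ = 0 := rfl
@[simp] theorem short_a₃ : (short W).a₃ = 0 := rfl
@[simp] theorem short_a₄ : (short W).a₄ = -27 * W.c₄ := rfl
@[simp] theorem short_a₆ : (short W).a₆ = -54 * W.c₆ := rfl

theorem short_c₄ : (short W).c₄ = 6 ^ 4 * W.c₄ := by
  simp only [c₄, b₂, b₄, short_a₁, short_a₂, short_a₃, short_a₄]
  ring

theorem short_c₆ : (short W).c₆ = 6 ^ 6 * W.c₆ := by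
  simp only [c₆, b₂, b₄, b₆, short_a₁, short_a₂, short_a₃, short_a₄, short_a₆]
  ring

theorem short_Δ : (short W).Δ = 6 ^ 12 * W.Δ := by
  simp only [Δ, b₂, b₄, b₆, b₈, short_a₁, short_a₂, short_a₃, short_a₄, short_a₆, c₄, c₆]
  ring

theorem short_map {S : Type*} [CommRing S] (f : R →+* S) : (short W).map f = short (W.map f) := by
  have h4 : f (-27 * W.c₄) = -27 * (W.map f).c₄ := by
    rw [map_c₄, map_mul, map_neg, map_ofNat]
  have h6 : f (-54 * W.c₆) = -54 * (W.map f).c₆ := by
    rw [map_c₆, map_mul, map_neg, map_ofNat]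
  ext
  · simp [short, WeierstrassCurve.map]
  · simp [short, WeierstrassCurve.map]
  · simp [short, WeierstrassCurve.map]
  · exact h4
  · exact h6

end Ring

section Field

variable {F : Type*} [Field F] (W : WeierstrassCurve F)

/-- The defect of the short equation at the image point is `6⁶` times the defect of the
Weierstrass equation. -/
theorem short_defect (x y : F) :
    (108 * (2 * y + W.a₁ * x + W.a₃)) ^ 2 -
        ((36 * x + 3 * W.b₂) ^ 3 + (-27 * W.c₄) * (36 * x + 3 * W.b₂) + (-54 * W.c₆)) =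
      46656 * (y ^ 2 + W.a₁ * x * y + W.a₃ * y - (x ^ 3 + W.a₂ * x ^ 2 + W.a₄ * x + W.a₆)) := by
  simp only [c₄, c₆, b₂, b₄, b₆]
  ring

theorem short_equation_iff (h2 : (2 : F) ≠ 0) (h3 : (3 : F) ≠ 0) (x y : F) :
    (short W).toAffine.Equation (36 * x + 3 * W.b₂) (108 * (2 * y + W.a₁ * x + W.a₃)) ↔
      W.toAffine.Equation x y := by
  have h6 : (46656 : F) ≠ 0 := by
    have : (46656 : F) = 2 ^ 6 * 3 ^ 6 := by norm_num
    rw [this]
    exact mul_ne_zero (pow_ne_zero _ h2) (pow_ne_zero _ h3)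
  rw [Affine.equation_iff', Affine.equation_iff']
  simp only [short_a₁, short_a₂, short_a₃, short_a₄, short_a₆]
  have key := short_defect W x y
  constructor
  · intro h
    have h' : (46656 : F) * (y ^ 2 + W.a₁ * x * y + W.a₃ * y -
        (x ^ 3 + W.a₂ * x ^ 2 + W.a₄ * x + W.a₆)) = 0 := by
      rw [← key]; linear_combination h
    exact (mul_eq_zero.mp h').resolve_left h6
  · intro h
    linear_combination key + 46656 * h

theorem short_nonsingular_iff (h2 : (2 : F) ≠ 0) (h3 : (3 : F) ≠ 0) (x y : F) :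
    (short W).toAffine.Nonsingular (36 * x + 3 * W.b₂) (108 * (2 * y + W.a₁ * x + W.a₃)) ↔
      W.toAffine.Nonsingular x y := by
  have h216 : (216 : F) ≠ 0 := by
    have : (216 : F) = 2 ^ 3 * 3 ^ 3 := by norm_num
    rw [this]
    exact mul_ne_zero (pow_ne_zero _ h2) (pow_ne_zero _ h3)
  have h1296 : (1296 : F) ≠ 0 := by
    have : (1296 : F) = 2 ^ 4 * 3 ^ 4 := by norm_num
    rw [this]
    exact mul_ne_zero (pow_ne_zero _ h2) (pow_ne_zero _ h3)
  rw [Affine.nonsingular_iff', Affine.nonsingular_iff', short_equation_iff W h2 h3]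
  simp only [short_a₁, short_a₂, short_a₃, short_a₄]
  -- partial derivatives
  have kX : (0 : F) * (108 * (2 * y + W.a₁ * x + W.a₃)) -
        (3 * (36 * x + 3 * W.b₂) ^ 2 + 2 * 0 * (36 * x + 3 * W.b₂) + -27 * W.c₄) =
      1296 * (W.a₁ * y - (3 * x ^ 2 + 2 * W.a₂ * x + W.a₄)) -
        648 * W.a₁ * (2 * y + W.a₁ * x + W.a₃) := by
    simp only [c₄, b₂, b₄]
    ring
  have kY : (2 : F) * (108 * (2 * y + W.a₁ * x + W.a₃)) + 0 * (36 * x + 3 * W.b₂) + 0 =
      216 * (2 * y + W.a₁ * x + W.a₃) := by ring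
  rw [kX, kY]
  refine and_congr_right fun _ => ?_
  constructor
  · rintro (h | h)
    · by_cases hη : 2 * y + W.a₁ * x + W.a₃ = 0
      · left
        intro h0
        apply h
        rw [h0, hη]; ring
      · exact Or.inr hη
    · right
      intro h0
      apply h
      rw [h0]; ring
  · rintro (h | h)
    · by_cases hη : 2 * y + W.a₁ * x + W.a₃ = 0
      · left
        rw [hη, mul_zero, sub_zero]
        exact mul_ne_zero h1296 h
      · exact Or.inr (mul_ne_zero h216 hη)
    · exact Or.inr (mul_ne_zero h216 h)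

/-- The inverse change of coordinates also preserves nonsingularity. -/
theorem short_nonsingular_inv (h2 : (2 : F) ≠ 0) (h3 : (3 : F) ≠ 0) {X Y : F}
    (h : (short W).toAffine.Nonsingular X Y) :
    W.toAffine.Nonsingular ((X - 3 * W.b₂) / 36)
      ((Y / 108 - W.a₁ * ((X - 3 * W.b₂) / 36) - W.a₃) / 2) := by
  have h36 : (36 : F) ≠ 0 := by
    have : (36 : F) = 2 ^ 2 * 3 ^ 2 := by norm_num
    rw [this]
    exact mul_ne_zero (pow_ne_zero _ h2) (pow_ne_zero _ h3)
  have h108 : (108 : F) ≠ 0 := by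
    have : (108 : F) = 2 ^ 2 * 3 ^ 3 := by norm_num
    rw [this]
    exact mul_ne_zero (pow_ne_zero _ h2) (pow_ne_zero _ h3)
  rw [← short_nonsingular_iff W h2 h3]
  have e1 : 36 * ((X - 3 * W.b₂) / 36) + 3 * W.b₂ = X := by field_simp; ring
  have e2 : 108 * (2 * ((Y / 108 - W.a₁ * ((X - 3 * W.b₂) / 36) - W.a₃) / 2) +
      W.a₁ * ((X - 3 * W.b₂) / 36) + W.a₃) = Y := by field_simp; ring
  rw [e1, e2]
  exact h

/-- The bijection between the points of a Weierstrass curve and of its short model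
(characteristic `≠ 2, 3`). -/
noncomputable def pointEquiv (h2 : (2 : F) ≠ 0) (h3 : (3 : F) ≠ 0) :
    W.toAffine.Point ≃ (short W).toAffine.Point where
  toFun P := match P with
    | .zero => .zero
    | .some x y h => .some (36 * x + 3 * W.b₂) (108 * (2 * y + W.a₁ * x + W.a₃))
        ((short_nonsingular_iff W h2 h3 x y).mpr h)
  invFun Q := match Q with
    | .zero => .zero
    | .some X Y h => .some ((X - 3 * W.b₂) / 36)
        ((Y / 108 - W.a₁ * ((X - 3 * W.b₂) / 36) - W.a₃) / 2)
        (short_nonsingular_inv W h2 h3 h)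
  left_inv P := by
    have h36 : (36 : F) ≠ 0 := by
      have : (36 : F) = 2 ^ 2 * 3 ^ 2 := by norm_num
      rw [this]
      exact mul_ne_zero (pow_ne_zero _ h2) (pow_ne_zero _ h3)
    have h108 : (108 : F) ≠ 0 := by
      have : (108 : F) = 2 ^ 2 * 3 ^ 3 := by norm_num
      rw [this]
      exact mul_ne_zero (pow_ne_zero _ h2) (pow_ne_zero _ h3)
    rcases P with _ | ⟨x, y, h⟩
    · rfl
    · have e1 : (36 * x + 3 * W.b₂ - 3 * W.b₂) / 36 = x := by field_simp; ring
      have e2 : (108 * (2 * y + W.a₁ * x + W.a₃) / 108 -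
          W.a₁ * ((36 * x + 3 * W.b₂ - 3 * W.b₂) / 36) - W.a₃) / 2 = y := by
        rw [e1]; field_simp; ring
      simp only [Affine.Point.some.injEq]
      exact ⟨e1, e2⟩
  right_inv Q := by
    have h36 : (36 : F) ≠ 0 := by
      have : (36 : F) = 2 ^ 2 * 3 ^ 2 := by norm_num
      rw [this]
      exact mul_ne_zero (pow_ne_zero _ h2) (pow_ne_zero _ h3)
    have h108 : (108 : F) ≠ 0 := by
      have : (108 : F) = 2 ^ 2 * 3 ^ 3 := by norm_num
      rw [this]
      exact mul_ne_zero (pow_ne_zero _ h2) (pow_ne_zero _ h3)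
    rcases Q with _ | ⟨X, Y, h⟩
    · rfl
    · have e1 : 36 * ((X - 3 * W.b₂) / 36) + 3 * W.b₂ = X := by field_simp; ring
      have e2 : 108 * (2 * ((Y / 108 - W.a₁ * ((X - 3 * W.b₂) / 36) - W.a₃) / 2) +
          W.a₁ * ((X - 3 * W.b₂) / 36) + W.a₃) = Y := by field_simp; ring
      simp only [Affine.Point.some.injEq]
      exact ⟨e1, e2⟩

/-- A Weierstrass curve over a field of characteristic `≠ 2, 3` and its short model have the
same number of points. -/
theorem card_short (h2 : (2 : F) ≠ 0) (h3 : (3 : F) ≠ 0) :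
    Nat.card (short W).toAffine.Point = Nat.card W.toAffine.Point :=
  (Nat.card_congr (pointEquiv W h2 h3)).symm

end Field

/-- Reduction commutes with passing to the short model. -/
theorem reductionMod_shortModel (W : WeierstrassCurve ℤ) (ℓ : ℕ) :
    (shortModel W).reductionMod ℓ = short (W.reductionMod ℓ) :=
  short_map W (Int.castRingHom (ZMod ℓ))

/-- **[VC]** For a prime `ℓ ≥ 5`, the short model has the same trace of Frobenius at `ℓ`. -/
theorem apOfModel_shortModel (W : WeierstrassCurve ℤ) (ℓ : ℕ) (hℓ : ℓ.Prime) (h5 : 5 ≤ ℓ) :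
    (shortModel W).apOfModel ℓ = W.apOfModel ℓ := by
  have : Fact ℓ.Prime := ⟨hℓ⟩
  have h2 : ((2 : ℕ) : ZMod ℓ) ≠ 0 := by
    rw [Ne, ZMod.natCast_eq_zero_iff]
    intro h
    have := Nat.le_of_dvd (by norm_num) h
    omega
  have h3 : ((3 : ℕ) : ZMod ℓ) ≠ 0 := by
    rw [Ne, ZMod.natCast_eq_zero_iff]
    intro h
    have := Nat.le_of_dvd (by norm_num) h
    omega
  have h2' : (2 : ZMod ℓ) ≠ 0 := by exact_mod_cast h2
  have h3' : (3 : ZMod ℓ) ≠ 0 := by exact_mod_cast h3
  unfold apOfModel traceOfFrobenius card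
  rw [reductionMod_shortModel, card_short (W.reductionMod ℓ) h2' h3']

theorem shortModel_c₄ (W : WeierstrassCurve ℤ) : (shortModel W).c₄ = 6 ^ 4 * W.c₄ := short_c₄ W

theorem shortModel_c₆ (W : WeierstrassCurve ℤ) : (shortModel W).c₆ = 6 ^ 6 * W.c₆ := short_c₆ W

theorem shortModel_Δ (W : WeierstrassCurve ℤ) : (shortModel W).Δ = 6 ^ 12 * W.Δ := short_Δ W

end Fermat.Agent.S52.VCShort
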