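/-
S52 — Plan-shaped providers `Plan.FrobQuadratic` and `Plan.CardShort`.  Owner: helper66.

`Plan.FrobQuadratic` is stated for a short curve `sw a b` over `ℤ`, base-changed to a field `k`
of characteristic `ℓ` (`[CharP k ℓ]`), with Frobenius `Point.map ((frobenius k ℓ).toIntAlgHom)`.
The landed `M2.frob_quadratic` is stated for the reduction `E0` over `ZMod ℓ`, base-changed along
an `Algebra (ZMod ℓ) k`, with Frobenius `Point.map (FiniteField.frobeniusAlgHom (ZMod ℓ) k)`.
The two curves over `k` are EQUAL and both Frobenii act by `(x, y) ↦ (x ^ ℓ, y ^ ℓ)`; this file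
provides the transport (`pointCongr`, `pointCongr_comm`, `quad_transfer`) and the two providers.
-/
import Mathlib
import Fermat.Agent.S52.Plan
import Fermat.Agent.S52.M2.Main
import Fermat.Agent.S52.VCShort

set_option autoImplicit false

open WeierstrassCurve WeierstrassCurve.Affine

namespace Fermat.Agent.S52.PlanFrob

/-! ### Transport of points along an equality of curves -/

section Transport

variable {k : Type*} [Field k] [DecidableEq k]

/-- Transport of points along an equality of curves. -/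
def pointCongr {W₁ W₂ : Affine k} (h : W₁ = W₂) : W₁.Point ≃+ W₂.Point := by
  subst h
  exact AddEquiv.refl _

lemma pointCongr_zero {W₁ W₂ : Affine k} (h : W₁ = W₂) :
    pointCongr h (0 : W₁.Point) = 0 :=
  map_zero _

lemma pointCongr_some {W₁ W₂ : Affine k} (h : W₁ = W₂) {x y : k} (hxy : W₁.Nonsingular x y) :
    pointCongr h (Point.some x y hxy) = Point.some x y (h ▸ hxy) := by
  subst h
  rfl

omit [DecidableEq k] in
/-- Two points with equal coordinates are equal. -/
lemma some_eq_of_eq {W : Affine k} {x y x' y' : k} (h : W.Nonsingular x y) (hx : x = x')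
    (hy : y = y') : ∃ h' : W.Nonsingular x' y', Point.some x y h = Point.some x' y' h' := by
  subst hx hy
  exact ⟨h, rfl⟩

/-- Endomorphisms of two equal curves which act by the same coordinate map `g` on affine points
correspond under the transport. -/
theorem pointCongr_comm {W₁ W₂ : Affine k} (h : W₁ = W₂) (φ₁ : W₁.Point →+ W₁.Point)
    (φ₂ : W₂.Point →+ W₂.Point) (g : k → k)
    (h₁ : ∀ (x y : k) (hxy : W₁.Nonsingular x y), ∃ h' : W₁.Nonsingular (g x) (g y),
      φ₁ (Point.some x y hxy) = Point.some (g x) (g y) h')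
    (h₂ : ∀ (x y : k) (hxy : W₂.Nonsingular x y), ∃ h' : W₂.Nonsingular (g x) (g y),
      φ₂ (Point.some x y hxy) = Point.some (g x) (g y) h')
    (P : W₁.Point) : pointCongr h (φ₁ P) = φ₂ (pointCongr h P) := by
  subst h
  show φ₁ P = φ₂ P
  rcases P with _ | ⟨x, y, hxy⟩
  · show φ₁ 0 = φ₂ 0
    rw [map_zero, map_zero]
  · obtain ⟨h1, e1⟩ := h₁ x y hxy
    obtain ⟨h2, e2⟩ := h₂ x y hxy
    rw [e1, e2]

/-- Transfer of a quadratic relation along an equality of curves. -/
theorem quad_transfer {W₁ W₂ : Affine k} (h : W₁ = W₂) (φ₁ : W₁.Point →+ W₁.Point)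
    (φ₂ : W₂.Point →+ W₂.Point) (g : k → k)
    (h₁ : ∀ (x y : k) (hxy : W₁.Nonsingular x y), ∃ h' : W₁.Nonsingular (g x) (g y),
      φ₁ (Point.some x y hxy) = Point.some (g x) (g y) h')
    (h₂ : ∀ (x y : k) (hxy : W₂.Nonsingular x y), ∃ h' : W₂.Nonsingular (g x) (g y),
      φ₂ (Point.some x y hxy) = Point.some (g x) (g y) h')
    (a n : ℤ) (hq : ∀ Q : W₂.Point, φ₂ (φ₂ Q) - a • φ₂ Q + n • Q = 0) (P : W₁.Point) :
    φ₁ (φ₁ P) - a • φ₁ P + n • P = 0 := by
  apply (pointCongr h).injective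
  rw [map_zero, map_add, map_sub, map_zsmul, map_zsmul, pointCongr_comm h φ₁ φ₂ g h₁ h₂,
    pointCongr_comm h φ₁ φ₂ g h₁ h₂]
  exact hq _

end Transport

/-! ### The two base changes agree -/

/-- For `W` over `ℤ` and `k` of characteristic `ℓ`: base-changing the reduction mod `ℓ` along
`ZMod.algebra k ℓ` gives the base change of `W` to `k`. -/
theorem baseChange_reductionMod (W : WeierstrassCurve ℤ) (ℓ : ℕ) (k : Type*) [Field k]
    [CharP k ℓ] :
    (W.reductionMod ℓ).map (@algebraMap (ZMod ℓ) k _ _ (ZMod.algebra k ℓ)) =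
      W.map (algebraMap ℤ k) := by
  unfold WeierstrassCurve.reductionMod
  rw [WeierstrassCurve.map_map]
  congr 1
  exact RingHom.ext_int _ _

/-- The Prelude's trace of Frobenius in terms of the point count of the reduction. -/
theorem apOfModel_eq (W : WeierstrassCurve ℤ) (ℓ : ℕ) :
    W.apOfModel ℓ = (ℓ : ℤ) + 1 - (Nat.card (W.reductionMod ℓ).toAffine.Point : ℤ) := by
  rw [WeierstrassCurve.apOfModel, WeierstrassCurve.traceOfFrobenius, WeierstrassCurve.card,
    Nat.card_zmod]

/-- The Frobenius `𝔽_ℓ`-algebra endomorphism is `x ↦ x ^ ℓ`. -/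
lemma frobeniusAlgHom_apply' (ℓ : ℕ) [Fact ℓ.Prime] (k : Type*) [Field k] [Algebra (ZMod ℓ) k]
    (x : k) : FiniteField.frobeniusAlgHom (ZMod ℓ) k x = x ^ ℓ := by
  rw [FiniteField.coe_frobeniusAlgHom, ZMod.card]

/-- Good reduction means nonzero discriminant of the reduction. -/
lemma reductionMod_Δ_ne_zero' (ℓ : ℕ) [Fact ℓ.Prime] (W : WeierstrassCurve ℤ)
    (hg : W.IsGoodPrimeFor ℓ) : (W.reductionMod ℓ).Δ ≠ 0 := by
  rw [WeierstrassCurve.reductionMod, WeierstrassCurve.map_Δ]
  intro h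
  exact hg ((ZMod.intCast_zmod_eq_zero_iff_dvd _ _).mp h)

/-! ### The providers -/

/-- The Frobenius quadratic equation on `(W⁄k).Point` for ANY integral model `W` whose reduction
mod `ℓ` is short (`a₁ = a₂ = a₃ = 0` mod `ℓ`) and nonsingular, `k` algebraically closed of
characteristic `ℓ`, in helper52's `frobPt` vocabulary. -/
theorem frob_quadratic_int (ℓ : ℕ) [Fact ℓ.Prime] (W : WeierstrassCurve ℤ)
    (h1 : (W.reductionMod ℓ).a₁ = 0) (h2 : (W.reductionMod ℓ).a₂ = 0)
    (h3 : (W.reductionMod ℓ).a₃ = 0) (hg : W.IsGoodPrimeFor ℓ)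
    (k : Type) [Field k] [CharP k ℓ] [IsAlgClosed k] [DecidableEq k] (P : (W⁄k).Point) :
    frobPt ℓ k W (frobPt ℓ k W P) - W.apOfModel ℓ • frobPt ℓ k W P + (ℓ : ℤ) • P = 0 := by
  letI : Algebra (ZMod ℓ) k := ZMod.algebra k ℓ
  have hcurve : (W⁄k) = ((W.reductionMod ℓ).toAffine⁄k) :=
    (baseChange_reductionMod W ℓ k).symm
  have hq := M2.frob_quadratic ℓ (W.reductionMod ℓ) k h1 h2 h3 (reductionMod_Δ_ne_zero' ℓ W hg)
  rw [← apOfModel_eq] at hq
  refine quad_transfer hcurve (frobPt ℓ k W) (M2.frobPt ℓ (W.reductionMod ℓ) k)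
    (fun x => x ^ ℓ) ?_ ?_ _ _ hq P
  · intro x y hxy
    exact ⟨_, rfl⟩
  · intro x y hxy
    have e : M2.frobPt ℓ (W.reductionMod ℓ) k (Point.some x y hxy) =
        Point.some (FiniteField.frobeniusAlgHom (ZMod ℓ) k x)
          (FiniteField.frobeniusAlgHom (ZMod ℓ) k y)
          (((W.reductionMod ℓ).toAffine.baseChange_nonsingular
            (FiniteField.frobeniusAlgHom (ZMod ℓ) k).injective ..).mpr hxy) := rfl
    rw [e]
    exact some_eq_of_eq _ (frobeniusAlgHom_apply' ℓ k x) (frobeniusAlgHom_apply' ℓ k y)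

/-- **`Plan.FrobQuadratic`** (helper52's contract, verbatim). -/
theorem frobQuadratic : Plan.FrobQuadratic := by
  intro ℓ _ _h5 a b hg k _ _ _ _ P
  exact frob_quadratic_int ℓ (sw a b) (by simp [WeierstrassCurve.reductionMod, sw])
    (by simp [WeierstrassCurve.reductionMod, sw]) (by simp [WeierstrassCurve.reductionMod, sw])
    hg k P

/-- **`Plan.CardShort`** (helper52's contract, verbatim). -/
theorem cardShort : Plan.CardShort := by
  intro ℓ _ h5 W
  exact (VCShort.apOfModel_shortModel W ℓ Fact.out h5).symm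

end Fermat.Agent.S52.PlanFrob
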