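/-
S52 (W1) — bridge between an integral Weierstrass model, its short model
`y² = x³ - 27 c₄ x - 54 c₆`, and the reduction of the short model modulo a prime `ℓ ≥ 5`.
Owner: helper66.

* coefficients of `shortModel W` and of `(shortModel W).reductionMod ℓ`;
* good primes: `(shortModel W).IsGoodPrimeFor ℓ ↔ W.IsGoodPrimeFor ℓ` for `ℓ ≥ 5`;
* characteristic facts `(n : k) ≠ 0` for `0 < n < ℓ` over an `𝔽_ℓ`-algebra `k`;
* the composite `[VC] + [TR3]`: a Frobenius-equivariant injection on the `5`-torsion of the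
  reductions of the short models gives `5 ∣ a_ℓ(W') - a_ℓ(W)` for ARBITRARY integral models.
-/
import Mathlib
import Fermat.Prelude.Def_FLTPrelim_Modularity
import Fermat.Agent.S52.VCShort
import Fermat.Agent.S52.TraceCong

set_option autoImplicit false

open WeierstrassCurve WeierstrassCurve.Affine

namespace Fermat.Agent.S52.ShortBridge

open Fermat.Agent.S52.VCShort

/-! ### Coefficients of the short model -/

theorem shortModel_a₁ (W : WeierstrassCurve ℤ) : (shortModel W).a₁ = 0 := rfl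

theorem shortModel_a₂ (W : WeierstrassCurve ℤ) : (shortModel W).a₂ = 0 := rfl

theorem shortModel_a₃ (W : WeierstrassCurve ℤ) : (shortModel W).a₃ = 0 := rfl

theorem shortModel_a₄ (W : WeierstrassCurve ℤ) : (shortModel W).a₄ = -27 * W.c₄ := rfl

theorem shortModel_a₆ (W : WeierstrassCurve ℤ) : (shortModel W).a₆ = -54 * W.c₆ := rfl

/-! ### Good primes -/

/-- A prime `ℓ ≥ 5` does not divide `6 ^ 12`. -/
theorem not_dvd_six_pow {ℓ : ℕ} (hℓ : ℓ.Prime) (h5 : 5 ≤ ℓ) : ¬ (ℓ : ℤ) ∣ 6 ^ 12 := by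
  intro h
  have h' : ℓ ∣ 6 ^ 12 := by exact_mod_cast h
  have h6 : ℓ ∣ 6 := hℓ.dvd_of_dvd_pow h'
  have hle : ℓ ≤ 6 := Nat.le_of_dvd (by norm_num) h6
  rcases (show ℓ = 5 ∨ ℓ = 6 by omega) with rfl | rfl
  · norm_num at h6
  · norm_num at hℓ

/-- For `ℓ ≥ 5` the short model has good reduction at `ℓ` iff the model has. -/
theorem isGoodPrimeFor_shortModel_iff (W : WeierstrassCurve ℤ) {ℓ : ℕ} (hℓ : ℓ.Prime)
    (h5 : 5 ≤ ℓ) : (shortModel W).IsGoodPrimeFor ℓ ↔ W.IsGoodPrimeFor ℓ := by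
  unfold WeierstrassCurve.IsGoodPrimeFor
  rw [shortModel_Δ]
  have hp : Prime (ℓ : ℤ) := Nat.prime_iff_prime_int.mp hℓ
  constructor
  · intro h hd
    exact h (Dvd.dvd.mul_left hd _)
  · intro h hd
    rcases hp.dvd_or_dvd hd with h1 | h1
    · exact not_dvd_six_pow hℓ h5 h1
    · exact h h1

theorem isGoodPrimeFor_shortModel (W : WeierstrassCurve ℤ) {ℓ : ℕ} (hℓ : ℓ.Prime)
    (h5 : 5 ≤ ℓ) (hg : W.IsGoodPrimeFor ℓ) : (shortModel W).IsGoodPrimeFor ℓ :=
  (isGoodPrimeFor_shortModel_iff W hℓ h5).mpr hg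

/-! ### The reduction of the short model -/

theorem reductionMod_shortModel_a₁ (W : WeierstrassCurve ℤ) (ℓ : ℕ) :
    ((shortModel W).reductionMod ℓ).a₁ = 0 := by
  simp [WeierstrassCurve.reductionMod, shortModel_a₁]

theorem reductionMod_shortModel_a₂ (W : WeierstrassCurve ℤ) (ℓ : ℕ) :
    ((shortModel W).reductionMod ℓ).a₂ = 0 := by
  simp [WeierstrassCurve.reductionMod, shortModel_a₂]

theorem reductionMod_shortModel_a₃ (W : WeierstrassCurve ℤ) (ℓ : ℕ) :
    ((shortModel W).reductionMod ℓ).a₃ = 0 := by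
  simp [WeierstrassCurve.reductionMod, shortModel_a₃]

theorem reductionMod_shortModel_a₄ (W : WeierstrassCurve ℤ) (ℓ : ℕ) :
    ((shortModel W).reductionMod ℓ).a₄ = -27 * ((W.c₄ : ℤ) : ZMod ℓ) := by
  simp [WeierstrassCurve.reductionMod, shortModel_a₄]

theorem reductionMod_shortModel_a₆ (W : WeierstrassCurve ℤ) (ℓ : ℕ) :
    ((shortModel W).reductionMod ℓ).a₆ = -54 * ((W.c₆ : ℤ) : ZMod ℓ) := by
  simp [WeierstrassCurve.reductionMod, shortModel_a₆]

/-- The reduction of the short model at a good prime `ℓ ≥ 5` is nonsingular. -/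
theorem reductionMod_shortModel_Δ_ne_zero (W : WeierstrassCurve ℤ) (ℓ : ℕ) [Fact ℓ.Prime]
    (h5 : 5 ≤ ℓ) (hg : W.IsGoodPrimeFor ℓ) : ((shortModel W).reductionMod ℓ).Δ ≠ 0 :=
  TraceCong.reductionMod_Δ_ne_zero ℓ (shortModel W)
    (isGoodPrimeFor_shortModel W (Fact.out : ℓ.Prime) h5 hg)

/-- Reduction of a value of a natural family: `(F ℤ a b s mod ℓ) = F 𝔽_ℓ (a mod ℓ) …`. -/
theorem intCast_family (F4 : ∀ (R : Type) [CommRing R], R → R → R → R)
    (nat4 : ∀ (R S : Type) [CommRing R] [CommRing S] (φ : R →+* S) (a b s : R),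
      φ (F4 R a b s) = F4 S (φ a) (φ b) (φ s)) (ℓ : ℕ) (a b s : ℤ) :
    ((F4 ℤ a b s : ℤ) : ZMod ℓ) = F4 (ZMod ℓ) (a : ZMod ℓ) (b : ZMod ℓ) (s : ZMod ℓ) :=
  nat4 ℤ (ZMod ℓ) (Int.castRingHom (ZMod ℓ)) a b s

/-! ### Characteristic facts -/

/-- Over an `𝔽_ℓ`-algebra which is a field, `(n : k) ≠ 0` for `0 < n < ℓ`. -/
theorem natCast_ne_zero_of_lt (ℓ : ℕ) [Fact ℓ.Prime] (k : Type*) [Field k] [Algebra (ZMod ℓ) k]
    {n : ℕ} (hn0 : 0 < n) (hn : n < ℓ) : (n : k) ≠ 0 := by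
  have h : ((n : ℕ) : ZMod ℓ) ≠ 0 := by
    rw [Ne, ZMod.natCast_eq_zero_iff]
    intro hd
    have := Nat.le_of_dvd hn0 hd
    omega
  intro h0
  apply h
  apply (algebraMap (ZMod ℓ) k).injective
  rw [map_natCast, map_zero]
  exact h0

theorem two_ne_zero_of_five_le (ℓ : ℕ) [Fact ℓ.Prime] (h5 : 5 ≤ ℓ) (k : Type*) [Field k]
    [Algebra (ZMod ℓ) k] : (2 : k) ≠ 0 := by
  have := natCast_ne_zero_of_lt ℓ k (n := 2) (by norm_num) (by omega)
  exact_mod_cast this

theorem three_ne_zero_of_five_le (ℓ : ℕ) [Fact ℓ.Prime] (h5 : 5 ≤ ℓ) (k : Type*) [Field k]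
    [Algebra (ZMod ℓ) k] : (3 : k) ≠ 0 := by
  have := natCast_ne_zero_of_lt ℓ k (n := 3) (by norm_num) (by omega)
  exact_mod_cast this

theorem five_ne_zero_of_seven_le (ℓ : ℕ) [Fact ℓ.Prime] (h7 : 7 ≤ ℓ) (k : Type*) [Field k]
    [Algebra (ZMod ℓ) k] : (5 : k) ≠ 0 := by
  have := natCast_ne_zero_of_lt ℓ k (n := 5) (by norm_num) (by omega)
  exact_mod_cast this

/-- A prime `ℓ ≥ 5` with `ℓ ≠ 5` is `≥ 7`. -/
theorem seven_le_of_prime {ℓ : ℕ} (hℓ : ℓ.Prime) (h5 : 5 ≤ ℓ) (hne : ℓ ≠ 5) : 7 ≤ ℓ := by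
  by_contra h
  have h6 : ℓ = 6 := by omega
  subst h6
  norm_num at hℓ

/-- A prime `ℓ` is `2`, `3` or `≥ 5`. -/
theorem prime_cases {ℓ : ℕ} (hℓ : ℓ.Prime) : ℓ = 2 ∨ ℓ = 3 ∨ 5 ≤ ℓ := by
  by_contra h
  push Not at h
  obtain ⟨h2, h3, h5⟩ := h
  have h1 := hℓ.two_le
  have h4 : ℓ = 4 := by omega
  subst h4
  norm_num at hℓ

/-! ### The composite `[VC] + [TR3]` -/

/-- **(W1)** For ARBITRARY integral models `W`, `W'` with good reduction at a prime `ℓ ≥ 7`:
a Frobenius-equivariant injection between the `5`-torsion of the reductions of the SHORT models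
gives `5 ∣ a_ℓ(W') - a_ℓ(W)`. -/
theorem apOfModel_congr_of_five_map (hFQ : M2.FrobQuadStmt.{0}) (ℓ : ℕ) [Fact ℓ.Prime]
    (h7 : 7 ≤ ℓ) (W W' : WeierstrassCurve ℤ) (hg : W.IsGoodPrimeFor ℓ)
    (hg' : W'.IsGoodPrimeFor ℓ)
    (k : Type) [Field k] [Algebra (ZMod ℓ) k] [IsAlgClosed k] [DecidableEq k]
    (ι : Submodule.torsionBy ℤ (((shortModel W).reductionMod ℓ).toAffine⁄k).Point 5 →+
      Submodule.torsionBy ℤ (((shortModel W').reductionMod ℓ).toAffine⁄k).Point 5)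
    (hι : Function.Injective ι)
    (hcomm : ∀ (f : k →ₐ[ZMod ℓ] k)
      (P Q : Submodule.torsionBy ℤ (((shortModel W).reductionMod ℓ).toAffine⁄k).Point 5),
      (Q : (((shortModel W).reductionMod ℓ).toAffine⁄k).Point) =
          Point.map (W' := ((shortModel W).reductionMod ℓ).toAffine) f
            (P : (((shortModel W).reductionMod ℓ).toAffine⁄k).Point) →
        ((ι Q : Submodule.torsionBy ℤ (((shortModel W').reductionMod ℓ).toAffine⁄k).Point 5) :
            (((shortModel W').reductionMod ℓ).toAffine⁄k).Point) =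
          Point.map (W' := ((shortModel W').reductionMod ℓ).toAffine) f
            ((ι P : Submodule.torsionBy ℤ
              (((shortModel W').reductionMod ℓ).toAffine⁄k).Point 5) :
              (((shortModel W').reductionMod ℓ).toAffine⁄k).Point)) :
    (5 : ℤ) ∣ W'.apOfModel ℓ - W.apOfModel ℓ := by
  have hℓ : ℓ.Prime := Fact.out
  have h5 : 5 ≤ ℓ := by omega
  rw [← apOfModel_shortModel W ℓ hℓ h5, ← apOfModel_shortModel W' ℓ hℓ h5]
  exact TraceCong.apOfModel_congr ℓ hFQ (by omega) (shortModel W) (shortModel W')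
    (shortModel_a₁ W) (shortModel_a₂ W) (shortModel_a₃ W) (isGoodPrimeFor_shortModel W hℓ h5 hg)
    (shortModel_a₁ W') (shortModel_a₂ W') (shortModel_a₃ W')
    (isGoodPrimeFor_shortModel W' hℓ h5 hg') k ι hι hcomm

/-- **(W1), existential form over `k = AlgebraicClosure (ZMod ℓ)`.** -/
theorem apOfModel_congr_of_exists_five_map (hFQ : M2.FrobQuadStmt.{0}) (ℓ : ℕ) [Fact ℓ.Prime]
    (h7 : 7 ≤ ℓ) (W W' : WeierstrassCurve ℤ) (hg : W.IsGoodPrimeFor ℓ)
    (hg' : W'.IsGoodPrimeFor ℓ)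
    (hFive : ∀ [DecidableEq (AlgebraicClosure (ZMod ℓ))],
      ∃ ι : Submodule.torsionBy ℤ
          (((shortModel W).reductionMod ℓ).toAffine⁄(AlgebraicClosure (ZMod ℓ))).Point 5 →+
        Submodule.torsionBy ℤ
          (((shortModel W').reductionMod ℓ).toAffine⁄(AlgebraicClosure (ZMod ℓ))).Point 5,
        Function.Injective ι ∧
        ∀ (f : AlgebraicClosure (ZMod ℓ) →ₐ[ZMod ℓ] AlgebraicClosure (ZMod ℓ))
          (P Q : Submodule.torsionBy ℤ
            (((shortModel W).reductionMod ℓ).toAffine⁄(AlgebraicClosure (ZMod ℓ))).Point 5),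
          (Q : (((shortModel W).reductionMod ℓ).toAffine⁄(AlgebraicClosure (ZMod ℓ))).Point) =
              Point.map (W' := ((shortModel W).reductionMod ℓ).toAffine) f
                (P : (((shortModel W).reductionMod ℓ).toAffine⁄(AlgebraicClosure (ZMod ℓ))).Point) →
            ((ι Q : Submodule.torsionBy ℤ
                (((shortModel W').reductionMod ℓ).toAffine⁄(AlgebraicClosure (ZMod ℓ))).Point 5) :
                (((shortModel W').reductionMod ℓ).toAffine⁄(AlgebraicClosure (ZMod ℓ))).Point) =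
              Point.map (W' := ((shortModel W').reductionMod ℓ).toAffine) f
                ((ι P : Submodule.torsionBy ℤ
                  (((shortModel W').reductionMod ℓ).toAffine⁄(AlgebraicClosure (ZMod ℓ))).Point 5) :
                  (((shortModel W').reductionMod ℓ).toAffine⁄(AlgebraicClosure (ZMod ℓ))).Point)) :
    (5 : ℤ) ∣ W'.apOfModel ℓ - W.apOfModel ℓ := by
  classical
  obtain ⟨ι, hι, hcomm⟩ := hFive
  exact apOfModel_congr_of_five_map hFQ ℓ h7 W W' hg hg' (AlgebraicClosure (ZMod ℓ)) ι hι hcomm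

end Fermat.Agent.S52.ShortBridge
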