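import Fermat.Agent.S52.Plan
import Fermat.Prelude.Def_FLTPrelim_ModularRep
import Fermat.Agent.S51.Tors3
import Fermat.Agent.Lib.DivPoly.Count

/-!
# S52 (3-5 switch): the frozen statement from the interface propositions of `Plan.lean`
-/

set_option autoImplicit false
open WeierstrassCurve WeierstrassCurve.Affine WeierstrassCurve.Affine.Point

noncomputable section

namespace Fermat.Agent.S52

theorem sw_Δ {R : Type*} [CommRing R] (a b : R) : (sw a b).Δ = -16 * (4 * a ^ 3 + 27 * b ^ 2) := by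
  simp only [sw, WeierstrassCurve.Δ, WeierstrassCurve.b₂, WeierstrassCurve.b₄, WeierstrassCurve.b₆,
    WeierstrassCurve.b₈]
  ring

theorem swc_Δ_eq {R : Type*} [CommRing R] (c4 c6 : R) :
    (swc c4 c6).Δ = 2 ^ 6 * 3 ^ 9 * (c4 ^ 3 - c6 ^ 2) := by
  rw [swc, sw_Δ]; ring

theorem swc_Δ (W : WeierstrassCurve ℤ) : (swc W.c₄ W.c₆).Δ = 6 ^ 12 * W.Δ := by
  rw [swc_Δ_eq, ← W.c_relation]; ring

/-- For `ℓ ≥ 5` the short model has good reduction at `ℓ` iff `W` has. -/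
theorem swc_good_iff (W : WeierstrassCurve ℤ) (ℓ : ℕ) (hℓ : ℓ.Prime) (h5 : 5 ≤ ℓ) :
    (swc W.c₄ W.c₆).IsGoodPrimeFor ℓ ↔ W.IsGoodPrimeFor ℓ := by
  unfold WeierstrassCurve.IsGoodPrimeFor
  rw [swc_Δ]
  have hp : Prime (ℓ : ℤ) := Nat.prime_iff_prime_int.mp hℓ
  have h6 : ¬ (ℓ : ℤ) ∣ 6 ^ 12 := by
    intro h
    have h' := hp.dvd_of_dvd_pow h
    have h'' : ℓ ∣ 6 := by exact_mod_cast h'
    have := Nat.le_of_dvd (by norm_num) h''
    interval_cases ℓ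
    · norm_num at h''
    · norm_num at hℓ
  constructor
  · intro h hd; exact h (Dvd.dvd.mul_left hd _)
  · intro h hd; exact (hp.dvd_or_dvd hd).elim h6 h

section Trace

variable (ℓ : ℕ) [Fact ℓ.Prime]

/-- **[TR]** the congruence of traces of Frobenius from the Frobenius quadratic equation and the
equivariant injection on 5-torsion. -/
theorem ap_congr_aux (k : Type) [Field k] [CharP k ℓ] [IsAlgClosed k] [DecidableEq k]
    (hM2 : Plan.FrobQuadratic) (hF : Plan.FiveCongr) (hℓ : 7 ≤ ℓ)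
    (c4 c6 s : ℤ) (hg : (swc c4 c6).IsGoodPrimeFor ℓ)
    (hg' : (swc (fam4 c4 c6 s) (fam6 c4 c6 s)).IsGoodPrimeFor ℓ) :
    (5 : ℤ) ∣ (swc (fam4 c4 c6 s) (fam6 c4 c6 s)).apOfModel ℓ - (swc c4 c6).apOfModel ℓ := by
  set E := swc c4 c6 with hE
  set E' := swc (fam4 c4 c6 s) (fam6 c4 c6 s) with hE'
  obtain ⟨ι, hadd, hinj, hfrob⟩ := hF ℓ hℓ c4 c6 s hg hg' k
  have hq := hM2 ℓ (by omega) (-27 * c4) (-54 * c6) hg k
  have hq' := hM2 ℓ (by omega) (-27 * fam4 c4 c6 s) (-54 * fam6 c4 c6 s) hg' k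
  change ∀ P : (E⁄k).Point, frobPt ℓ k E (frobPt ℓ k E P) - E.apOfModel ℓ • frobPt ℓ k E P
      + (ℓ : ℤ) • P = 0 at hq
  change ∀ P : (E'⁄k).Point, frobPt ℓ k E' (frobPt ℓ k E' P) - E'.apOfModel ℓ • frobPt ℓ k E' P
      + (ℓ : ℤ) • P = 0 at hq'
  -- a point of order 5
  have hΔk : (E⁄k).Δ ≠ 0 := by
    have : (E⁄k).Δ = algebraMap ℤ k E.Δ := by
      simp [WeierstrassCurve.baseChange, WeierstrassCurve.map_Δ]
    rw [this, eq_intCast, Ne, CharP.intCast_eq_zero_iff k ℓ]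
    exact hg
  have h5k : ((5 : ℕ) : k) ≠ 0 := by
    rw [Ne, CharP.cast_eq_zero_iff k ℓ]
    intro h
    have := Nat.le_of_dvd (by norm_num) h
    omega
  have hcard := Fermat.Agent.Lib.DivPoly.card_torsionBy_of_natCast_ne_zero (E⁄k) hΔk 5 h5k
  have hnt : Nontrivial (Submodule.torsionBy ℤ (E⁄k).Point ((5 : ℕ) : ℤ)) := by
    have h1 : 1 < Nat.card (Submodule.torsionBy ℤ (E⁄k).Point ((5 : ℕ) : ℤ)) := by
      rw [hcard]; norm_num
    have hfin : Finite (Submodule.torsionBy ℤ (E⁄k).Point ((5 : ℕ) : ℤ)) :=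
      Nat.finite_of_card_ne_zero (by omega)
    exact (Finite.one_lt_card_iff_nontrivial).mp h1
  obtain ⟨⟨P, hP⟩, hP0⟩ := exists_ne (0 : Submodule.torsionBy ℤ (E⁄k).Point ((5 : ℕ) : ℤ))
  have hP5 : (5 : ℕ) • P = 0 := by
    have := (Submodule.mem_torsionBy_iff _ _).mp hP
    rw [natCast_zsmul] at this
    exact this
  have hPne : P ≠ 0 := fun h => hP0 (Subtype.ext h)
  -- additivity of ι on 5-torsion
  have tors_add : ∀ {A B : (E⁄k).Point}, (5 : ℕ) • A = 0 → (5 : ℕ) • B = 0 → (5 : ℕ) • (A + B) = 0 := by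
    intro A B hA hB; rw [smul_add, hA, hB, add_zero]
  have tors_neg : ∀ {A : (E⁄k).Point}, (5 : ℕ) • A = 0 → (5 : ℕ) • (-A) = 0 := by
    intro A hA; rw [smul_neg, hA, _root_.neg_zero]
  have tors_frob : ∀ {A : (E⁄k).Point}, (5 : ℕ) • A = 0 → (5 : ℕ) • (frobPt ℓ k E A) = 0 := by
    intro A hA; rw [← map_nsmul, hA, _root_.map_zero]
  have ι0 : ι 0 = 0 := by
    have := hadd 0 0 (smul_zero _) (smul_zero _)
    rw [add_zero] at this
    simpa using this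
  have ιneg : ∀ {A : (E⁄k).Point}, (5 : ℕ) • A = 0 → ι (-A) = - ι A := by
    intro A hA
    have := hadd A (-A) hA (tors_neg hA)
    rw [add_neg_cancel, ι0] at this
    exact (neg_eq_of_add_eq_zero_right this.symm).symm
  have tors_nsmul : ∀ (n : ℕ) {A : (E⁄k).Point}, (5 : ℕ) • A = 0 → (5 : ℕ) • (n • A) = 0 := by
    intro n A hA; rw [smul_comm, hA, smul_zero]
  have ιnsmul : ∀ (n : ℕ) {A : (E⁄k).Point}, (5 : ℕ) • A = 0 → ι (n • A) = n • ι A := by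
    intro n A hA
    induction n with
    | zero => simp [ι0]
    | succ n ih => rw [succ_nsmul, hadd _ _ (tors_nsmul n hA) hA, ih, succ_nsmul]
  have tors_zsmul : ∀ (n : ℤ) {A : (E⁄k).Point}, (5 : ℕ) • A = 0 → (5 : ℕ) • (n • A) = 0 := by
    intro n A hA; rw [smul_comm, hA, smul_zero]
  have ιzsmul : ∀ (n : ℤ) {A : (E⁄k).Point}, (5 : ℕ) • A = 0 → ι (n • A) = n • ι A := by
    intro n A hA
    obtain ⟨m, rfl | rfl⟩ := Int.eq_nat_or_neg n
    · simpa using ιnsmul m hA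
    · rw [neg_smul, neg_smul, natCast_zsmul, natCast_zsmul, ιneg (tors_nsmul m hA), ιnsmul m hA]
  -- transport the quadratic equation
  set Q := ι P with hQ
  have hQne : Q ≠ 0 := fun h => hPne (hinj P hP5 h)
  have hQ5 : (5 : ℕ) • Q = 0 := by rw [hQ, ← ιnsmul 5 hP5, hP5, ι0]
  have hφP := tors_frob hP5
  have hφφP := tors_frob hφP
  have e1 := hq P
  have e2 : ι (frobPt ℓ k E (frobPt ℓ k E P) - E.apOfModel ℓ • frobPt ℓ k E P + (ℓ : ℤ) • P) = 0 := by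
    rw [e1, ι0]
  rw [sub_eq_add_neg, hadd _ _ (tors_add hφφP (tors_neg (tors_zsmul _ hφP))) (tors_zsmul _ hP5),
    hadd _ _ hφφP (tors_neg (tors_zsmul _ hφP)), ιneg (tors_zsmul _ hφP), ιzsmul _ hφP,
    ιzsmul _ hP5, hfrob _ hφP, hfrob _ hP5] at e2
  have e3 := hq' Q
  have e4 : (E'.apOfModel ℓ - E.apOfModel ℓ) • frobPt ℓ k E' Q = 0 := by
    rw [sub_smul]
    have : frobPt ℓ k E' (frobPt ℓ k E' Q) + -(E.apOfModel ℓ • frobPt ℓ k E' Q) + (ℓ : ℤ) • Q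
        - (frobPt ℓ k E' (frobPt ℓ k E' Q) - E'.apOfModel ℓ • frobPt ℓ k E' Q + (ℓ : ℤ) • Q) = 0 := by
      rw [e2, e3, sub_zero]
    rw [← this]; abel
  -- `φ' Q` has order exactly 5
  have hφQne : frobPt ℓ k E' Q ≠ 0 := by
    intro h
    apply hQne
    have hinjφ : Function.Injective (frobPt ℓ k E') := by
      unfold frobPt
      exact Point.map_injective _
    exact hinjφ (by rw [h, _root_.map_zero])
  have hφQ5 : (5 : ℕ) • frobPt ℓ k E' Q = 0 := by rw [← map_nsmul, hQ5, _root_.map_zero]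
  have hord : addOrderOf (frobPt ℓ k E' Q) = 5 := by
    have hdvd := addOrderOf_dvd_of_nsmul_eq_zero hφQ5
    rcases (Nat.dvd_prime (by norm_num : Nat.Prime 5)).mp hdvd with h1 | h5
    · exact absurd (AddMonoid.addOrderOf_eq_one_iff.mp h1) hφQne
    · exact h5
  have := (addOrderOf_dvd_iff_zsmul_eq_zero).mpr e4
  rw [hord] at this
  exact_mod_cast this

theorem ap_congr (hM2 : Plan.FrobQuadratic) (hF : Plan.FiveCongr) (hℓ : 7 ≤ ℓ)
    (c4 c6 s : ℤ) (hg : (swc c4 c6).IsGoodPrimeFor ℓ)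
    (hg' : (swc (fam4 c4 c6 s) (fam6 c4 c6 s)).IsGoodPrimeFor ℓ) :
    (5 : ℤ) ∣ (swc (fam4 c4 c6 s) (fam6 c4 c6 s)).apOfModel ℓ - (swc c4 c6).apOfModel ℓ := by
  classical
  have : CharP (AlgebraicClosure (ZMod ℓ)) ℓ :=
    charP_of_injective_algebraMap (algebraMap (ZMod ℓ) (AlgebraicClosure (ZMod ℓ))).injective ℓ
  exact ap_congr_aux ℓ (AlgebraicClosure (ZMod ℓ)) hM2 hF hℓ c4 c6 s hg hg'

end Trace

/-- Equal reductions have equal traces. -/
theorem apOfModel_eq_of_reductionMod_eq {W W' : WeierstrassCurve ℤ} {p : ℕ}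
    (h : W'.reductionMod p = W.reductionMod p) : W'.apOfModel p = W.apOfModel p := by
  unfold WeierstrassCurve.apOfModel
  rw [h]

/-- **The frozen statement of S52 from the interface propositions.** -/
theorem result_of_plan (hM2 : Plan.FrobQuadratic) (hF : Plan.FiveCongr) (hVC : Plan.CardShort)
    (hMod : Plan.Model) (hIrr : Plan.Irr)
    (W : WeierstrassCurve ℤ) (hΔ : W.Δ ≠ 0) (hW : W.IsSemistableModel)
    (_h5 : W.ModRepIsIrreducible 5) :
    ∃ W' : WeierstrassCurve ℤ, W'.Δ ≠ 0 ∧ W'.IsSemistableModel ∧ W'.ModRepIsIrreducible 3 ∧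
      ∀ ℓ : ℕ, ℓ.Prime → W.IsGoodPrimeFor ℓ → W'.IsGoodPrimeFor ℓ → ℓ ≠ 5 →
        (5 : ℤ) ∣ (W'.apOfModel ℓ - W.apOfModel ℓ) := by
  by_cases h3 : W.ModRepIsIrreducible 3
  · exact ⟨W, hΔ, hW, h3, fun ℓ _ _ _ _ => by simp⟩
  · have hroot := Fermat.Agent.S51.exists_rat_root_of_not_irr3 W hΔ h3
    obtain ⟨N, hN, hmodel⟩ := hMod W hΔ hW
    obtain ⟨s, hNs, hs⟩ := hIrr W hΔ hroot N hN
    obtain ⟨W', h4, h6, hΔ', hss, hr2, hr3⟩ := hmodel s hNs
    refine ⟨W', hΔ', hss, ?_, ?_⟩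
    · by_contra h3'
      obtain ⟨x, hx⟩ := Fermat.Agent.S51.exists_rat_root_of_not_irr3 W' hΔ' h3'
      exact hs W' h4 h6 x hx
    · intro ℓ hℓ hg hg' hℓ5
      have : Fact ℓ.Prime := ⟨hℓ⟩
      by_cases h2 : ℓ = 2
      · subst h2; rw [apOfModel_eq_of_reductionMod_eq hr2]; simp
      by_cases h3 : ℓ = 3
      · subst h3; rw [apOfModel_eq_of_reductionMod_eq hr3]; simp
      have hℓ7 : 7 ≤ ℓ := by
        have := hℓ.two_le
        by_contra hlt
        interval_cases ℓ <;> simp_all (config := { decide := true })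
      rw [hVC ℓ (by omega) W, hVC ℓ (by omega) W', h4, h6]
      apply ap_congr ℓ hM2 hF hℓ7
      · exact (swc_good_iff W ℓ hℓ (by omega)).mpr hg
      · rw [← h4, ← h6]; exact (swc_good_iff W' ℓ hℓ (by omega)).mpr hg'

end Fermat.Agent.S52

end
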