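import Mathlib
import Fermat.Agent.S52.TopWiring
import Fermat.Agent.S52.IrrAlpha
import Fermat.Agent.S52.Ident
import Fermat.Agent.S52.TateParam
import Fermat.Agent.S52.FiveGlue

/-!
# S52: the frozen statement from `Plan.Star` alone

Integration of the landed packages through `TopWiring.result_of_family`, for the family of
`Defs.lean`: the family data (`FiveGlue.FamilyData`) from `Plan.Star`, the Bezout input from the
pencil identity, [IRR-ALPHA] from `IrrAlpha.hnr_fam`, [FIVE] from `FiveGlue`.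
-/

set_option autoImplicit false

open Polynomial WeierstrassCurve WeierstrassCurve.Affine

namespace Fermat.Agent.S52.TopStar

/-- `fam4` as a natural family. -/
def F4 : ∀ (R : Type) [CommRing R], R → R → R → R := fun _ _ a b s => fam4 a b s

/-- `fam6` as a natural family. -/
def F6 : ∀ (R : Type) [CommRing R], R → R → R → R := fun _ _ a b s => fam6 a b s

/-- `tN` as a natural family. -/
def FN : ∀ (R : Type) [CommRing R], R → R → R := fun _ _ c s => tN c s

/-- `tM` as a natural family. -/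
def FM : ∀ (R : Type) [CommRing R], R → R → R := fun _ _ c s => tM c s

theorem map_tN {R S : Type*} [CommRing R] [CommRing S] (f : R →+* S) (c s : R) :
    f (tN c s) = tN (f c) (f s) := by
  simp only [tN, map_add, map_sub, map_mul, map_pow, map_neg, map_ofNat]

theorem map_tM {R S : Type*} [CommRing R] [CommRing S] (f : R →+* S) (c s : R) :
    f (tM c s) = tM (f c) (f s) := by
  simp only [tM, map_add, map_sub, map_mul, map_pow, map_ofNat, map_one]

/-- The family data of `Defs.lean`, from `Plan.Star`. -/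
theorem familyData (hStar : Plan.Star) : FiveGlue.FamilyData F4 F6 FN FM where
  nat4 := fun _ _ _ _ φ a b s => IrrAlpha.map_fam4 φ a b s
  nat6 := fun _ _ _ _ φ a b s => IrrAlpha.map_fam6 φ a b s
  natN := fun _ _ _ _ φ c s => map_tN φ c s
  natM := fun _ _ _ _ φ c s => map_tM φ c s
  hom4 := fun _ _ u a b s => fam4_homog u a b s
  hom6 := fun _ _ u a b s => fam6_homog u a b s
  star4 := fun R _ c s => (hStar R c s).1
  star6 := fun R _ c s => (hStar R c s).2
  zero4 := fun _ _ a b => Fermat.Agent.S52.fam4_zero a b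
  zero6 := fun _ _ a b => Fermat.Agent.S52.fam6_zero a b
  N0 := fun _ _ c => tN_zero c
  M0 := fun _ _ c => tM_zero c

/-- **Bezout input from the pencil identity**: over a field with `30 ≠ 0`, `tN(c, ·)` and
`tM(c, ·)` have no common zero unless `c (c² - 11c - 1) = 0`. -/
theorem bez (k : Type) [Field k] (h2 : (2 : k) ≠ 0) (h3 : (3 : k) ≠ 0) (h5 : (5 : k) ≠ 0)
    (c s : k) (hN : tN c s = 0) (hM : tM c s = 0) : c * (c ^ 2 - 11 * c - 1) = 0 := by
  by_contra hne
  have hc : c ≠ 0 := left_ne_zero_of_mul hne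
  have hq : c ^ 2 - 11 * c - 1 ≠ 0 := right_ne_zero_of_mul hne
  let K := AlgebraicClosure k
  let φ : k →+* K := algebraMap k K
  have hφ : Function.Injective φ := φ.injective
  obtain ⟨r, hr⟩ : ∃ r : K, r ^ 2 = 5 := by
    obtain ⟨r, hr⟩ := IsAlgClosed.exists_pow_nat_eq (5 : K) (n := 2) (by norm_num)
    exact ⟨r, hr⟩
  have hN' : tN (φ c) (φ s) = 0 := by rw [← map_tN, hN, map_zero]
  have hM' : tM (φ c) (φ s) = 0 := by rw [← map_tM, hM, map_zero]
  have h2K : (2 : K) ≠ 0 := by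
    intro h; apply h2; apply hφ; rw [map_ofNat, map_zero]; exact h
  have h3K : (3 : K) ≠ 0 := by
    intro h; apply h3; apply hφ; rw [map_ofNat, map_zero]; exact h
  have h5K : (5 : K) ≠ 0 := by
    intro h; apply h5; apply hφ; rw [map_ofNat, map_zero]; exact h
  have hcK : φ c ≠ 0 := fun h => hc (hφ (by rw [h, map_zero]))
  have hqK : φ c ^ 2 - 11 * φ c - 1 ≠ 0 := by
    intro h
    apply hq
    apply hφ
    rw [map_zero, map_sub, map_sub, map_mul, map_pow, map_ofNat, map_one]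
    exact h
  have hrne : r ≠ 0 := by
    intro h; rw [h] at hr; exact h5K (by rw [← hr]; ring)
  have p1 := pencil (φ c) (φ s) r hr
  have p2 := pencil (φ c) (φ s) (-r) (by rw [neg_sq, hr])
  rw [hN', hM'] at p1 p2
  have hprod : (2 * φ c - 11 - 5 * r) * (2 * φ c - 11 - 5 * -r)
      = 4 * (φ c ^ 2 - 11 * φ c - 1) := by
    linear_combination (-25 : K) * hr
  have h4K : (4 : K) ≠ 0 := by
    have : (4 : K) = 2 * 2 := by norm_num
    rw [this]; exact mul_ne_zero h2K h2K
  have hf := mul_ne_zero h4K hqK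
  rw [← hprod] at hf
  have hf1 : 2 * φ c - 11 - 5 * r ≠ 0 := left_ne_zero_of_mul hf
  have hf2 : 2 * φ c - 11 - 5 * -r ≠ 0 := right_ne_zero_of_mul hf
  have hL1 : 1 + (φ c ^ 2 + 6 * r * φ c + 1) * φ s = 0 := by
    have : (2 * φ c - 11 - 5 * r) * (1 + (φ c ^ 2 + 6 * r * φ c + 1) * φ s) ^ 5 = 0 := by
      rw [← p1]; ring
    exact pow_eq_zero_iff (n := 5) (by norm_num) |>.mp ((mul_eq_zero.mp this).resolve_left hf1)
  have hL2 : 1 + (φ c ^ 2 + 6 * -r * φ c + 1) * φ s = 0 := by
    have : (2 * φ c - 11 - 5 * -r) * (1 + (φ c ^ 2 + 6 * -r * φ c + 1) * φ s) ^ 5 = 0 := by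
      rw [← p2]; ring
    exact pow_eq_zero_iff (n := 5) (by norm_num) |>.mp ((mul_eq_zero.mp this).resolve_left hf2)
  have hdiff : 12 * r * φ c * φ s = 0 := by linear_combination hL1 - hL2
  have h12K : (12 : K) ≠ 0 := by
    have : (12 : K) = 2 * 2 * 3 := by norm_num
    rw [this]; exact mul_ne_zero (mul_ne_zero h2K h2K) h3K
  have hs : φ s = 0 := by
    rcases mul_eq_zero.mp hdiff with h | h
    · rcases mul_eq_zero.mp h with h | h
      · rcases mul_eq_zero.mp h with h | h
        · exact absurd h h12K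
        · exact absurd h hrne
      · exact absurd h hcK
    · exact h
  rw [hs, mul_zero, add_zero] at hL1
  exact one_ne_zero hL1

/-- [MODEL] (M-c) for the family of `Defs.lean`. -/
theorem hcop (hStar : Plan.Star) (p : ℕ) (hp : p.Prime) (c4 c6 s : ℤ)
    (h30 : ¬ (p : ℤ) ∣ 30 * (c4 ^ 3 - c6 ^ 2)) :
    (p : ℤ) ∣ fam4 c4 c6 s → (p : ℤ) ∣ fam6 c4 c6 s → False :=
  TateParam.int_no_common_prime F4 F6 FN FM (familyData hStar).nat4 (familyData hStar).nat6
    (familyData hStar).hom4 (familyData hStar).hom6 (familyData hStar).star4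
    (familyData hStar).star6 bez p hp c4 c6 s h30

/-- **The frozen statement of S52 from `Plan.Star`.** -/
theorem result_of_star (hStar : Plan.Star)
    (W : WeierstrassCurve ℤ) (hΔ : W.Δ ≠ 0) (hW : W.IsSemistableModel)
    (h5 : W.ModRepIsIrreducible 5) :
    ∃ W' : WeierstrassCurve ℤ, W'.Δ ≠ 0 ∧ W'.IsSemistableModel ∧ W'.ModRepIsIrreducible 3 ∧
      ∀ ℓ : ℕ, ℓ.Prime → W.IsGoodPrimeFor ℓ → W'.IsGoodPrimeFor ℓ → ℓ ≠ 5 →
        (5 : ℤ) ∣ (W'.apOfModel ℓ - W.apOfModel ℓ) := by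
  have hD := familyData hStar
  refine TopWiring.result_of_family F4 F6 hD.nat4 hD.nat6 hD.zero4 hD.zero6
    (fun p hp c4 c6 s h30 => hcop hStar p hp c4 c6 s h30)
    (fun c4 c6 h => IrrAlpha.hnr_fam hStar c4 c6 h) ?_ W hΔ hW h5
  intro ℓ _ h7 k _ _ _ _ E0 E0' c4 c6 s h1 h2 h3 h4 h6 h1' h2' h3' h4' h6' hΔ0 hΔ0'
  obtain ⟨k2, k3, k5⟩ := TopWiring.small_ne_zero ℓ h7 k
  exact FiveGlue.exists_five_map_of_familyData hD k2 k3 k5 E0 E0' h1 h2 h3 h1' h2' h3' c4 c6 s
    h4 h6 h4' h6' hΔ0 hΔ0'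

end Fermat.Agent.S52.TopStar
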